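/-
W2-C (S55) block C, deliverable **C3B** (existence theorem mod `p`): INTERFACE (helper17, architect).
Definitions and the exact `Prop`s of the sub-slices of `H14PT.C3B`.
Nothing here is proved by a placeholder.  Plan and paper proofs: NOTES/W2C-C3.md.  Namespace `H17X`.

Model: tensor model of block C (`H17C.ClS S K = (I_K × Div_S K)/Kˣ`).  For a number field `K ∋ ζ_p`,
Galois over `ℚ`, unramified outside `S ∋ p`:  `V = {a : p ∣ div_S a}`, `L = K(V^{1/p})`,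
then `N_{L/K} C_L = p C_K`  (counting: `[C_K : p C_K] ≤ [V : Kˣᵖ] = [L : K] = [C_K : N C_L]`).
-/
import Fermat.Agent.CFT2.C.BCls.Defs_helper22

set_option autoImplicit false
set_option linter.unusedSectionVars false
set_option linter.unusedVariables false
set_option linter.style.haveILetI false

noncomputable section

namespace H17X

open NumberField H17C H14PT H15D

local notation "Qb" => AlgebraicClosure ℚ
local notation "GQ" => (AlgebraicClosure ℚ ≃ₐ[ℚ] AlgebraicClosure ℚ)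

/-! ### an abstract number field `K`: the groups and the indices -/

/-- `p A` -/
def pMul (p : ℕ) (A : Type) [AddCommGroup A] : AddSubgroup A :=
  (nsmulAddMonoidHom (α := A) p).range

theorem mem_pMul {p : ℕ} {A : Type} [AddCommGroup A] (x : A) :
    x ∈ pMul p A ↔ ∃ y : A, p • y = x := Iff.rfl

section abs

variable (S : Finset Nat.Primes) (p : ℕ) (K : Type) [Field K] [NumberField K]

/-- the primes of `𝓞_K` above `S` -/
def PrimesIn : Type :=
  {P : Ideal (𝓞 K) // P.IsPrime ∧ P ≠ ⊥ ∧ ∃ q ∈ S, (((q : ℕ) : ℤ) : 𝓞 K) ∈ P}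

/-- `#S_K`, the number of primes of `K` above `S` -/
def nS : ℕ := Nat.card (PrimesIn S K)

/-- `V = {a ∈ Kˣ : div_S a ∈ p Div_S(K)}` (additively) -/
def vAdd : AddSubgroup (Additive Kˣ) := (pMul p (DivS S K)).comap (divS S K)

/-- `Kˣ → I_K`, additively -/
def diagAdd : Additive Kˣ →+ Additive (KS S K)ˣ := MonoidHom.toAdditive (diagS S K)

/-- `V₀ = {a ∈ V : a ⊗ 1 ∈ I_K^p}` -/
def v0Add : AddSubgroup (Additive Kˣ) :=
  vAdd S p K ⊓ (pMul p (Additive (KS S K)ˣ)).comap (diagAdd S K)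

/-- `|E_S / p| = [E_S : E_S ∩ Kˣᵖ]` -/
def eIdx : ℕ := (pMul p (Additive Kˣ)).relIndex (sUnitsK S K)

/-- `[V : Kˣᵖ]` -/
def vIdx : ℕ := (pMul p (Additive Kˣ)).relIndex (vAdd S p K)

/-- `[V₀ : Kˣᵖ]` -/
def v0Idx : ℕ := (pMul p (Additive Kˣ)).relIndex (v0Add S p K)

/-- `[I_K : I_K^p]` -/
def iIdx : ℕ := (pMul p (Additive (KS S K)ˣ)).index

/-- `|Cl_S / p| = [Div_S : p Div_S + div Kˣ]` -/
def clIdx : ℕ := (pMul p (DivS S K) ⊔ (divS S K).range).index

/-- `[C_K : p C_K] = [A_K : p A_K + Kˣ]` -/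
def cIdx : ℕ := (pMul p (AmbS S K) ⊔ (princS S K).toAddSubgroup).index

end abs

/-- **(EX-SUNIT)** `S`-units: `E_S / p` is finite, and `|E_S/p|² ≥ p^{[K:ℚ] + 2 #S_K}` if `ζ_p ∈ K`,
`p` odd  (Dirichlet: `rank 𝓞ˣ = r₂ - 1`, `[K:ℚ] = 2 r₂`; `E_S/𝓞ˣ ⊆ ℤ^{S_K}` of finite index (class
number); torsion `⊇ μ_p`). -/
def SUnitStatement : Prop :=
  ∀ (S : Finset Nat.Primes) (p : ℕ) (K : Type) [Field K] [NumberField K], p.Prime →
    Finite (PrimesIn S K) ∧ eIdx S p K ≠ 0 ∧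
    (p ≠ 2 → (∃ ζ : K, IsPrimitiveRoot ζ p) →
      p ^ (Module.finrank ℚ K + 2 * nS S K) ≤ eIdx S p K ^ 2)

/-- **(EX-V)** `[V : Kˣᵖ] = |E_S/p| · |Cl_S/p|`, finite  (`0 → E_S/p → V/Kˣᵖ → Cl_S[p] → 0`,
`|Cl_S[p]| = |Cl_S/p|` as `Cl_S` is finite). -/
def VStatement : Prop :=
  ∀ (S : Finset Nat.Primes) (p : ℕ) (K : Type) [Field K] [NumberField K], p.Prime →
    eIdx S p K ≠ 0 → clIdx S p K ≠ 0 ∧ vIdx S p K = eIdx S p K * clIdx S p K

/-- **(EX-LOC)** `[I_K : I_K^p] ≤ p^{[K:ℚ] + 2 #S_K}`, finite, if `ζ_p ∈ K`, `p ∈ S` odd. -/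
def LocStatement : Prop :=
  ∀ (S : Finset Nat.Primes) (p : ℕ) (K : Type) [Field K] [NumberField K], p.Prime → p ≠ 2 →
    (∃ q ∈ S, (q : ℕ) = p) → (∃ ζ : K, IsPrimitiveRoot ζ p) →
    iIdx S p K ≠ 0 ∧ iIdx S p K ≤ p ^ (Module.finrank ℚ K + 2 * nS S K)

/-- **(EX-COUNT)** index bookkeeping: `[C : pC] · [V : Kˣᵖ] = |Cl_S/p| · [I : I^p] · [V₀ : Kˣᵖ]`.
(`A ⊇ I×0 + pA + Kˣ ⊇ pA + Kˣ`; `I ∩ (pA + Kˣ) = I^p · V`; `V ∩ I^p = V₀`.) -/
def CountStatement : Prop :=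
  ∀ (S : Finset Nat.Primes) (p : ℕ) (K : Type) [Field K] [NumberField K], p.Prime →
    iIdx S p K ≠ 0 → vIdx S p K ≠ 0 → clIdx S p K ≠ 0 →
    cIdx S p K ≠ 0 ∧ cIdx S p K * vIdx S p K = clIdx S p K * iIdx S p K * v0Idx S p K

/-! ### extensions `L/K` in the tensor model -/

section ext

variable (S : Finset Nat.Primes) (p : ℕ)
  (K L : Type) [Field K] [NumberField K] [Field L] [NumberField L] [Algebra K L]

/-- `Gal(L/K)` inside `Aut(L)` -/
def fixSub : Subgroup (AutQ L) where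
  carrier := {σ | ∀ x : K, σ (algebraMap K L x) = algebraMap K L x}
  one_mem' := fun x => rfl
  mul_mem' := by
    intro σ τ hσ hτ x
    show σ (τ (algebraMap K L x)) = algebraMap K L x
    rw [hτ x, hσ x]
  inv_mem' := by
    intro σ hσ x
    have h := hσ x
    calc σ⁻¹ (algebraMap K L x) = σ⁻¹ (σ (algebraMap K L x)) := by rw [h]
      _ = algebraMap K L x := σ.symm_apply_apply _

theorem mem_fixSub (σ : AutQ L) :
    σ ∈ fixSub K L ↔ ∀ x : K, σ (algebraMap K L x) = algebraMap K L x := Iff.rfl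

/-- the norm group of `L/K` in `A_K`: `{z : base z ∈ N_H A_L + Lˣ}`, `H = Gal(L/K)` -/
def normAmb : AddSubgroup (AmbS S K) where
  carrier := {z | ∃ y : AmbS S L, ambBase S K L z - ambN S L (fixSub K L) y ∈ princS S L}
  zero_mem' := ⟨0, by simp⟩
  add_mem' := by
    rintro a b ⟨y, hy⟩ ⟨y', hy'⟩
    refine ⟨y + y', ?_⟩
    have h := (princS S L).add_mem hy hy'
    have e : ambBase S K L (a + b) - ambN S L (fixSub K L) (y + y') =
        (ambBase S K L a - ambN S L (fixSub K L) y) +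
          (ambBase S K L b - ambN S L (fixSub K L) y') := by
      rw [map_add, map_add]; abel
    rw [e]; exact h
  neg_mem' := by
    rintro a ⟨y, hy⟩
    refine ⟨-y, ?_⟩
    have h := (princS S L).neg_mem hy
    have e : ambBase S K L (-a) - ambN S L (fixSub K L) (-y) =
        -(ambBase S K L a - ambN S L (fixSub K L) y) := by
      rw [map_neg, map_neg]; abel
    rw [e]; exact h

theorem mem_normAmb (z : AmbS S K) : z ∈ normAmb S K L ↔
    ∃ y : AmbS S L, ambBase S K L z - ambN S L (fixSub K L) y ∈ princS S L := Iff.rfl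

end ext

/-- the `H`-invariant classes -/
def clsInv (S : Finset Nat.Primes) (L : Type) [Field L] [NumberField L] (H : Subgroup (AutQ L)) :
    AddSubgroup (ClS S L) where
  carrier := {c | ∀ σ ∈ H, clsRep S ℚ L σ c = c}
  zero_mem' := fun σ _ => map_zero _
  add_mem' := by
    intro a b ha hb σ hσ
    rw [map_add, ha σ hσ, hb σ hσ]
  neg_mem' := by
    intro a ha σ hσ
    rw [map_neg, ha σ hσ]

theorem mem_clsInv (S : Finset Nat.Primes) (L : Type) [Field L] [NumberField L]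
    (H : Subgroup (AutQ L)) (c : ClS S L) :
    c ∈ clsInv S L H ↔ ∀ σ ∈ H, clsRep S ℚ L σ c = c := Iff.rfl

/-- **(EX-REC)** block A, exponent form of reciprocity: for a class module `(C, γ)` of `G` with
`gⁿ = 1` for all `g`:  `n C^G ⊆ N_G C`.  (`Ĥ⁰(G, C) ≅ Ĥ⁻²(G, ℤ) = G^ab` LINEARLY: `H26AT.h26at_tate`;
as in `H26Rec.h26rec_recCard`.) -/
def RecExpStatement (G : Type) [Group G] [Finite G] : Prop :=
  ∀ (V : Type) [AddCommGroup V] (ρV : Representation ℤ G V)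
    (γ : groupCohomology (Rep.of ρV) 2), H20A.IsClassModule (Rep.of ρV) γ →
    ∀ n : ℕ, (∀ g : G, g ^ n = 1) → ∀ x ∈ ρV.invariants, n • x ∈ (H20A.normOf ρV).range

/-- **(EX-RECAPP)** reciprocity for `p`-subgroups `H ≤ Gal(L/ℚ)`, `L` Galois, unramified outside
`S ∋ p`:  `[C_L^H : N_H C_L] = |H^ab|` and `n C_L^H ⊆ N_H C_L` if `H` has exponent `n`.
(FundamentalClass; a `p`-class module restricted to a `p`-subgroup is a class module; `h26rec_recCard`,
`RecExpStatement`.) -/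
def RecAppStatement : Prop :=
  FundamentalClass → (∀ (G : Type) [Group G] [Finite G], RecExpStatement G) →
  ∀ (S : Finset Nat.Primes) (p : ℕ) (L : Type) [Field L] [NumberField L] [IsGalois ℚ L],
    p.Prime → p ≠ 2 → (∃ q ∈ S, (q : ℕ) = p) → UnramOutside S L ⊤ →
    ∀ H : Subgroup (AutQ L), IsPGroup p H →
      (clsN S L H).range.relIndex (clsInv S L H) = Nat.card (Abelianization H) ∧
      ∀ n : ℕ, (∀ σ ∈ H, σ ^ n = 1) → ∀ c ∈ clsInv S L H, n • c ∈ (clsN S L H).range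

/-- **(EX-SPLIT)** if `L` is generated over `K ∋ ζ_p` by `p`-th roots of elements of `V₀` (which are
`p`-th powers in `K_S`), then `K_S ⊗_K L ≅ K_S^{[L:K]}` and every idele of `K` is a norm from `L`:
`x = N_H y`.  (Step `M ⊂ M(α)`, `α^p = a = b^p`, `b ∈ I_K`: `ε = α/b`, `ε^p = 1`, `e = (1/p) Σ_j ε^j`
idempotent with conjugates `e_i` orthogonal, `Σ e_i = 1`; `y' = y e + (1 - e)` has norm `y`.) -/
def SplitStatement : Prop :=
  ∀ (S : Finset Nat.Primes) (p : ℕ) (K L : Type) [Field K] [NumberField K] [Field L]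
    [NumberField L] [Algebra K L], p.Prime → (∃ ζ : K, IsPrimitiveRoot ζ p) →
    Algebra.adjoin K {α : L | ∃ a : Kˣ, Additive.ofMul a ∈ v0Add S p K ∧
      α ^ p = algebraMap K L (a : K)} = ⊤ →
    ∀ x : (KS S K)ˣ, ∃ y : (KS S L)ˣ,
      ideleN S L (fixSub K L) (Additive.ofMul y) = Additive.ofMul (ideleBase S K L x)

/-! ### the Kummer fields inside `Qb` -/

/-- the Kummer field `F(W^{1/p})`: generated over `F` by ALL `p`-th roots in `Qb` of the elements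
of `W` (in particular by `μ_p`, as `0 ∈ W`) -/
def kumW (p : ℕ) (F : IntermediateField ℚ Qb) (W : AddSubgroup (Additive (↥F)ˣ)) :
    IntermediateField ℚ Qb :=
  F ⊔ IntermediateField.adjoin ℚ
    {w : Qb | ∃ a : (↥F)ˣ, Additive.ofMul a ∈ W ∧ w ^ p = (((a : (↥F)ˣ) : ↥F) : Qb)}

theorem le_kumW (p : ℕ) (F : IntermediateField ℚ Qb) (W : AddSubgroup (Additive (↥F)ˣ)) :
    F ≤ kumW p F W := le_sup_left

/-- `Gal(F'/F ∩ F')` inside `Aut(F')` -/
def galSub (F F' : IntermediateField ℚ Qb) : Subgroup (↥F' ≃ₐ[ℚ] ↥F') where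
  carrier := {σ | ∀ x : F', (x : Qb) ∈ F → σ x = x}
  one_mem' := fun x _ => rfl
  mul_mem' := by
    intro σ τ hσ hτ x hx
    show σ (τ x) = x
    rw [hτ x hx, hσ x hx]
  inv_mem' := by
    intro σ hσ x hx
    have h := hσ x hx
    calc σ⁻¹ x = σ⁻¹ (σ x) := by rw [h]
      _ = x := σ.symm_apply_apply _

theorem mem_galSub (F F' : IntermediateField ℚ Qb) (σ : ↥F' ≃ₐ[ℚ] ↥F') :
    σ ∈ galSub F F' ↔ ∀ x : F', (x : Qb) ∈ F → σ x = x := Iff.rfl

/-- **(EX-KF)** the Kummer field of a Galois-stable `W ≤ V` is a Galois `S`-level (`p ∈ S`).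
(finite: `V/Fˣᵖ` finite; normal: the set of roots is `GQ`-stable; unramified: helper6's CAP argument,
`H22BC.CapStatement`.) -/
def KumFieldStatement : Prop :=
  ∀ (S : Finset Nat.Primes) (p : ℕ), p.Prime → (∃ q ∈ S, (q : ℕ) = p) →
  ∀ (F : IntermediateField ℚ Qb) [FiniteDimensional ℚ F] [IsGalois ℚ F],
    F.IsUnramifiedOutside S → vIdx S p F ≠ 0 →
    ∀ W : AddSubgroup (Additive (↥F)ˣ), W ≤ vAdd S p F →
      (∀ (σ : AutQ F) (a : (↥F)ˣ), Additive.ofMul a ∈ W →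
        Additive.ofMul (Units.map ((σ : F →+* F) : F →* F) a) ∈ W) →
      (kumW p F W).IsUnramifiedOutside S ∧ IsGalois ℚ (kumW p F W)

/-- **(EX-KUM)** Kummer theory: for `ζ_p ∈ F`, `F' = F(W^{1/p})` finite: `Gal(F'/F)` is abelian of
exponent `p` and `|Gal(F'/F)| ≥ [W : W ∩ Fˣᵖ]`  (in fact `=`). -/
def KummerStatement : Prop :=
  ∀ (p : ℕ), p.Prime → ∀ (F : IntermediateField ℚ Qb) [FiniteDimensional ℚ F]
    (W : AddSubgroup (Additive (↥F)ˣ)), (∃ ζ : F, IsPrimitiveRoot ζ p) →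
    FiniteDimensional ℚ (kumW p F W) →
    (∀ σ ∈ galSub F (kumW p F W), σ ^ p = 1) ∧
    (∀ σ ∈ galSub F (kumW p F W), ∀ τ ∈ galSub F (kumW p F W), σ * τ = τ * σ) ∧
    (pMul p (Additive (↥F)ˣ)).relIndex W ≤ Nat.card (galSub F (kumW p F W))

/-! ### assembly -/

/-- **(EX-NORM)** the norm group in `A_K` of `L/K` (`L/ℚ` Galois, unramified outside `S ∋ p`,
`H = Gal(L/K)` a `p`-group of exponent `n`): `Kˣ + n A_K ⊆ 𝒩`, `[A_K : 𝒩] = |H^ab|`.
(EX-RECAPP + descent of classes `H22BC.TowerDescStatement`, `TowerEqvStatement`.) -/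
def NormGroupStatement : Prop :=
  RecAppStatement → FundamentalClass → (∀ (G : Type) [Group G] [Finite G], RecExpStatement G) →
  ∀ (S : Finset Nat.Primes), H22BC.TowerDescStatement S → H22BC.TowerEqvStatement S →
  ∀ (p : ℕ) (K L : Type) [Field K] [NumberField K] [Field L] [NumberField L] [Algebra K L]
    [IsGalois ℚ L], p.Prime → p ≠ 2 → (∃ q ∈ S, (q : ℕ) = p) → UnramOutside S L ⊤ →
    IsPGroup p (fixSub K L) →
    (princS S K).toAddSubgroup ≤ normAmb S K L ∧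
    (normAmb S K L).index = Nat.card (Abelianization (fixSub K L)) ∧
    ∀ n : ℕ, (∀ σ ∈ fixSub K L, σ ^ n = 1) → pMul n (AmbS S K) ≤ normAmb S K L

/-- **(EX-V0)** `[V₀ : Fˣᵖ] ≤ |Cl_S/p|` for a Galois `S`-level `F ∋ ζ_p`.
(`F₀ = F(V₀^{1/p})`: `[V₀ : Fˣᵖ] ≤ |Gal(F₀/F)| = [A_F : 𝒩] ≤ [A_F : I×0 + pA + Fˣ] = |Cl_S/p|` by
EX-KUM, EX-KF, EX-NORM, EX-SPLIT.) -/
def V0Statement : Prop :=
  ∀ (S : Finset Nat.Primes) (p : ℕ), p.Prime → p ≠ 2 → (∃ q ∈ S, (q : ℕ) = p) →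
  ∀ (F : IntermediateField ℚ Qb) [FiniteDimensional ℚ F] [IsGalois ℚ F],
    F.IsUnramifiedOutside S → (∃ ζ : F, IsPrimitiveRoot ζ p) →
    v0Idx S p F ≤ clIdx S p F

/-- **(EX-MU)** the existence theorem mod `p` in the tensor model, for `ζ_p ∈ F`: with
`F' = F(V^{1/p})`, `H = Gal(F'/F)`:  `N_H C_{F'} ⊆ p (C_{F'})^H`. -/
def ExMuStatement : Prop :=
  ∀ (S : Finset Nat.Primes) (p : ℕ), p.Prime → p ≠ 2 → (∃ q ∈ S, (q : ℕ) = p) →
  ∀ (F : IntermediateField ℚ Qb) [FiniteDimensional ℚ F] [IsGalois ℚ F],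
    F.IsUnramifiedOutside S → (∃ ζ : F, IsPrimitiveRoot ζ p) →
    ∃ (_ : FiniteDimensional ℚ (kumW p F (vAdd S p F))),
      ∀ c : ClS S (kumW p F (vAdd S p F)), ∃ c' : ClS S (kumW p F (vAdd S p F)),
        c' ∈ clsInv S (kumW p F (vAdd S p F)) (galSub F (kumW p F (vAdd S p F))) ∧
        clsN S (kumW p F (vAdd S p F)) (galSub F (kumW p F (vAdd S p F))) c = p • c'

/-- **(EX)** the existence theorem mod `p` in the tensor model. -/
def ExTensorStatement (S : Finset Nat.Primes) (p : ℕ) : Prop :=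
  ∀ (F : IntermediateField ℚ Qb) [FiniteDimensional ℚ F] [IsGalois ℚ F],
    F.IsUnramifiedOutside S →
    ∃ (F' : IntermediateField ℚ Qb) (_ : FiniteDimensional ℚ F') (_ : IsGalois ℚ F'),
      F ≤ F' ∧ F'.IsUnramifiedOutside S ∧
      ∀ c : ClS S F', ∃ c' : ClS S F', c' ∈ clsInv S F' (galSub F F') ∧
        clsN S F' (galSub F F') c = p • c'

/-- **(B-CLS, strong form)** `BClsStatement` for a GIVEN field `F` of the level `L` and the
restriction isomorphism `e`. -/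
def BClsStrongStatement (S : Finset Nat.Primes) (p : ℕ) : Prop :=
  ∀ (F : IntermediateField ℚ Qb) [FiniteDimensional ℚ F] [IsGalois ℚ F],
    F.IsUnramifiedOutside S → ∀ L : (levelsS S).Lv, L.U = F.fixingSubgroup →
    ∀ e : (GQ ⧸ L.U) ≃* AutQ F,
      (∀ (g : GQ) (x : F), ((e (g : GQ ⧸ L.U) x : F) : Qb) = g (x : Qb)) →
      ∃ j : (BL S L).V →+ ClS S F, Function.Injective j ∧
        (∀ g b, j ((BL S L).ρ g b) = clsRep S ℚ F (e g) (j b)) ∧
        j.range.index ≠ 0 ∧ ¬ p ∣ j.range.index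

/-- **(EX-TR)** transport: the deliverable `C3B` of block C for block E. -/
def C3TransportStatement : Prop :=
  ∀ (S : Finset Nat.Primes) (p : ℕ), p.Prime → (∃ q ∈ S, (q : ℕ) = p) →
    H22BC.LevelFieldStatement S → BClsStrongStatement S p → ExTensorStatement S p → C3B S p

end H17X

end
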