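import Mathlib
import Fermat.Agent.CFT2.C3.Defs_helper17

/-!
# W2-C (S55) block C3 (existence theorem mod `p`), slice EX-COUNT (helper12)

`H17X.CountStatement`: the index formula in the tensor model (`C = (I × Div_S) / Kˣ`):

  `[C : pC] · [V : Kˣᵖ] = #(Cl_S / p) · [I : Iᵖ] · [V₀ : Kˣᵖ]`.

Pure index calculus: `A ⊇ I×0 + pA + Kˣ ⊇ pA + Kˣ`; `I ∩ (pA + Kˣ) = Iᵖ · V`; `V ∩ Iᵖ = V₀`.
-/

set_option autoImplicit false
set_option linter.style.haveILetI false
set_option linter.unusedSectionVars false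
set_option linter.unusedVariables false

noncomputable section

namespace H12XC

open H17C H17X NumberField

variable (S : Finset Nat.Primes) (p : ℕ) (K : Type) [Field K] [NumberField K]

/-- `I → A`, `x ↦ (x, 0)` -/
def inlI : Additive (KS S K)ˣ →+ AmbS S K := AddMonoidHom.inl _ _

/-- `A → Div_S`, `(x, d) ↦ d` -/
def sndD : AmbS S K →+ DivS S K := AddMonoidHom.snd _ _

theorem sndD_surjective : Function.Surjective (sndD S K) := fun d => ⟨(0, d), rfl⟩

/-- the principal subgroup, as an additive subgroup -/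
abbrev Pr : AddSubgroup (AmbS S K) := (princS S K).toAddSubgroup

theorem mem_Pr (z : AmbS S K) :
    z ∈ Pr S K ↔ ∃ a : Additive Kˣ, (diagAdd S K a, divS S K a) = z := Iff.rfl

/-- `pA + Kˣ` -/
def W0 : AddSubgroup (AmbS S K) := pMul p (AmbS S K) ⊔ Pr S K

/-- `I×0 + pA + Kˣ` -/
def W1 : AddSubgroup (AmbS S K) := W0 S p K ⊔ (inlI S K).range

theorem mem_W0 (z : AmbS S K) : z ∈ W0 S p K ↔
    ∃ (w : AmbS S K) (a : Additive Kˣ), p • w + (diagAdd S K a, divS S K a) = z := by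
  unfold W0
  rw [AddSubgroup.mem_sup]
  constructor
  · rintro ⟨y, ⟨w, rfl⟩, y', ⟨a, rfl⟩, rfl⟩
    exact ⟨w, a, rfl⟩
  · rintro ⟨w, a, rfl⟩
    exact ⟨_, ⟨w, rfl⟩, _, ⟨a, rfl⟩, rfl⟩

theorem mem_vAdd (a : Additive Kˣ) : a ∈ vAdd S p K ↔ ∃ d : DivS S K, p • d = divS S K a :=
  Iff.rfl

theorem pMul_le_v0Add : pMul p (Additive Kˣ) ≤ v0Add S p K := by
  rintro a ⟨z, rfl⟩
  refine ⟨?_, ?_⟩
  · exact ⟨divS S K z, (map_nsmul _ _ _).symm⟩
  · exact ⟨diagAdd S K z, (map_nsmul _ _ _).symm⟩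

theorem v0Add_le_vAdd : v0Add S p K ≤ vAdd S p K := inf_le_left

/-- S2 -/
theorem W1_eq_comap :
    W1 S p K = (pMul p (DivS S K) ⊔ (divS S K).range).comap (sndD S K) := by
  ext z
  rw [AddSubgroup.mem_comap]
  unfold W1
  rw [AddSubgroup.mem_sup, AddSubgroup.mem_sup]
  constructor
  · rintro ⟨y, hy, y', ⟨x₀, rfl⟩, rfl⟩
    rw [mem_W0] at hy
    obtain ⟨w, a, rfl⟩ := hy
    refine ⟨p • w.2, ⟨w.2, rfl⟩, divS S K a, ⟨a, rfl⟩, ?_⟩
    show p • w.2 + divS S K a = (p • w + (diagAdd S K a, divS S K a) + (x₀, 0)).2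
    simp [Prod.snd_add]
  · rintro ⟨y, ⟨d', rfl⟩, y', ⟨a, rfl⟩, h⟩
    refine ⟨p • (0, d') + (diagAdd S K a, divS S K a), (mem_W0 S p K _).mpr ⟨_, _, rfl⟩,
      (z.1 - diagAdd S K a, 0), ⟨_, rfl⟩, ?_⟩
    have h' : p • d' + divS S K a = z.2 := h
    refine Prod.ext ?_ ?_
    · show (p • (0 : Additive (KS S K)ˣ) + diagAdd S K a) + (z.1 - diagAdd S K a) = z.1
      rw [smul_zero, zero_add, add_sub_cancel]
    · show (p • d' + divS S K a) + 0 = z.2
      rw [add_zero, h']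

theorem index_W1 : (W1 S p K).index = clIdx S p K := by
  rw [W1_eq_comap]
  exact AddSubgroup.index_comap_of_surjective _ (sndD_surjective S K)

/-- S4 -/
theorem comap_inlI_W0 :
    (W0 S p K).comap (inlI S K) =
      pMul p (Additive (KS S K)ˣ) ⊔ (vAdd S p K).map (diagAdd S K) := by
  ext x
  rw [AddSubgroup.mem_comap, mem_W0, AddSubgroup.mem_sup]
  constructor
  · rintro ⟨w, a, h⟩
    have h1 : p • w.1 + diagAdd S K a = x := congrArg Prod.fst h
    have h2 : p • w.2 + divS S K a = 0 := congrArg Prod.snd h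
    refine ⟨p • w.1, ⟨w.1, rfl⟩, diagAdd S K a, ⟨a, ?_, rfl⟩, h1⟩
    refine ⟨-w.2, ?_⟩
    show p • (-w.2) = divS S K a
    rw [smul_neg]
    exact neg_eq_of_add_eq_zero_right h2
  · rintro ⟨y, ⟨y₀, rfl⟩, y', ⟨a, ⟨d, hd⟩, rfl⟩, rfl⟩
    refine ⟨(y₀, -d), a, ?_⟩
    refine Prod.ext rfl ?_
    show p • (-d) + divS S K a = 0
    have hd' : p • d = divS S K a := hd
    rw [smul_neg, hd', neg_add_cancel]

/-- S3 -/
theorem relIndex_W0_W1 :
    (W0 S p K).relIndex (W1 S p K) =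
      (pMul p (Additive (KS S K)ˣ) ⊔ (vAdd S p K).map (diagAdd S K)).index := by
  unfold W1
  rw [AddSubgroup.relIndex_sup_left, ← comap_inlI_W0, ← AddSubgroup.relIndex_top_right,
    AddSubgroup.relIndex_comap, ← AddMonoidHom.range_eq_map]

/-- S5 -/
theorem index_mul_relIndex :
    (pMul p (Additive (KS S K)ˣ) ⊔ (vAdd S p K).map (diagAdd S K)).index *
      (v0Add S p K).relIndex (vAdd S p K) = iIdx S p K := by
  have h1 : (pMul p (Additive (KS S K)ˣ)).relIndex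
      (pMul p (Additive (KS S K)ˣ) ⊔ (vAdd S p K).map (diagAdd S K)) =
      (v0Add S p K).relIndex (vAdd S p K) := by
    rw [AddSubgroup.relIndex_sup_left, ← AddSubgroup.relIndex_comap]
    unfold v0Add
    rw [inf_comm, AddSubgroup.inf_relIndex_right]
  rw [← h1, mul_comm]
  exact AddSubgroup.relIndex_mul_index le_sup_left

/-- S6 -/
theorem vIdx_eq : vIdx S p K = v0Idx S p K * (v0Add S p K).relIndex (vAdd S p K) :=
  (AddSubgroup.relIndex_mul_relIndex _ _ _ (pMul_le_v0Add S p K) (v0Add_le_vAdd S p K)).symm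

theorem cIdx_eq :
    cIdx S p K =
      (pMul p (Additive (KS S K)ˣ) ⊔ (vAdd S p K).map (diagAdd S K)).index * clIdx S p K := by
  rw [← relIndex_W0_W1, ← index_W1]
  exact (AddSubgroup.relIndex_mul_index (le_sup_left : W0 S p K ≤ W1 S p K)).symm

/-- **the index formula** (no hypotheses) -/
theorem count_formula :
    cIdx S p K * vIdx S p K = clIdx S p K * iIdx S p K * v0Idx S p K := by
  rw [cIdx_eq, vIdx_eq, ← index_mul_relIndex]
  ring

/-- **EX-COUNT** -/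
theorem exCount : H17X.CountStatement := by
  intro S p K _ _ hp hi hv hcl
  have hf := count_formula S p K
  refine ⟨?_, hf⟩
  have hv0 : v0Idx S p K ≠ 0 := by
    intro h
    apply hv
    rw [vIdx_eq, h, zero_mul]
  intro hc
  rw [hc, zero_mul] at hf
  exact mul_ne_zero (mul_ne_zero hcl hi) hv0 hf.symm

end H12XC
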