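/-
W2-C (S55) block C, C3B sub-slice **EX-UNR** (helper9): core.

For a Galois `S`-level field `F` (`p ∈ S`) there is a Galois `S`-level field `F' ⊇ F` containing a
`p`-th root of every `a ∈ V = {a ∈ Fˣ : p ∣ ord_P a for all primes P of F outside S}`.
(CAP of helper6 for the finitely many classes of `V` modulo `p`-th powers, KFIN of helper12.)
-/
import Fermat.Agent.CFT2.C.BCls.CAP_helper6
import Fermat.Agent.CFT2.E.TFinKFin_helper12

set_option autoImplicit false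
set_option linter.style.haveILetI false
set_option linter.unusedSectionVars false
set_option linter.unusedVariables false

noncomputable section

namespace H9XU

open NumberField H14PT H15D

local notation "Qb" => AlgebraicClosure ℚ
local notation "GQ" => (AlgebraicClosure ℚ ≃ₐ[ℚ] AlgebraicClosure ℚ)

variable (S : Finset Nat.Primes)

/-- the divisor divided by `p` -/
theorem exists_div (p : ℕ) (hp : 0 < p) (K : Type) [Field K] [NumberField K] (a : Kˣ)
    (h : ∀ P : H17C.PrimesS S K, (p : ℤ) ∣ H17C.ordP P (a : K)) :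
    ∃ d : H17C.DivS S K, H17C.divS S K (Additive.ofMul a) = p • d := by
  refine ⟨(H17C.divS S K (Additive.ofMul a)).mapRange (fun z => z / (p : ℤ)) (by simp), ?_⟩
  ext P
  rw [Finsupp.smul_apply, Finsupp.mapRange_apply, H17C.divS_apply, toMul_ofMul]
  obtain ⟨c, hc⟩ := h P
  rw [hc]
  have hp0 : (p : ℤ) ≠ 0 := by exact_mod_cast hp.ne'
  rw [Int.mul_ediv_cancel_left _ hp0]
  simp

/-- sup of two Galois subfields of `Qb` is Galois -/
theorem isGalois_sup (F F' : IntermediateField ℚ Qb) [h1 : IsGalois ℚ F] [h2 : IsGalois ℚ F'] :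
    IsGalois ℚ ↥(F ⊔ F') := by
  haveI n1 : @Normal ℚ ↥F _ _ (IntermediateField.algebra' _) := h1.to_normal
  haveI n2 : @Normal ℚ ↥F' _ _ (IntermediateField.algebra' _) := h2.to_normal
  have h3 : @Normal ℚ ↥(F ⊔ F') _ _ (IntermediateField.algebra' _) :=
    IntermediateField.normal_sup ℚ Qb _ _
  haveI : Normal ℚ ↥(F ⊔ F') := h3
  exact ⟨⟩

/-- finitely many `p`-th roots -/
theorem exists_field_finset (p : ℕ) (hp : p.Prime) (hpS : ∃ q ∈ S, (q : ℕ) = p)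
    (F : IntermediateField ℚ Qb) [FiniteDimensional ℚ F] [IsGalois ℚ F]
    (hF : F.IsUnramifiedOutside S) (T : Finset (↥F)ˣ)
    (hT : ∀ t ∈ T, ∀ P : H17C.PrimesS S F, (p : ℤ) ∣ H17C.ordP P ((t : (↥F)ˣ) : F)) :
    ∃ F' : IntermediateField ℚ Qb, F ≤ F' ∧ F'.IsUnramifiedOutside S ∧ IsGalois ℚ F' ∧
      ∀ t ∈ T, ∃ w ∈ F', w ^ p = (((t : (↥F)ˣ) : F) : Qb) := by
  classical
  induction T using Finset.induction_on with
  | empty => exact ⟨F, le_rfl, hF, inferInstance, by simp⟩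
  | insert t T ht ih =>
    obtain ⟨F₁, h1, h2, h3, h4⟩ := ih (fun t' ht' => hT t' (Finset.mem_insert_of_mem ht'))
    obtain ⟨d, hd⟩ := exists_div S p hp.pos F t (hT t (Finset.mem_insert_self _ _))
    obtain ⟨F₂, g1, g2, g3, w, hw, hwp⟩ := H6CAP.h6cap_cap S p hp hpS F hF t d hd
    haveI := h3
    haveI := g3
    refine ⟨F₁ ⊔ F₂, h1.trans le_sup_left, h2.sup g2, isGalois_sup F₁ F₂, ?_⟩
    intro t' ht'
    rcases Finset.mem_insert.1 ht' with rfl | ht''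
    · exact ⟨w, (le_sup_right : F₂ ≤ F₁ ⊔ F₂) hw, hwp⟩
    · obtain ⟨w', hw', hwp'⟩ := h4 t' ht''
      exact ⟨w', (le_sup_left : F₁ ≤ F₁ ⊔ F₂) hw', hwp'⟩

/-- **EX-UNR core**: a Galois `S`-level `F' ⊇ F` containing a `p`-th root of every element of
`V = {a ∈ Fˣ : p ∣ ord_P a for all P outside S}`. -/
theorem exists_field (p : ℕ) (hp : p.Prime) (hpS : ∃ q ∈ S, (q : ℕ) = p)
    (F : IntermediateField ℚ Qb) [FiniteDimensional ℚ F] [IsGalois ℚ F]
    (hF : F.IsUnramifiedOutside S) :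
    ∃ F' : IntermediateField ℚ Qb, F ≤ F' ∧ F'.IsUnramifiedOutside S ∧ IsGalois ℚ F' ∧
      ∀ a : (↥F)ˣ, (∀ P : H17C.PrimesS S F, (p : ℤ) ∣ H17C.ordP P ((a : (↥F)ˣ) : F)) →
        ∃ w ∈ F', w ^ p = (((a : (↥F)ˣ) : F) : Qb) := by
  classical
  obtain ⟨T, hTfin, hT⟩ := H12KF.kfin S (↥F) p hp.pos
  let T' : Finset (↥F)ˣ := hTfin.toFinset.filter
    (fun t => ∀ P : H17C.PrimesS S F, (p : ℤ) ∣ H17C.ordP P ((t : (↥F)ˣ) : F))
  obtain ⟨F', h1, h2, h3, h4⟩ := exists_field_finset S p hp hpS F hF T'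
    (fun t ht => (Finset.mem_filter.1 ht).2)
  refine ⟨F', h1, h2, h3, ?_⟩
  intro a ha
  obtain ⟨t, htT, y, hy⟩ := hT a ha
  have htV : ∀ P : H17C.PrimesS S F, (p : ℤ) ∣ H17C.ordP P ((t : (↥F)ˣ) : F) := by
    intro P
    have h5 : ((a : (↥F)ˣ) : F) = ((t : (↥F)ˣ) : F) * ((y : (↥F)ˣ) : F) ^ p := by
      rw [hy]
      push_cast
      rfl
    have h6 : H17C.ordP P (((y : (↥F)ˣ) : F) ^ p) = p * H17C.ordP P ((y : (↥F)ˣ) : F) := by
      have := H6CAP.h6cap_ordP_zpow S P ((y : (↥F)ˣ) : F) (p : ℤ)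
      rw [zpow_natCast] at this
      rw [this]
    have h7 := ha P
    rw [h5, H17C.ordP_mul P t.ne_zero (pow_ne_zero _ y.ne_zero), h6] at h7
    exact (Int.dvd_add_left (dvd_mul_right _ _)).1 h7
  obtain ⟨w, hw, hwp⟩ := h4 t (Finset.mem_filter.2 ⟨hTfin.mem_toFinset.2 htT, htV⟩)
  refine ⟨w * ((y : (↥F)ˣ) : F), F'.mul_mem hw (h1 (SetLike.coe_mem _)), ?_⟩
  rw [mul_pow, hwp, hy]
  push_cast
  rfl

end H9XU

end
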