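/-
W2-C (S55) block C, C3B sub-slice **EX-KF** (helper9): `H17X.KumFieldStatement`.

The Kummer field `F(W^{1/p})` of a Galois-stable `W ≤ V` is a Galois `S`-level (`p ∈ S`).
(unramified + finite: contained in the `S`-level of `H9XU.exists_field` joined with `F(μ_p)`;
normal: the generating set is `GQ`-stable.)
-/
import Fermat.Agent.CFT2.C3.ExUnrCore_helper9
import Fermat.Agent.CFT2.C3.Defs_helper17
import Fermat.Agent.CFT2.C.BClsLevel_helper9

set_option autoImplicit false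
set_option linter.style.haveILetI false
set_option linter.unusedSectionVars false
set_option linter.unusedVariables false

noncomputable section

namespace H9XU

open NumberField H14PT H15D H6G6

local notation "Qb" => AlgebraicClosure ℚ
local notation "GQ" => (AlgebraicClosure ℚ ≃ₐ[ℚ] AlgebraicClosure ℚ)

variable (S : Finset Nat.Primes)

/-- elements of `V` have divisor divisible by `p` -/
theorem dvd_of_mem_vAdd (p : ℕ) (K : Type) [Field K] [NumberField K] (a : Kˣ)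
    (h : Additive.ofMul a ∈ H17X.vAdd S p K) (P : H17C.PrimesS S K) :
    (p : ℤ) ∣ H17C.ordP P (a : K) := by
  obtain ⟨d, hd⟩ := (H17X.mem_pMul _).1 (AddSubgroup.mem_comap.1 h)
  have h1 := DFunLike.congr_fun hd P
  rw [H17C.divS_apply, toMul_ofMul, Finsupp.smul_apply] at h1
  rw [← h1]
  simp

/-- `F(μ_p)` is an `S`-level (`p ∈ S`) -/
theorem unram_mu (p : Nat.Primes) (hpS : p ∈ S) (F : IntermediateField ℚ Qb)
    (hF : F.IsUnramifiedOutside S) (ζ : Qb) (hζ : ζ ^ (p : ℕ) = 1) :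
    (h6g6_field ζ ⊔ F).IsUnramifiedOutside S := by
  refine H6CAP.h6cap_unram S p hpS F hF ζ ?_
  intro σ q hq A hA
  refine ⟨1, F.one_mem, one_ne_zero, ?_, ?_, ?_⟩
  · rw [hζ, map_one]; exact F.one_mem
  · rw [hζ, map_one, one_pow, div_one]; exact A.one_mem
  · rw [hζ, map_one, one_pow, div_one, inv_one]; exact A.one_mem

/-- the Kummer field is contained in an `S`-level -/
theorem kumW_le (p : ℕ) (hp : p.Prime) (hpS : ∃ q ∈ S, (q : ℕ) = p)
    (F : IntermediateField ℚ Qb) [FiniteDimensional ℚ F] [IsGalois ℚ F]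
    (hF : F.IsUnramifiedOutside S) (W : AddSubgroup (Additive (↥F)ˣ))
    (hW : W ≤ H17X.vAdd S p F) :
    ∃ F' : IntermediateField ℚ Qb, F'.IsUnramifiedOutside S ∧ H17X.kumW p F W ≤ F' := by
  obtain ⟨F₁, h1, h2, h3, h4⟩ := exists_field S p hp hpS F hF
  haveI : NeZero p := ⟨hp.ne_zero⟩
  haveI : NeZero ((p : ℕ) : Qb) := ⟨by exact_mod_cast hp.ne_zero⟩
  obtain ⟨ζ, hζ⟩ := HasEnoughRootsOfUnity.exists_primitiveRoot Qb p
  obtain ⟨q0, hq0S, hq0⟩ := hpS
  have hζ1 : ζ ^ (q0 : ℕ) = 1 := by rw [hq0]; exact hζ.pow_eq_one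
  have h5 := unram_mu S q0 hq0S F hF ζ hζ1
  have hζmem : ζ ∈ h6g6_field ζ ⊔ F := H6CAP.h6cap_mem F ζ
  refine ⟨F₁ ⊔ (h6g6_field ζ ⊔ F), h2.sup h5, ?_⟩
  unfold H17X.kumW
  refine sup_le (h1.trans le_sup_left) ?_
  rw [IntermediateField.adjoin_le_iff]
  rintro w ⟨a, haW, hw⟩
  obtain ⟨w0, hw0, hw0p⟩ := h4 a (fun P => dvd_of_mem_vAdd S p F a (hW haW) P)
  have ha0 : (((a : (↥F)ˣ) : ↥F) : Qb) ≠ 0 := by
    intro h
    exact a.ne_zero (by exact_mod_cast h)
  have hw00 : w0 ≠ 0 := by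
    rintro rfl
    rw [zero_pow hp.ne_zero] at hw0p
    exact ha0 hw0p.symm
  have h6 : (w / w0) ^ p = 1 := by
    rw [div_pow, hw, hw0p, div_self ha0]
  obtain ⟨i, -, hi⟩ := hζ.eq_pow_of_pow_eq_one h6
  have h7 : w = ζ ^ i * w0 := by
    rw [hi, div_mul_cancel₀ _ hw00]
  show w ∈ F₁ ⊔ (h6g6_field ζ ⊔ F)
  rw [h7]
  exact mul_mem
    (pow_mem ((le_sup_right : _ ≤ F₁ ⊔ (h6g6_field ζ ⊔ F)) hζmem) i)
    ((le_sup_left : F₁ ≤ F₁ ⊔ (h6g6_field ζ ⊔ F)) hw0)

/-- the Kummer field of a Galois-stable `W` is `GQ`-stable -/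
theorem kumW_map_le (p : ℕ) (F : IntermediateField ℚ Qb) [FiniteDimensional ℚ F]
    [hG : IsGalois ℚ F] (W : AddSubgroup (Additive (↥F)ˣ))
    (hst : ∀ (σ : H17C.AutQ F) (a : (↥F)ˣ), Additive.ofMul a ∈ W →
        Additive.ofMul (Units.map ((σ : F →+* F) : F →* F) a) ∈ W) (σ : GQ) :
    (H17X.kumW p F W).map (σ : Qb →ₐ[ℚ] Qb) ≤ H17X.kumW p F W := by
  haveI := H9BL.normal_Qb
  haveI nF : @Normal ℚ ↥F _ _ (IntermediateField.algebra' _) := hG.to_normal
  have hFmap : F.map (σ : Qb →ₐ[ℚ] Qb) ≤ F :=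
    (IntermediateField.normal_iff_forall_map_le' (F := ℚ) (L := Qb) (K := F)).1 nF σ
  unfold H17X.kumW
  rw [IntermediateField.map_sup]
  refine sup_le (hFmap.trans le_sup_left) ?_
  rw [IntermediateField.adjoin_map]
  refine le_trans ?_ le_sup_right
  apply IntermediateField.adjoin.mono
  rintro _ ⟨w, ⟨a, haW, hw⟩, rfl⟩
  let σ' : F ≃ₐ[ℚ] F := AlgEquiv.restrictNormal σ F
  have hσ' : ∀ x : F, ((σ' x : F) : Qb) = σ (x : Qb) :=
    fun x => AlgEquiv.restrictNormal_commutes σ F x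
  refine ⟨Units.map ((σ' : F →+* F) : F →* F) a, hst σ' a haW, ?_⟩
  show (σ w) ^ p = ((σ' (a : F) : F) : Qb)
  rw [hσ', ← hw, map_pow]

/-- **(EX-KF)** -/
theorem kumField : H17X.KumFieldStatement := by
  intro S p hp hpS F _ _ hF _ W hW hst
  obtain ⟨F', hF', hle⟩ := kumW_le S p hp hpS F hF W hW
  have hU : (H17X.kumW p F W).IsUnramifiedOutside S := hF'.of_le hle
  refine ⟨hU, ?_⟩
  haveI := H9BL.normal_Qb
  have hN : @Normal ℚ ↥(H17X.kumW p F W) _ _ (IntermediateField.algebra' _) :=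
    (IntermediateField.normal_iff_forall_map_le' (F := ℚ) (L := Qb)
      (K := H17X.kumW p F W)).2 (fun σ => kumW_map_le p F W hst σ)
  haveI : Normal ℚ ↥(H17X.kumW p F W) := hN
  exact ⟨⟩

end H9XU

end
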