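/-
W2-C (S55) block C, deliverable C3B, slice **EX-MU** (helper17): the existence theorem mod `p` in the
tensor model for `ζ_p ∈ F`, from the slices of `CFT2/C3/Defs_helper17.lean`.
-/
import Fermat.Agent.CFT2.C3.Defs_helper17
import Fermat.Agent.CFT2.C.SI_helper22

set_option autoImplicit false
set_option linter.unusedSectionVars false
set_option linter.unusedVariables false
set_option linter.style.haveILetI false

noncomputable section

namespace H17X

open NumberField H17C H14PT H15D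

local notation "Qb" => AlgebraicClosure ℚ

/-- `V` is stable under automorphisms -/
theorem h17x_vAdd_stable (S : Finset Nat.Primes) (p : ℕ) (K : Type) [Field K] [NumberField K]
    (σ : AutQ K) (a : Kˣ) (ha : Additive.ofMul a ∈ vAdd S p K) :
    Additive.ofMul (Units.map ((σ : K →+* K) : K →* K) a) ∈ vAdd S p K := by
  obtain ⟨d, hd⟩ := ha
  refine ⟨divRep S ℚ K σ d, ?_⟩
  have h := divS_smul S ℚ K σ a
  show (p : ℕ) • divRep S ℚ K σ d = divS S K (Additive.ofMul (Units.map ((σ : K →+* K) : K →* K) a))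
  have e : (Units.map ((σ : K →+* K) : K →* K) a) = Units.map (σ : K →* K) a := by
    apply Units.ext; rfl
  rw [e, h]
  have hd' : p • d = divS S K (Additive.ofMul a) := hd
  rw [← hd', map_nsmul]

/-- the norm of a class is invariant -/
theorem h17x_clsN_inv (S : Finset Nat.Primes) (L : Type) [Field L] [NumberField L]
    (H : Subgroup (AutQ L)) (c : ClS S L) (σ : AutQ L) (hσ : σ ∈ H) :
    clsRep S ℚ L σ (clsN S L H c) = clsN S L H c := by
  letI : Fintype H := Fintype.ofFinite H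
  show clsRep S ℚ L σ ((∑ h : H, clsRep S ℚ L (h : AutQ L)) c) =
    (∑ h : H, clsRep S ℚ L (h : AutQ L)) c
  rw [LinearMap.sum_apply, map_sum]
  refine Fintype.sum_equiv (Equiv.mulLeft (⟨σ, hσ⟩ : H)) _ _ ?_
  intro h
  show clsRep S ℚ L σ (clsRep S ℚ L (h : AutQ L) c) = clsRep S ℚ L ((⟨σ, hσ⟩ * h : H) : AutQ L) c
  rw [Subgroup.coe_mul, map_mul]
  rfl

theorem h17x_le_of_index_le {A : Type} [AddCommGroup A] (B N : AddSubgroup A) (hBN : B ≤ N)
    (hB : B.index ≠ 0) (h : B.index ≤ N.index) : N ≤ B := by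
  have h1 := AddSubgroup.relIndex_mul_index hBN
  have hN : N.index ≠ 0 := fun h0 => hB (by rw [← h1, h0, mul_zero])
  have h2 : B.relIndex N ≠ 0 := fun h0 => hB (by rw [← h1, h0, zero_mul])
  have h3 : B.relIndex N * N.index ≤ 1 * N.index := by rw [h1, one_mul]; exact h
  have h4 : B.relIndex N ≤ 1 := Nat.le_of_mul_le_mul_right h3 (Nat.pos_of_ne_zero hN)
  have h5 : B.relIndex N = 1 := le_antisymm h4 (Nat.pos_of_ne_zero h2)
  exact AddSubgroup.relIndex_eq_one.mp h5

/-- the counting inequality `[C : pC] ≤ [V : Kˣᵖ]` -/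
theorem h17x_count (hSU : SUnitStatement) (hV : VStatement) (hLoc : LocStatement)
    (hCount : CountStatement) (S : Finset Nat.Primes) (p : ℕ) (K : Type) [Field K] [NumberField K]
    (hp : p.Prime) (hp2 : p ≠ 2) (hpS : ∃ q ∈ S, (q : ℕ) = p) (hζ : ∃ ζ : K, IsPrimitiveRoot ζ p)
    (hv0 : v0Idx S p K ≤ clIdx S p K) :
    cIdx S p K ≠ 0 ∧ vIdx S p K ≠ 0 ∧ cIdx S p K ≤ vIdx S p K := by
  obtain ⟨-, heI, hbound⟩ := hSU S p K hp
  obtain ⟨hcl, hvI⟩ := hV S p K hp heI
  have hv : vIdx S p K ≠ 0 := by rw [hvI]; exact Nat.mul_ne_zero heI hcl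
  obtain ⟨hi, hile⟩ := hLoc S p K hp hp2 hpS hζ
  obtain ⟨hc, hcv⟩ := hCount S p K hp hi hv hcl
  refine ⟨hc, hv, ?_⟩
  have hie : iIdx S p K ≤ eIdx S p K ^ 2 := hile.trans (hbound hp2 hζ)
  have h1 : cIdx S p K * vIdx S p K ≤ vIdx S p K * vIdx S p K := by
    rw [hcv]
    calc clIdx S p K * iIdx S p K * v0Idx S p K
        ≤ clIdx S p K * eIdx S p K ^ 2 * clIdx S p K :=
          Nat.mul_le_mul (Nat.mul_le_mul_left _ hie) hv0
      _ = vIdx S p K * vIdx S p K := by rw [hvI]; ring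
  exact Nat.le_of_mul_le_mul_right h1 (Nat.pos_of_ne_zero hv)

/-- **(EX-MU)** from the slices -/
theorem h17x_exMu (hSU : SUnitStatement) (hV : VStatement) (hLoc : LocStatement)
    (hCount : CountStatement) (hV0 : V0Statement) (hKF : KumFieldStatement)
    (hKum : KummerStatement) (hNG : NormGroupStatement) (hRA : RecAppStatement)
    (hFC : FundamentalClass) (hRE : ∀ (G : Type) [Group G] [Finite G], RecExpStatement G)
    (hUnr : ∀ S : Finset Nat.Primes, H22BC.UnrTrStatement S)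
    (hTD : ∀ S : Finset Nat.Primes, H22BC.TowerDescStatement S)
    (hTE : ∀ S : Finset Nat.Primes, H22BC.TowerEqvStatement S) : ExMuStatement := by
  intro S p hp hp2 hpS F _ _ hF hζ
  have hSne : S.Nonempty := by
    obtain ⟨q, hq, -⟩ := hpS
    exact ⟨q, hq⟩
  obtain ⟨hc, hv, hcv⟩ := h17x_count hSU hV hLoc hCount S p F hp hp2 hpS hζ
    (hV0 S p hp hp2 hpS F hF hζ)
  obtain ⟨hunr, hgal⟩ := hKF S p hp hpS F hF hv (vAdd S p F) le_rfl
    (fun σ a ha => h17x_vAdd_stable S p F σ a ha)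
  haveI hfd : FiniteDimensional ℚ (kumW p F (vAdd S p F)) := hunr.1
  haveI := hgal
  refine ⟨hfd, ?_⟩
  letI : Algebra F (kumW p F (vAdd S p F)) :=
    (IntermediateField.inclusion (le_kumW p F (vAdd S p F))).toRingHom.toAlgebra
  have hUO : UnramOutside S (kumW p F (vAdd S p F)) ⊤ := hUnr S (kumW p F (vAdd S p F)) hunr
  have hfix : fixSub F (kumW p F (vAdd S p F)) = galSub F (kumW p F (vAdd S p F)) := by
    ext σ
    rw [mem_fixSub, mem_galSub]
    constructor
    · intro h x hx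
      have := h ⟨(x : Qb), hx⟩
      have e : algebraMap F (kumW p F (vAdd S p F)) ⟨(x : Qb), hx⟩ = x := by
        apply Subtype.ext; rfl
      rw [e] at this
      exact this
    · intro h x
      exact h _ x.2
  obtain ⟨hexp, hcomm, hcard⟩ := hKum p hp F (vAdd S p F) hζ hfd
  rw [← hfix] at hexp hcomm hcard
  have hPG : IsPGroup p (fixSub F (kumW p F (vAdd S p F))) := by
    intro g
    refine ⟨1, ?_⟩
    apply Subtype.ext
    rw [pow_one, Subgroup.coe_pow]
    exact hexp g g.2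
  obtain ⟨hprinc, hidx, hpmul⟩ := hNG hRA hFC hRE S (hTD S) (hTE S) p F
    (kumW p F (vAdd S p F)) hp hp2 hpS hUO hPG
  have hab : Nat.card (Abelianization (fixSub F (kumW p F (vAdd S p F)))) =
      Nat.card (fixSub F (kumW p F (vAdd S p F))) := by
    letI : CommGroup (fixSub F (kumW p F (vAdd S p F))) :=
      { (inferInstance : Group (fixSub F (kumW p F (vAdd S p F)))) with
        mul_comm := fun a b => Subtype.ext (hcomm a a.2 b b.2) }
    exact (Nat.card_congr (Abelianization.equivOfComm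
      (H := fixSub F (kumW p F (vAdd S p F)))).toEquiv).symm
  have hle : pMul p (AmbS S F) ⊔ (princS S F).toAddSubgroup ≤ normAmb S F (kumW p F (vAdd S p F)) :=
    sup_le (hpmul p (fun σ hσ => hexp σ hσ)) hprinc
  have hNle : normAmb S F (kumW p F (vAdd S p F)) ≤
      pMul p (AmbS S F) ⊔ (princS S F).toAddSubgroup := by
    apply h17x_le_of_index_le _ _ hle hc
    rw [hidx, hab]
    exact hcv.trans hcard
  obtain ⟨hTD1, hTD2, hTD3⟩ := hTD S F (kumW p F (vAdd S p F)) hSne hUO
  intro c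
  obtain ⟨y, rfl⟩ := clsMk_surjective S (kumW p F (vAdd S p F)) c
  have hN : clsN S (kumW p F (vAdd S p F)) (fixSub F (kumW p F (vAdd S p F)))
      (clsMk S (kumW p F (vAdd S p F)) y) =
      clsMk S (kumW p F (vAdd S p F)) (ambN S (kumW p F (vAdd S p F))
        (fixSub F (kumW p F (vAdd S p F))) y) :=
    (H22C.h22c_pi_ambN S (kumW p F (vAdd S p F)) (fixSub F (kumW p F (vAdd S p F))) y).symm
  obtain ⟨w, hw⟩ := hTD3 (ambN S (kumW p F (vAdd S p F))
      (fixSub F (kumW p F (vAdd S p F))) y) (by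
    intro σ hσ
    rw [← hN]
    exact h17x_clsN_inv S _ _ _ σ hσ)
  have hwN : w ∈ normAmb S F (kumW p F (vAdd S p F)) := by
    refine ⟨y, ?_⟩
    exact (Submodule.Quotient.eq _).mp hw
  obtain ⟨a, ha, b, hb, hab'⟩ := AddSubgroup.mem_sup.mp (hNle hwN)
  obtain ⟨z, hz⟩ := ha
  obtain ⟨x, hx⟩ := hb
  have hz' : p • z = a := hz
  have hx' : princHom S F x = b := hx
  refine ⟨clsMk S (kumW p F (vAdd S p F)) (ambBase S F (kumW p F (vAdd S p F)) z), ?_, ?_⟩
  · intro σ hσ
    rw [← hfix] at hσ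
    have h := hTE S F (kumW p F (vAdd S p F)) σ 1 (fun x => (hσ x).symm) z
    rw [clsRep_mk, ← h, map_one]
    rfl
  · rw [← hfix, hN, ← hw, ← hab', ← hz', ← hx', map_add, map_add, map_nsmul, map_nsmul]
    have hb0 : clsMk S (kumW p F (vAdd S p F))
        (ambBase S F (kumW p F (vAdd S p F)) (princHom S F x)) = 0 := by
      rw [clsMk_eq_zero_iff]
      have := hTD1 (Additive.toMul x)
      exact ⟨_, this.symm⟩
    rw [hb0, add_zero]

end H17X

end
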