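/-
W2-C (S55) block C, C3B sub-slice **EX-REC** (helper25), abstract form.

For a class module `(C, γ)` of a finite group `G`: `Ĥ⁰(G, C) ≅ Ĥ⁻²(G, ℤ) ≅ G^ab` (Tate's theorem,
`H26AT.h26at_tate`), hence
* `exrec_exp`  : if `g ^ n = 1` for all `g : G` then `n • C^G ⊆ N_G C`;
* `exrec_card` : `[C^G : N_G C] = |G|` for commutative `G`.
-/
import Mathlib
import Fermat.Agent.CFT2.A.W3Rec_helper26
import Fermat.Agent.CFT2.A.W3SylNat_helper25
import Fermat.Agent.CFT2.A.AR_helper26

set_option autoImplicit false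
set_option linter.style.haveILetI false
set_option linter.unusedSectionVars false
set_option linter.unusedVariables false

noncomputable section

namespace H25X

open CategoryTheory Rep groupCohomology

variable {G : Type} [Group G] [Finite G]

/-- an additive equivalence transports "killed by `n`" -/
theorem killed_of_addEquiv {A B : Type*} [AddCommGroup A] [AddCommGroup B] (e : A ≃+ B) (n : ℕ)
    (h : ∀ b : B, n • b = 0) (a : A) : n • a = 0 := by
  apply e.injective
  rw [map_nsmul, h, map_zero]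

/-- the abelianization is killed by every exponent of `G` -/
theorem ab_killed (n : ℕ) (hexp : ∀ g : G, g ^ n = 1) (a : Additive (Abelianization G)) :
    n • a = 0 := by
  obtain ⟨g, hg⟩ := QuotientGroup.mk_surjective (s := commutator G) (Additive.toMul a)
  have hg' : Abelianization.of g = Additive.toMul a := hg
  have h1 : (Additive.toMul a) ^ n = 1 := by
    rw [← hg', ← map_pow, hexp, map_one]
  exact congrArg Additive.ofMul h1

/-- `Ĥ⁻²(G, ℤ)` is killed by every exponent of `G` -/
theorem tate_neg_two_killed (n : ℕ) (hexp : ∀ g : G, g ^ n = 1)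
    (x : H20A.tate (Rep.trivial ℤ G ℤ) (-2)) : n • x = 0 := by
  letI : Fintype G := Fintype.ofFinite G
  have e1 := (TateCohomology.isoGroupHomology (R := ℤ) (G := G) (-2) 1 (by norm_num)).app
    (Rep.trivial ℤ G ℤ)
  have e2 := groupHomology.H1AddEquivOfIsTrivial (Rep.trivial ℤ G ℤ)
  have e3 : TensorProduct ℤ (Additive (Abelianization G)) ℤ ≃ₗ[ℤ] Additive (Abelianization G) :=
    TensorProduct.rid ℤ (Additive (Abelianization G))
  have k3 : ∀ b : TensorProduct ℤ (Additive (Abelianization G)) ℤ, n • b = 0 :=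
    fun b => killed_of_addEquiv e3.toAddEquiv n (ab_killed n hexp) b
  have k2 : ∀ b : groupHomology (Rep.trivial ℤ G ℤ) 1, n • b = 0 :=
    fun b => killed_of_addEquiv e2 n k3 b
  exact killed_of_addEquiv e1.toLinearEquiv.toAddEquiv n k2 x

/-- for a class module, `Ĥ⁰(G, C)` is killed by every exponent of `G` -/
theorem tate_zero_killed {V : Type} [AddCommGroup V] (ρ : Representation ℤ G V)
    (γ : groupCohomology (Rep.of ρ) 2) (hcm : H20A.IsClassModule (Rep.of ρ) γ)
    (n : ℕ) (hexp : ∀ g : G, g ^ n = 1) (x : H20A.tate (Rep.of ρ) 0) : n • x = 0 := by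
  obtain ⟨e⟩ := H26AT.h26at_tate G (Rep.of ρ) γ hcm (-2)
  have h2 : ((-2 : ℤ) + 2) = 0 := by norm_num
  rw [h2] at e
  exact killed_of_addEquiv e.toLinearEquiv.toAddEquiv.symm n (tate_neg_two_killed n hexp) x

/-- **EX-REC (exponent)**: for a class module, `n • C^G ⊆ N_G C` for every exponent `n` of `G` -/
theorem exrec_exp {V : Type} [AddCommGroup V] (ρ : Representation ℤ G V)
    (γ : groupCohomology (Rep.of ρ) 2) (hcm : H20A.IsClassModule (Rep.of ρ) γ)
    (n : ℕ) (hexp : ∀ g : G, g ^ n = 1) (c : V) (hc : ∀ g, ρ g c = c) :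
    ∃ d : V, H20A.normOf ρ d = n • c := by
  obtain ⟨π, -, hker, -⟩ := H10AT.h10at_tateZero G
  have hmem : n • c ∈ ρ.invariants := fun g => by rw [map_nsmul, hc g]
  have h1 : π V ρ ⟨n • c, hmem⟩ = 0 := by
    have h2 : (⟨n • c, hmem⟩ : ρ.invariants) = n • (⟨c, hc⟩ : ρ.invariants) := rfl
    rw [h2, map_nsmul]
    exact tate_zero_killed ρ γ hcm n hexp _
  exact (hker V ρ _).1 h1

/-- **EX-REC (index)**: for a class module of a commutative group, `[C^G : N_G C] = |G|` -/
theorem exrec_card (hcomm : ∀ a b : G, a * b = b * a) {V : Type} [AddCommGroup V]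
    (ρ : Representation ℤ G V) (γ : groupCohomology (Rep.of ρ) 2)
    (hcm : H20A.IsClassModule (Rep.of ρ) γ) :
    (H20A.normOf ρ).range.relIndex ρ.invariants.toAddSubgroup = Nat.card G := by
  rw [H26Rec.h26rec_recCard G V ρ γ hcm]
  letI : CommGroup G := { (inferInstance : Group G) with mul_comm := hcomm }
  exact Nat.card_congr (Abelianization.equivOfComm (H := G)).symm.toEquiv

/-! ### `Rep` forms -/

/-- the norm `∑_g g` of a `G`-module, as an additive map -/
def normRep (A : Rep.{0} ℤ G) : A.V →+ A.V :=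
  letI : Fintype G := Fintype.ofFinite G
  ∑ g : G, (A.ρ g : A.V →ₗ[ℤ] A.V).toAddMonoidHom

theorem normRep_apply (A : Rep.{0} ℤ G) (d : A.V) :
    normRep A d = (letI : Fintype G := Fintype.ofFinite G; ∑ g : G, A.ρ g d) := by
  letI : Fintype G := Fintype.ofFinite G
  unfold normRep
  rw [AddMonoidHom.finsetSum_apply]
  rfl

/-- the invariants of a `G`-module, as an additive subgroup -/
def invRep (A : Rep.{0} ℤ G) : AddSubgroup A.V where
  carrier := {c | ∀ g, A.ρ g c = c}
  zero_mem' := fun g => map_zero _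
  add_mem' := fun {a b} ha hb g => by rw [map_add, ha g, hb g]
  neg_mem' := fun {a} ha g => by rw [map_neg, ha g]

theorem mem_invRep (A : Rep.{0} ℤ G) (c : A.V) : c ∈ invRep A ↔ ∀ g, A.ρ g c = c := Iff.rfl

theorem normRep_of {V : Type} [AddCommGroup V] (ρ : Representation ℤ G V) :
    normRep (Rep.of ρ) = H20A.normOf ρ := by
  letI : Fintype G := Fintype.ofFinite G
  ext d
  rw [normRep_apply]
  show _ = (ρ.norm : V →ₗ[ℤ] V) d
  rw [Representation.norm, LinearMap.sum_apply]

theorem invRep_of {V : Type} [AddCommGroup V] (ρ : Representation ℤ G V) :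
    invRep (Rep.of ρ) = ρ.invariants.toAddSubgroup := by
  ext c
  rfl

/-- **EX-REC (exponent)**, `Rep` form -/
theorem exrec_exp_rep (C : Rep.{0} ℤ G) (γ : groupCohomology C 2) (hcm : H20A.IsClassModule C γ)
    (n : ℕ) (hexp : ∀ g : G, g ^ n = 1) (c : C.V) (hc : c ∈ invRep C) :
    ∃ d : C.V, normRep C d = n • c := by
  revert γ hcm c hc
  refine H26AR.rep_int_induction (G := G) (fun C => ∀ (γ : groupCohomology C 2),
    H20A.IsClassModule C γ → ∀ c : C.V, c ∈ invRep C → ∃ d : C.V, normRep C d = n • c) ?_ C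
  intro V _ ρ γ hcm c hc
  obtain ⟨d, hd⟩ := exrec_exp ρ γ hcm n hexp c hc
  exact ⟨d, by rw [normRep_of]; exact hd⟩

/-- **EX-REC (index)**, `Rep` form -/
theorem exrec_card_rep (hcomm : ∀ a b : G, a * b = b * a) (C : Rep.{0} ℤ G)
    (γ : groupCohomology C 2) (hcm : H20A.IsClassModule C γ) :
    (normRep C).range.relIndex (invRep C) = Nat.card G := by
  revert γ hcm
  refine H26AR.rep_int_induction (G := G) (fun C => ∀ (γ : groupCohomology C 2),
    H20A.IsClassModule C γ → (normRep C).range.relIndex (invRep C) = Nat.card G) ?_ C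
  intro V _ ρ γ hcm
  rw [normRep_of, invRep_of]
  exact exrec_card hcomm ρ γ hcm

/-! ### `p`-class modules and `p`-subgroups -/

/-- **EX-REC (exponent)** for a `p`-subgroup `H` of exponent `n` and a `p`-class module `C` of
`G`: `n • C^H ⊆ N_H C`. -/
theorem exrec_exp_pcm (p : ℕ) [Fact p.Prime] (C : Rep.{0} ℤ G) (γ : groupCohomology C 2)
    (hC : H20A.IsPClassModule p C γ) (H : Subgroup G) (hH : IsPGroup p H)
    (n : ℕ) (hexp : ∀ h ∈ H, h ^ n = 1) (c : C.V) (hc : ∀ h ∈ H, C.ρ h c = c) :
    ∃ d : C.V, normRep (H20A.resSub C H) d = n • c :=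
  exrec_exp_rep (H20A.resSub C H) _ (H25Syl.isClassModule_res p C γ hC H hH) n
    (fun h => Subtype.ext (by rw [Subgroup.coe_pow]; exact hexp h.1 h.2)) c
    (fun h => hc h.1 h.2)

/-- **EX-REC (index)** for a commutative `p`-subgroup `H` and a `p`-class module `C` of `G`:
`[C^H : N_H C] = |H|`. -/
theorem exrec_card_pcm (p : ℕ) [Fact p.Prime] (C : Rep.{0} ℤ G) (γ : groupCohomology C 2)
    (hC : H20A.IsPClassModule p C γ) (H : Subgroup G) (hH : IsPGroup p H)
    (hcomm : ∀ a ∈ H, ∀ b ∈ H, a * b = b * a) :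
    (normRep (H20A.resSub C H)).range.relIndex (invRep (H20A.resSub C H)) = Nat.card H :=
  exrec_card_rep (fun a b => Subtype.ext (hcomm a.1 a.2 b.1 b.2)) (H20A.resSub C H) _
    (H25Syl.isClassModule_res p C γ hC H hH)

end H25X

end
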