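/-
W2-C (S55) block C, C3B sub-slices **EX-REC** and **EX-RECAPP** (helper25).

* `H25X.h25x_recExp G : H17X.RecExpStatement G`  (exponent form of reciprocity, block A);
* `H25X.h25x_recApp : H17X.RecAppStatement`  (reciprocity for `p`-subgroups of `Gal(L/ℚ)` acting
  on `C_L`), and the unconditional `H25X.h25x_recApp_final`.
-/
import Mathlib
import Fermat.Agent.CFT2.C3.ExRec_helper25
import Fermat.Agent.CFT2.C3.Defs_helper17

set_option autoImplicit false
set_option linter.style.haveILetI false
set_option linter.unusedSectionVars false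
set_option linter.unusedVariables false

noncomputable section

namespace H25X

open CategoryTheory Rep groupCohomology NumberField H17C

/-- **(EX-REC)** -/
theorem h25x_recExp (G : Type) [Group G] [Finite G] : H17X.RecExpStatement G := by
  intro V _ ρ γ hcm n hexp x hx
  obtain ⟨d, hd⟩ := exrec_exp ρ γ hcm n hexp x hx
  exact ⟨d, hd⟩

section generic

variable {G : Type} [Group G] [Finite G]

/-- **EX-REC (index)**, `Rep` form, general `G` -/
theorem exrec_cardAb_rep (C : Rep.{0} ℤ G) (γ : groupCohomology C 2)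
    (hcm : H20A.IsClassModule C γ) :
    (normRep C).range.relIndex (invRep C) = Nat.card (Abelianization G) := by
  revert γ hcm
  refine H26AR.rep_int_induction (G := G) (fun C => ∀ (γ : groupCohomology C 2),
    H20A.IsClassModule C γ →
      (normRep C).range.relIndex (invRep C) = Nat.card (Abelianization G)) ?_ C
  intro V _ ρ γ hcm
  rw [normRep_of, invRep_of]
  exact H26Rec.h26rec_recCard G V ρ γ hcm

/-- reciprocity for a `p`-subgroup `H` and a `p`-class module given by a representation `ρ`
(with any `ℤ`-module structure), in terms of a given norm map `N` and invariants `I` -/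
theorem recapp_generic (p : ℕ) [Fact p.Prime] {V : Type} [AddCommGroup V] [Module ℤ V]
    (ρ : Representation ℤ G V) (γ : groupCohomology (Rep.of ρ) 2)
    (hC : H20A.IsPClassModule p (Rep.of ρ) γ) (H : Subgroup G) (hH : IsPGroup p H)
    (N : V →+ V)
    (hN : ∀ d, N d = (letI : Fintype H := Fintype.ofFinite H; ∑ h : H, ρ (h : G) d))
    (I : AddSubgroup V) (hI : ∀ c, c ∈ I ↔ ∀ h ∈ H, ρ h c = c) :
    N.range.relIndex I = Nat.card (Abelianization H) ∧
      ∀ n : ℕ, (∀ σ ∈ H, σ ^ n = 1) → ∀ c ∈ I, n • c ∈ N.range := by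
  have hcm := H25Syl.isClassModule_res p (Rep.of ρ) γ hC H hH
  have e1 : normRep (H20A.resSub (Rep.of ρ) H) = N := by
    ext d
    rw [normRep_apply, hN]
    rfl
  have e2 : invRep (H20A.resSub (Rep.of ρ) H) = I := by
    ext c
    rw [hI]
    exact ⟨fun h σ hσ => h ⟨σ, hσ⟩, fun h σ => h σ.1 σ.2⟩
  refine ⟨?_, fun n hexp c hc => ?_⟩
  · rw [← e1, ← e2]
    exact exrec_cardAb_rep (H20A.resSub (Rep.of ρ) H) _ hcm
  · obtain ⟨d, hd⟩ := exrec_exp_pcm p (Rep.of ρ) γ hC H hH n hexp c ((hI c).1 hc)
    rw [e1] at hd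
    exact ⟨d, hd⟩

end generic

/-- the norm `N_H` on `C_L`, pointwise -/
theorem clsN_apply (S : Finset Nat.Primes) (L : Type) [Field L] [NumberField L]
    (H : Subgroup (AutQ L)) (d : ClS S L) :
    clsN S L H d = (letI : Fintype H := Fintype.ofFinite H;
      ∑ h : H, clsRep S ℚ L (h : AutQ L) d) := by
  letI : Fintype H := Fintype.ofFinite H
  show (∑ h : H, clsRep S ℚ L (h : AutQ L) : ClS S L →ₗ[ℤ] ClS S L) d = _
  rw [LinearMap.sum_apply]

/-- **(EX-RECAPP)** -/
theorem h25x_recApp : H17X.RecAppStatement := by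
  intro hFC _ S p L _ _ _ hp hp2 hpS hunr H hH
  haveI : Fact p.Prime := ⟨hp⟩
  obtain ⟨γ, hγ⟩ := hFC p S L hp hp2 hpS hunr
  exact recapp_generic p (clsRep S ℚ L) γ hγ H hH (clsN S L H) (clsN_apply S L H)
    (H17X.clsInv S L H) (fun c => H17X.mem_clsInv S L H c)

end H25X

end
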