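import Mathlib
import Fermat.Agent.CFT2.E.TFinKFin_helper12
import Fermat.Agent.CFT.FI.UNAbs

/-!
# W2-C (S55) block C3 (existence theorem mod `p`), slice EX-SUNIT (helper12)

The `S`-units `E_S` of a number field `K` (`S` a finite set of rational primes):

* `ES S K : Subgroup Kˣ`, the elements with trivial divisor outside `S`;
* `E_S` is finitely generated of rank `rank 𝓞_Kˣ + #{v above S}` (Dirichlet + finiteness of the
  class group);
* the index of the `p`-th powers.
-/

set_option autoImplicit false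
set_option linter.style.haveILetI false
set_option linter.unusedSectionVars false
set_option linter.unusedVariables false

noncomputable section

namespace H12XS

open H17C NumberField IsDedekindDomain H12FIN H12KF Module
open scoped nonZeroDivisors

variable (S : Finset Nat.Primes) (K : Type) [Field K] [NumberField K]

/-- the `S`-units of `K` -/
def ES : Subgroup Kˣ where
  carrier := {x | ∀ P : PrimesS S K, ordP P (x : K) = 0}
  one_mem' := fun P => by rw [Units.val_one]; exact ordP_one P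
  mul_mem' := fun {x y} hx hy P => by
    rw [Units.val_mul, ordP_mul P x.ne_zero y.ne_zero, hx P, hy P, add_zero]
  inv_mem' := fun {x} hx P => by
    rw [ordP_eq_ordv, Units.val_inv_eq_inv_val, ordv_inv _ x.ne_zero, ← ordP_eq_ordv, hx P,
      neg_zero]

theorem mem_ES (x : Kˣ) : x ∈ ES S K ↔ ∀ P : PrimesS S K, ordP P (x : K) = 0 := Iff.rfl

/-- the height one primes above `S` -/
abbrev Sig : Type := {v : HeightOneSpectrum (𝓞 K) // aboveS S K v}

instance instFiniteSig : Finite (Sig S K) := (finite_aboveS S).to_subtype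

/-- the orders of an `S`-unit at the primes above `S` -/
def ordSig : Additive (ES S K) →+ (Sig S K → ℤ) where
  toFun x v := ordv v.1 (((Additive.toMul x : ES S K) : Kˣ) : K)
  map_zero' := by
    funext v
    show ordv v.1 (((1 : ES S K) : Kˣ) : K) = 0
    rw [OneMemClass.coe_one, Units.val_one, ordv_one]
  map_add' x y := by
    funext v
    show ordv v.1 (((Additive.toMul x * Additive.toMul y : ES S K) : Kˣ) : K) = _
    rw [Subgroup.coe_mul, Units.val_mul,
      ordv_mul _ (Additive.toMul x : ES S K).1.ne_zero (Additive.toMul y : ES S K).1.ne_zero]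
    rfl

theorem ordSig_apply (x : Additive (ES S K)) (v : Sig S K) :
    ordSig S K x v = ordv v.1 (((Additive.toMul x : ES S K) : Kˣ) : K) := rfl

/-- the units of `𝓞 K` as `S`-units -/
def unitsToES : (𝓞 K)ˣ →* ES S K where
  toFun u := ⟨Units.map (algebraMap (𝓞 K) K : 𝓞 K →* K) u, fun P => by
    have h1 : P.toHOS.valuation K (algebraMap (𝓞 K) K (u : 𝓞 K)) ≤ 1 :=
      HeightOneSpectrum.valuation_le_one _ _
    have h2 : P.toHOS.valuation K (algebraMap (𝓞 K) K ((u⁻¹ : (𝓞 K)ˣ) : 𝓞 K)) ≤ 1 :=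
      HeightOneSpectrum.valuation_le_one _ _
    have h3 : P.toHOS.valuation K (algebraMap (𝓞 K) K (u : 𝓞 K)) *
        P.toHOS.valuation K (algebraMap (𝓞 K) K ((u⁻¹ : (𝓞 K)ˣ) : 𝓞 K)) = 1 := by
      rw [← map_mul, ← map_mul, ← Units.val_mul, mul_inv_cancel, Units.val_one, map_one, map_one]
    have h4 : P.toHOS.valuation K (algebraMap (𝓞 K) K (u : 𝓞 K)) = 1 := by
      refine le_antisymm h1 ?_
      by_contra hlt
      rw [not_le] at hlt
      have : P.toHOS.valuation K (algebraMap (𝓞 K) K (u : 𝓞 K)) *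
          P.toHOS.valuation K (algebraMap (𝓞 K) K ((u⁻¹ : (𝓞 K)ˣ) : 𝓞 K)) < 1 := by
        calc _ ≤ P.toHOS.valuation K (algebraMap (𝓞 K) K (u : 𝓞 K)) * 1 := mul_le_mul' le_rfl h2
          _ = P.toHOS.valuation K (algebraMap (𝓞 K) K (u : 𝓞 K)) := mul_one _
          _ < 1 := hlt
      rw [h3] at this
      exact lt_irrefl _ this
    show - WithZero.log (P.toHOS.valuation K (algebraMap (𝓞 K) K (u : 𝓞 K))) = 0
    rw [h4]; simp⟩
  map_one' := by
    apply Subtype.ext
    show Units.map (algebraMap (𝓞 K) K : 𝓞 K →* K) 1 = 1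
    rw [map_one]
  map_mul' x y := by
    apply Subtype.ext
    show Units.map (algebraMap (𝓞 K) K : 𝓞 K →* K) (x * y) = _
    rw [map_mul]; rfl

theorem unitsToES_coe (u : (𝓞 K)ˣ) :
    ((unitsToES S K u : ES S K) : Kˣ) = Units.map (algebraMap (𝓞 K) K : 𝓞 K →* K) u := rfl

theorem unitsToES_injective : Function.Injective (unitsToES S K) := by
  intro u u' h
  have h1 := congrArg (fun x : ES S K => ((x : Kˣ) : K)) h
  apply Units.ext
  apply RingOfIntegers.ext
  exact h1

/-- the kernel of `ordSig` consists of the units of `𝓞 K` -/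
theorem ordSig_eq_zero_iff (x : Additive (ES S K)) :
    ordSig S K x = 0 ↔ ∃ u : (𝓞 K)ˣ, unitsToES S K u = Additive.toMul x := by
  constructor
  · intro h
    have hall : ∀ v : HeightOneSpectrum (𝓞 K),
        ordv v (((Additive.toMul x : ES S K) : Kˣ) : K) = 0 := by
      intro v
      by_cases hv : aboveS S K v
      · exact congrFun h ⟨v, hv⟩
      · exact (Additive.toMul x : ES S K).2 (toPrimesS v hv)
    obtain ⟨u, hu⟩ := exists_unit_of_ordv _ hall
    exact ⟨u, Subtype.ext hu⟩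
  · rintro ⟨u, hu⟩
    funext v
    rw [ordSig_apply, ← hu, unitsToES_coe]
    show ordv v.1 (algebraMap (𝓞 K) K (u : 𝓞 K)) = 0
    have h1 : v.1.valuation K (algebraMap (𝓞 K) K (u : 𝓞 K)) ≤ 1 :=
      HeightOneSpectrum.valuation_le_one _ _
    have h2 : v.1.valuation K (algebraMap (𝓞 K) K ((u⁻¹ : (𝓞 K)ˣ) : 𝓞 K)) ≤ 1 :=
      HeightOneSpectrum.valuation_le_one _ _
    have h3 : v.1.valuation K (algebraMap (𝓞 K) K (u : 𝓞 K)) *
        v.1.valuation K (algebraMap (𝓞 K) K ((u⁻¹ : (𝓞 K)ˣ) : 𝓞 K)) = 1 := by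
      rw [← map_mul, ← map_mul, ← Units.val_mul, mul_inv_cancel, Units.val_one, map_one, map_one]
    have h4 : v.1.valuation K (algebraMap (𝓞 K) K (u : 𝓞 K)) = 1 := by
      refine le_antisymm h1 ?_
      by_contra hlt
      rw [not_le] at hlt
      have : v.1.valuation K (algebraMap (𝓞 K) K (u : 𝓞 K)) *
          v.1.valuation K (algebraMap (𝓞 K) K ((u⁻¹ : (𝓞 K)ˣ) : 𝓞 K)) < 1 := by
        calc _ ≤ v.1.valuation K (algebraMap (𝓞 K) K (u : 𝓞 K)) * 1 := mul_le_mul' le_rfl h2
          _ = v.1.valuation K (algebraMap (𝓞 K) K (u : 𝓞 K)) := mul_one _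
          _ < 1 := hlt
      rw [h3] at this
      exact lt_irrefl _ this
    unfold ordv
    rw [h4]; simp

open scoped Classical in
/-- `ord_{v'}` of a generator of `v ^ h` -/
theorem ordv_of_span_eq (v v' : HeightOneSpectrum (𝓞 K)) (h : ℕ) (x : Kˣ)
    (hx : FractionalIdeal.spanSingleton (𝓞 K)⁰ (x : K) =
      (v.asIdeal : FractionalIdeal (𝓞 K)⁰ K) ^ h) :
    ordv v' (x : K) = if v = v' then (h : ℤ) else 0 := by
  have h1 := count_span v' (x : K) x.ne_zero
  rw [hx, FractionalIdeal.count_pow, FractionalIdeal.count_maximal] at h1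
  unfold ordv
  rw [← h1]
  split_ifs <;> simp

open scoped Classical in
/-- some positive multiple of each basis vector is the divisor of an `S`-unit -/
theorem exists_ordSig_eq (v : Sig S K) :
    ∃ x : Additive (ES S K), ordSig S K x = (Nat.card (CG K) : ℤ) • Pi.single v 1 := by
  have hv0 : (v.1.asIdeal : FractionalIdeal (𝓞 K)⁰ K) ≠ 0 :=
    FractionalIdeal.coeIdeal_ne_zero.mpr v.1.ne_bot
  have hpow : (QuotientGroup.mk (Units.mk0 _ hv0) : CG K) ^ Nat.card (CG K) = 1 :=
    pow_card_eq_one'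
  rw [← QuotientGroup.mk_pow, QuotientGroup.eq_one_iff] at hpow
  obtain ⟨x, hx⟩ := hpow
  have hx' : FractionalIdeal.spanSingleton (𝓞 K)⁰ (x : K) =
      (v.1.asIdeal : FractionalIdeal (𝓞 K)⁰ K) ^ Nat.card (CG K) := by
    have := congrArg (fun I : (FractionalIdeal (𝓞 K)⁰ K)ˣ => (I : FractionalIdeal (𝓞 K)⁰ K)) hx
    simpa using this
  have hES : x ∈ ES S K := by
    intro P
    rw [ordP_eq_ordv, ordv_of_span_eq K v.1 P.toHOS _ x hx', if_neg]
    intro hvP
    exact not_aboveS_toHOS P (hvP ▸ v.2)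
  refine ⟨Additive.ofMul ⟨x, hES⟩, ?_⟩
  funext w
  rw [ordSig_apply]
  show ordv w.1 (x : K) = _
  rw [ordv_of_span_eq K v.1 w.1 _ x hx']
  simp only [Pi.smul_apply, Pi.single_apply, smul_eq_mul]
  by_cases hw : v = w
  · subst hw; simp
  · rw [if_neg (fun h => hw (Subtype.ext h)), if_neg (fun h => hw h.symm)]; simp

/-! ### the `ℤ`-module `E_S` -/

/-- `ordSig` as a linear map -/
def oLin : Additive (ES S K) →ₗ[ℤ] (Sig S K → ℤ) := (ordSig S K).toIntLinearMap

/-- `𝓞 Kˣ → E_S` as a linear map -/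
def iLin : Additive (𝓞 K)ˣ →ₗ[ℤ] Additive (ES S K) :=
  (MonoidHom.toAdditive (unitsToES S K)).toIntLinearMap

theorem iLin_apply (u : Additive (𝓞 K)ˣ) :
    iLin S K u = Additive.ofMul (unitsToES S K (Additive.toMul u)) := rfl

theorem iLin_injective : Function.Injective (iLin S K) := by
  intro u u' h
  have : unitsToES S K (Additive.toMul u) = unitsToES S K (Additive.toMul u') :=
    Additive.ofMul.injective h
  exact Additive.toMul.injective (unitsToES_injective S K this)

theorem ker_oLin : LinearMap.ker (oLin S K) = LinearMap.range (iLin S K) := by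
  ext x
  rw [LinearMap.mem_ker, LinearMap.mem_range]
  show ordSig S K x = 0 ↔ _
  rw [ordSig_eq_zero_iff]
  constructor
  · rintro ⟨u, hu⟩
    exact ⟨Additive.ofMul u, by rw [iLin_apply]; exact congrArg Additive.ofMul hu⟩
  · rintro ⟨u, hu⟩
    exact ⟨Additive.toMul u, by rw [← hu, iLin_apply]; rfl⟩

instance instFiniteES : Module.Finite ℤ (Additive (ES S K)) := by
  rw [Module.finite_def]
  refine Submodule.fg_of_fg_map_of_fg_inf_ker (oLin S K) ?_ ?_
  · exact IsNoetherian.noetherian _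
  · rw [inf_of_le_right le_top, ker_oLin, LinearMap.range_eq_map]
    exact Submodule.FG.map _ (Module.finite_def.mp inferInstance)

open scoped Classical in
theorem smul_mem_range_oLin (f : Sig S K → ℤ) :
    (Nat.card (CG K) : ℤ) • f ∈ LinearMap.range (oLin S K) := by
  haveI : Fintype (Sig S K) := Fintype.ofFinite _
  have hf : f = ∑ v : Sig S K, f v • (Pi.single v 1 : Sig S K → ℤ) := by
    funext w
    simp [Finset.sum_apply, Pi.single_apply]
  rw [hf, Finset.smul_sum]
  refine Submodule.sum_mem _ fun v _ => ?_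
  rw [smul_comm]
  refine Submodule.smul_mem _ _ ?_
  obtain ⟨x, hx⟩ := exists_ordSig_eq S K v
  exact ⟨x, hx⟩

theorem finrank_range_oLin : finrank ℤ (LinearMap.range (oLin S K)) = Nat.card (Sig S K) := by
  classical
  haveI : Fintype (Sig S K) := Fintype.ofFinite _
  have hcard : finrank ℤ (Sig S K → ℤ) = Nat.card (Sig S K) := by
    rw [Module.finrank_pi, Nat.card_eq_fintype_card]
  apply le_antisymm
  · rw [← hcard]
    exact Submodule.finrank_le _
  · rw [← hcard]
    have hpos : (Nat.card (CG K) : ℤ) ≠ 0 := by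
      exact_mod_cast (Nat.card_pos (α := CG K)).ne'
    let g : (Sig S K → ℤ) →ₗ[ℤ] LinearMap.range (oLin S K) :=
      { toFun := fun f => ⟨(Nat.card (CG K) : ℤ) • f, smul_mem_range_oLin S K f⟩
        map_add' := fun f f' => by
          apply Subtype.ext
          show (Nat.card (CG K) : ℤ) • (f + f') = _
          rw [smul_add]; rfl
        map_smul' := fun c f => by
          apply Subtype.ext
          show (Nat.card (CG K) : ℤ) • (c • f) = c • ((Nat.card (CG K) : ℤ) • f)
          rw [smul_comm] }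
    have hg : Function.Injective g := by
      intro f f' h
      have h1 : (Nat.card (CG K) : ℤ) • f = (Nat.card (CG K) : ℤ) • f' :=
        congrArg Subtype.val h
      funext w
      have h2 := congrFun h1 w
      simp only [Pi.smul_apply, smul_eq_mul] at h2
      exact mul_left_cancel₀ hpos h2
    exact LinearMap.finrank_le_finrank_of_injective hg

/-- **the rank of the `S`-units** -/
theorem finrank_ES :
    finrank ℤ (Additive (ES S K)) = NumberField.Units.rank K + Nat.card (Sig S K) := by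
  have h1 := Submodule.finrank_quotient_add_finrank (LinearMap.ker (oLin S K))
  have h2 : finrank ℤ (Additive (ES S K) ⧸ LinearMap.ker (oLin S K)) =
      Nat.card (Sig S K) := by
    rw [(oLin S K).quotKerEquivRange.finrank_eq, finrank_range_oLin]
  have h3 : finrank ℤ (LinearMap.ker (oLin S K)) = NumberField.Units.rank K := by
    rw [ker_oLin, ← (LinearEquiv.ofInjective (iLin S K) (iLin_injective S K)).finrank_eq,
      NumberField.Units.finrank_eq]
  rw [← h1, h2, h3, add_comm]

/-! ### the index of the `p`-th powers in `E_S` -/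

/-- roots of unity are `S`-units -/
theorem mem_ES_of_pow_eq_one {p : ℕ} (hp : 0 < p) (x : Kˣ) (hx : x ^ p = 1) : x ∈ ES S K := by
  intro P
  have h1 : ordv P.toHOS ((x : K) ^ p) = 0 := by
    rw [← Units.val_pow_eq_pow_val, hx, Units.val_one, ordv_one]
  rw [ordv_pow _ x.ne_zero] at h1
  rw [ordP_eq_ordv]
  rcases mul_eq_zero.mp h1 with h | h
  · exact absurd (by exact_mod_cast h : p = 0) hp.ne'
  · exact h

/-- a `p`-th root of an `S`-unit is an `S`-unit -/
theorem mem_ES_of_pow_mem {p : ℕ} (hp : 0 < p) (x : Kˣ) (hx : x ^ p ∈ ES S K) : x ∈ ES S K := by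
  intro P
  have h1 : ordv P.toHOS ((x : K) ^ p) = 0 := by
    rw [← Units.val_pow_eq_pow_val, ← ordP_eq_ordv]
    exact hx P
  rw [ordv_pow _ x.ne_zero] at h1
  rw [ordP_eq_ordv]
  rcases mul_eq_zero.mp h1 with h | h
  · exact absurd (by exact_mod_cast h : p = 0) hp.ne'
  · exact h

/-- the `p`-torsion of `E_S` is `μ_p(K)` -/
def kerEquiv (p : ℕ) (hp : 0 < p) :
    (nsmulAddMonoidHom p : Additive (ES S K) →+ Additive (ES S K)).ker ≃ rootsOfUnity p K where
  toFun x := ⟨((Additive.toMul x.1 : ES S K) : Kˣ), by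
    have h := x.2
    rw [AddMonoidHom.mem_ker, nsmulAddMonoidHom_apply] at h
    rw [mem_rootsOfUnity]
    have h2 : (Additive.toMul x.1 : ES S K) ^ p = 1 := congrArg Additive.toMul h
    have h3 := congrArg (fun y : ES S K => (y : Kˣ)) h2
    exact h3⟩
  invFun ζ := ⟨Additive.ofMul ⟨ζ.1, mem_ES_of_pow_eq_one S K hp ζ.1 ((mem_rootsOfUnity _ _).mp ζ.2)⟩, by
    rw [AddMonoidHom.mem_ker, nsmulAddMonoidHom_apply]
    apply Additive.toMul.injective
    apply Subtype.ext
    show (ζ.1 : Kˣ) ^ p = 1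
    exact (mem_rootsOfUnity _ _).mp ζ.2⟩
  left_inv x := rfl
  right_inv ζ := rfl

/-- **the index of the `p`-th powers in the `S`-units**, if `μ_p ⊆ K` -/
theorem index_nsmul_ES (p : ℕ) (hp : 0 < p) (ζ : K) (hζ : IsPrimitiveRoot ζ p) :
    (nsmulAddMonoidHom p : Additive (ES S K) →+ Additive (ES S K)).range.index =
      p ^ (NumberField.Units.rank K + Nat.card (Sig S K) + 1) := by
  haveI : NeZero p := ⟨hp.ne'⟩
  rw [H29FI.h29fi_index_nsmul, finrank_ES, Nat.card_congr (kerEquiv S K p hp), hζ.card_rootsOfUnity,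
    pow_succ]

/-- multiplicative form -/
theorem index_pow_ES (p : ℕ) (hp : 0 < p) (ζ : K) (hζ : IsPrimitiveRoot ζ p) :
    (powMonoidHom p : ES S K →* ES S K).range.index =
      p ^ (NumberField.Units.rank K + Nat.card (Sig S K) + 1) := by
  rw [← index_nsmul_ES S K p hp ζ hζ]
  rfl

/-- `rank + 1` is the number of infinite places -/
theorem rank_add_one : NumberField.Units.rank K + 1 = Fintype.card (InfinitePlace K) := by
  unfold NumberField.Units.rank
  have : 0 < Fintype.card (InfinitePlace K) := Fintype.card_pos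
  omega

/-- if `μ_p ⊆ K`, `p > 2`, then the number of infinite places is `[K : ℚ] / 2` -/
theorem card_infinitePlace (p : ℕ) (hp : 2 < p) (ζ : K) (hζ : IsPrimitiveRoot ζ p) :
    2 * Fintype.card (InfinitePlace K) = finrank ℚ K := by
  have h1 := NumberField.InfinitePlace.card_add_two_mul_card_eq_rank K
  have h2 := NumberField.InfinitePlace.IsPrimitiveRoot.nrRealPlaces_eq_zero_of_two_lt hp hζ
  have h3 := NumberField.InfinitePlace.card_eq_nrRealPlaces_add_nrComplexPlaces K
  rw [h2] at h1 h3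
  omega

/-- **EX-SUNIT, squared form**: `[E_S : E_Sᵖ]² = p ^ ([K : ℚ] + 2 #{v above S})` if `μ_p ⊆ K`,
`p > 2` -/
theorem index_pow_ES_sq (p : ℕ) (hp : 2 < p) (ζ : K) (hζ : IsPrimitiveRoot ζ p) :
    (powMonoidHom p : ES S K →* ES S K).range.index ^ 2 =
      p ^ (finrank ℚ K + 2 * Nat.card (Sig S K)) := by
  rw [index_pow_ES S K p (by omega) ζ hζ, ← pow_mul]
  congr 1
  have h1 := rank_add_one K
  have h2 := card_infinitePlace K p hp ζ hζ
  omega

/-! ### the group `V` of elements with divisor divisible by `p` outside `S` -/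

section V

variable (p : ℕ)

/-- the elements of `Kˣ` whose divisor outside `S` is divisible by `p` -/
def Vgrp : Subgroup Kˣ where
  carrier := {x | ∀ P : PrimesS S K, (p : ℤ) ∣ ordP P (x : K)}
  one_mem' := fun P => by rw [Units.val_one, ordP_one]; exact dvd_zero _
  mul_mem' := fun {x y} hx hy P => by
    rw [Units.val_mul, ordP_mul P x.ne_zero y.ne_zero]
    exact dvd_add (hx P) (hy P)
  inv_mem' := fun {x} hx P => by
    rw [ordP_eq_ordv, Units.val_inv_eq_inv_val, ordv_inv _ x.ne_zero, ← ordP_eq_ordv]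
    exact (dvd_neg).mpr (hx P)

theorem mem_Vgrp (x : Kˣ) : x ∈ Vgrp S K p ↔ ∀ P : PrimesS S K, (p : ℤ) ∣ ordP P (x : K) :=
  Iff.rfl

/-- the `p`-th powers -/
def Ppow : Subgroup Kˣ := (powMonoidHom p : Kˣ →* Kˣ).range

theorem mem_Ppow (x : Kˣ) : x ∈ Ppow K p ↔ ∃ z : Kˣ, z ^ p = x := Iff.rfl

theorem ES_le_Vgrp : ES S K ≤ Vgrp S K p := fun x hx P => by rw [hx P]; exact dvd_zero _

theorem Ppow_le_Vgrp : Ppow K p ≤ Vgrp S K p := by
  rintro x ⟨z, rfl⟩ P
  show (p : ℤ) ∣ ordP P ((z ^ p : Kˣ) : K)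
  rw [Units.val_pow_eq_pow_val, ordP_eq_ordv, ordv_pow _ z.ne_zero]
  exact dvd_mul_right _ _

/-- the `S`-ideal class group `Div_S / div(Kˣ)` -/
abbrev ClSd : Type := DivS S K ⧸ (divS S K).range

/-- the divisor `div_S(a) / p` -/
def dS (a : Kˣ) : DivS S K :=
  Finsupp.mapRange (fun n : ℤ => n / (p : ℤ)) (Int.zero_ediv _) (divS S K (Additive.ofMul a))

theorem dS_apply (a : Kˣ) (P : PrimesS S K) : dS S K p a P = ordP P (a : K) / (p : ℤ) := by
  unfold dS
  rw [Finsupp.mapRange_apply, divS_apply]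
  rfl

theorem mul_dS {a : Kˣ} (ha : a ∈ Vgrp S K p) (P : PrimesS S K) :
    (p : ℤ) * dS S K p a P = ordP P (a : K) := by
  rw [dS_apply]
  exact Int.mul_ediv_cancel' (ha P)

theorem dS_eq_of (hp : 0 < p) {a : Kˣ} {d : DivS S K}
    (h : ∀ P : PrimesS S K, ordP P (a : K) = (p : ℤ) * d P) : dS S K p a = d := by
  ext P
  rw [dS_apply, h P]
  exact Int.mul_ediv_cancel_left _ (by exact_mod_cast hp.ne')

theorem dS_mul (hp : 0 < p) {a b : Kˣ} (ha : a ∈ Vgrp S K p) (hb : b ∈ Vgrp S K p) :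
    dS S K p (a * b) = dS S K p a + dS S K p b := by
  apply dS_eq_of S K p hp
  intro P
  rw [Units.val_mul, ordP_mul P a.ne_zero b.ne_zero, Finsupp.add_apply, mul_add,
    mul_dS S K p ha, mul_dS S K p hb]

theorem dS_one (hp : 0 < p) : dS S K p 1 = 0 := by
  apply dS_eq_of S K p hp
  intro P
  rw [Units.val_one, ordP_one, Finsupp.zero_apply, mul_zero]

theorem nsmul_dS {a : Kˣ} (ha : a ∈ Vgrp S K p) :
    p • dS S K p a = divS S K (Additive.ofMul a) := by
  ext P
  rw [Finsupp.smul_apply, nsmul_eq_mul, mul_dS S K p ha, divS_apply]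
  rfl

/-- `a ↦ [div_S(a)/p]`, with values in the `p`-torsion of the `S`-class group -/
def psi (hp : 0 < p) : Vgrp S K p →*
    Multiplicative (nsmulAddMonoidHom p : ClSd S K →+ ClSd S K).ker where
  toFun a := Multiplicative.ofAdd ⟨QuotientAddGroup.mk (dS S K p (a : Kˣ)), by
    rw [AddMonoidHom.mem_ker, nsmulAddMonoidHom_apply, ← QuotientAddGroup.mk_nsmul,
      QuotientAddGroup.eq_zero_iff, nsmul_dS S K p a.2]
    exact ⟨_, rfl⟩⟩
  map_one' := by
    apply Multiplicative.toAdd.injective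
    apply Subtype.ext
    show (QuotientAddGroup.mk (dS S K p ((1 : Vgrp S K p) : Kˣ)) : ClSd S K) = 0
    rw [OneMemClass.coe_one, dS_one S K p hp]
    rfl
  map_mul' a b := by
    apply Multiplicative.toAdd.injective
    apply Subtype.ext
    show (QuotientAddGroup.mk (dS S K p ((a * b : Vgrp S K p) : Kˣ)) : ClSd S K) =
      QuotientAddGroup.mk (dS S K p (a : Kˣ)) + QuotientAddGroup.mk (dS S K p (b : Kˣ))
    rw [Subgroup.coe_mul, dS_mul S K p hp a.2 b.2]
    rfl

theorem psi_coe (hp : 0 < p) (a : Vgrp S K p) :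
    ((Multiplicative.toAdd (psi S K p hp a) :
      (nsmulAddMonoidHom p : ClSd S K →+ ClSd S K).ker) : ClSd S K) =
      QuotientAddGroup.mk (dS S K p (a : Kˣ)) := rfl

theorem psi_surjective (hp : 0 < p) : Function.Surjective (psi S K p hp) := by
  intro c
  obtain ⟨d, hd⟩ := QuotientAddGroup.mk_surjective
    ((Multiplicative.toAdd c : (nsmulAddMonoidHom p : ClSd S K →+ ClSd S K).ker) : ClSd S K)
  have hc : p • (QuotientAddGroup.mk d : ClSd S K) = 0 := by
    rw [hd]
    exact (Multiplicative.toAdd c : (nsmulAddMonoidHom p : ClSd S K →+ ClSd S K).ker).2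
  rw [← QuotientAddGroup.mk_nsmul, QuotientAddGroup.eq_zero_iff] at hc
  obtain ⟨a, ha⟩ := hc
  have hord : ∀ P : PrimesS S K, ordP P ((Additive.toMul a : Kˣ) : K) = (p : ℤ) * d P := by
    intro P
    have := DFunLike.congr_fun ha P
    rw [divS_apply, Finsupp.smul_apply, nsmul_eq_mul] at this
    exact this
  have haV : Additive.toMul a ∈ Vgrp S K p := fun P => by
    rw [hord P]; exact dvd_mul_right _ _
  refine ⟨⟨Additive.toMul a, haV⟩, ?_⟩
  apply Multiplicative.toAdd.injective
  apply Subtype.ext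
  show (QuotientAddGroup.mk (dS S K p (Additive.toMul a)) : ClSd S K) =
    ((Multiplicative.toAdd c : (nsmulAddMonoidHom p : ClSd S K →+ ClSd S K).ker) : ClSd S K)
  rw [← hd, dS_eq_of S K p hp hord]

theorem ker_psi (hp : 0 < p) :
    (psi S K p hp).ker = (ES S K ⊔ Ppow K p).subgroupOf (Vgrp S K p) := by
  ext a
  rw [MonoidHom.mem_ker, Subgroup.mem_subgroupOf, Subgroup.mem_sup]
  constructor
  · intro h
    have h1 : (QuotientAddGroup.mk (dS S K p (a : Kˣ)) : ClSd S K) = 0 := by
      rw [← psi_coe S K p hp a, h]; rfl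
    rw [QuotientAddGroup.eq_zero_iff] at h1
    obtain ⟨z, hz⟩ := h1
    have hzP : ∀ P : PrimesS S K, ordP P ((Additive.toMul z : Kˣ) : K) =
        dS S K p (a : Kˣ) P := fun P => by
      rw [← hz, divS_apply]
    refine ⟨(a : Kˣ) / (Additive.toMul z) ^ p, ?_, (Additive.toMul z) ^ p, ⟨_, rfl⟩, ?_⟩
    · intro P
      rw [ordP_eq_ordv, ordv_div, Units.val_pow_eq_pow_val,
        ordv_pow _ (Additive.toMul z : Kˣ).ne_zero, ← ordP_eq_ordv, ← ordP_eq_ordv, hzP,
        mul_dS S K p a.2, sub_self]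
    · rw [div_mul_cancel]
  · rintro ⟨u, hu, w, ⟨z, rfl⟩, huw⟩
    apply Multiplicative.toAdd.injective
    apply Subtype.ext
    show (QuotientAddGroup.mk (dS S K p (a : Kˣ)) : ClSd S K) = 0
    rw [QuotientAddGroup.eq_zero_iff]
    refine ⟨Additive.ofMul z, ?_⟩
    symm
    apply dS_eq_of S K p hp
    intro P
    have hz : (powMonoidHom p : Kˣ →* Kˣ) z = z ^ p := rfl
    rw [← huw, hz, Units.val_mul, ordP_mul P u.ne_zero (z ^ p).ne_zero, hu P, zero_add,
      Units.val_pow_eq_pow_val, ordP_eq_ordv, ordv_pow _ z.ne_zero, divS_apply]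
    rfl

theorem subgroupOf_Ppow_ES (hp : 0 < p) :
    (Ppow K p).subgroupOf (ES S K) = (powMonoidHom p : ES S K →* ES S K).range := by
  ext x
  rw [Subgroup.mem_subgroupOf, MonoidHom.mem_range]
  constructor
  · rintro ⟨z, hz⟩
    have hz' : z ^ p = (x : Kˣ) := hz
    have hzES : z ∈ ES S K := mem_ES_of_pow_mem S K hp z (by rw [hz']; exact x.2)
    exact ⟨⟨z, hzES⟩, Subtype.ext hz'⟩
  · rintro ⟨z, hz⟩
    exact ⟨(z : Kˣ), by rw [← hz]; rfl⟩

/-- **the count of `V / Kˣᵖ`**: `[V : Kˣᵖ] = [E_S : E_Sᵖ] · #Cl_S[p]` -/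
theorem relIndex_Ppow_Vgrp (hp : 0 < p) :
    (Ppow K p).relIndex (Vgrp S K p) =
      (powMonoidHom p : ES S K →* ES S K).range.index *
        Nat.card (nsmulAddMonoidHom p : ClSd S K →+ ClSd S K).ker := by
  have hle1 : Ppow K p ≤ ES S K ⊔ Ppow K p := le_sup_right
  have hle2 : ES S K ⊔ Ppow K p ≤ Vgrp S K p := sup_le (ES_le_Vgrp S K p) (Ppow_le_Vgrp S K p)
  rw [← Subgroup.relIndex_mul_relIndex _ _ _ hle1 hle2, Subgroup.relIndex_sup_right]
  congr 1
  · show ((Ppow K p).subgroupOf (ES S K)).index = _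
    rw [subgroupOf_Ppow_ES S K p hp]
  · show ((ES S K ⊔ Ppow K p).subgroupOf (Vgrp S K p)).index = _
    rw [← ker_psi S K p hp, Subgroup.index_ker,
      MonoidHom.range_eq_top.mpr (psi_surjective S K p hp)]
    rw [Nat.card_congr (Subgroup.topEquiv.toEquiv)]
    rfl

end V

end H12XS
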