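import Mathlib
import Fermat.Agent.CFT2.C3.Defs_helper17
import Fermat.Agent.CFT2.C3.ExSUnit_helper12

/-!
# W2-C (S55) block C3 (existence theorem mod `p`), slices EX-SUNIT and EX-V (helper12)

* `exSUnit : H17X.SUnitStatement`;
* `exV : H17X.VStatement`.
Restatements of `ExSUnit_helper12.lean` in the encoding of the interface `Defs_helper17.lean`.
-/

set_option autoImplicit false
set_option linter.style.haveILetI false
set_option linter.unusedSectionVars false
set_option linter.unusedVariables false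

noncomputable section

namespace H12XV

open H17C H17X NumberField IsDedekindDomain H12FIN H12KF H12XS Module

variable (S : Finset Nat.Primes) (p : ℕ) (K : Type) [Field K] [NumberField K]

/-! ### bridges -/

/-- the primes above `S`: the two encodings -/
def primesInEquiv : PrimesIn S K ≃ Sig S K where
  toFun P := ⟨⟨P.1, P.2.1, P.2.2.1⟩, P.2.2.2⟩
  invFun v := ⟨v.1.asIdeal, v.1.isPrime, v.1.ne_bot, v.2⟩
  left_inv _ := rfl
  right_inv _ := rfl

theorem nS_eq : nS S K = Nat.card (Sig S K) := Nat.card_congr (primesInEquiv S K)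

instance instFinitePrimesIn : Finite (PrimesIn S K) :=
  Finite.of_equiv _ (primesInEquiv S K).symm

theorem sUnitsK_eq : sUnitsK S K = Subgroup.toAddSubgroup (ES S K) := by
  ext a
  show divS S K a = 0 ↔ ∀ P : PrimesS S K, ordP P ((Additive.toMul a : Kˣ) : K) = 0
  constructor
  · intro h P
    have := DFunLike.congr_fun h P
    rw [divS_apply] at this
    exact this
  · intro h
    ext P
    rw [divS_apply]
    exact h P

theorem pMul_units_eq : pMul p (Additive Kˣ) = Subgroup.toAddSubgroup (Ppow K p) := by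
  ext a
  constructor
  · rintro ⟨z, hz⟩
    exact ⟨Additive.toMul z, congrArg Additive.toMul hz⟩
  · rintro ⟨z, hz⟩
    exact ⟨Additive.ofMul z, congrArg Additive.ofMul hz⟩

theorem vAdd_eq (hp : 0 < p) : vAdd S p K = Subgroup.toAddSubgroup (Vgrp S K p) := by
  ext a
  constructor
  · rintro ⟨d, hd⟩ P
    have hd' : p • d = divS S K a := hd
    have := DFunLike.congr_fun hd' P
    rw [divS_apply, Finsupp.smul_apply, nsmul_eq_mul] at this
    show (p : ℤ) ∣ ordP P ((Additive.toMul a : Kˣ) : K)
    rw [← this]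
    exact dvd_mul_right _ _
  · intro h
    exact ⟨dS S K p (Additive.toMul a), nsmul_dS S K p h⟩

theorem eIdx_eq (hp : 0 < p) :
    eIdx S p K = (powMonoidHom p : ES S K →* ES S K).range.index := by
  unfold eIdx
  rw [sUnitsK_eq, pMul_units_eq, Subgroup.relIndex_toAddSubgroup, ← subgroupOf_Ppow_ES S K p hp]
  rfl

theorem vIdx_eq_relIndex (hp : 0 < p) : vIdx S p K = (Ppow K p).relIndex (Vgrp S K p) := by
  unfold vIdx
  rw [vAdd_eq S p K hp, pMul_units_eq, Subgroup.relIndex_toAddSubgroup]

theorem eIdx_ne_zero (hp : 0 < p) : eIdx S p K ≠ 0 := by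
  haveI : NeZero p := ⟨hp.ne'⟩
  rw [eIdx_eq S p K hp]
  exact H29FI.h29fi_index_nsmul_ne_zero (Additive (ES S K)) p

/-- **EX-SUNIT** -/
theorem exSUnit : H17X.SUnitStatement := by
  intro S p K _ _ hp
  refine ⟨inferInstance, eIdx_ne_zero S p K hp.pos, fun hp2 ⟨ζ, hζ⟩ => ?_⟩
  have h2 : 2 < p := lt_of_le_of_ne hp.two_le (Ne.symm hp2)
  rw [eIdx_eq S p K hp.pos, index_pow_ES_sq S K p h2 ζ hζ, nS_eq]

/-! ### the `S`-class group is finite -/

instance instFiniteClSd : Finite (ClSd S K) := by
  refine Finite.of_injective (fun c : ClSd S K => idlCls (Quotient.out c)) ?_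
  intro c c' h
  obtain ⟨x, hx, -⟩ := exists_of_idlCls_eq (Quotient.out c) (Quotient.out c') h
  have h1 : (QuotientAddGroup.mk (Quotient.out c') : ClSd S K) =
      QuotientAddGroup.mk (Quotient.out c) := by
    rw [QuotientAddGroup.eq]
    refine ⟨-(Additive.ofMul x), ?_⟩
    rw [map_neg, hx]
    abel
  have e1 : (QuotientAddGroup.mk (Quotient.out c) : ClSd S K) = c := Quotient.out_eq c
  have e2 : (QuotientAddGroup.mk (Quotient.out c') : ClSd S K) = c' := Quotient.out_eq c'
  rw [← e1, ← e2, h1]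

/-- for a finite abelian group: `[G : pG] = #G[p]` -/
theorem index_pMul_eq_card_ker (G : Type) [AddCommGroup G] [Finite G] :
    (pMul p G).index = Nat.card (nsmulAddMonoidHom p : G →+ G).ker := by
  have h1 := AddSubgroup.card_mul_index (nsmulAddMonoidHom p : G →+ G).ker
  have h2 := AddSubgroup.card_mul_index (pMul p G)
  rw [AddSubgroup.index_ker] at h1
  have h3 : Nat.card (nsmulAddMonoidHom p : G →+ G).range = Nat.card (pMul p G) := rfl
  rw [h3] at h1
  have hpos : 0 < Nat.card (pMul p G) := Nat.card_pos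
  have : Nat.card (pMul p G) * (pMul p G).index =
      Nat.card (pMul p G) * Nat.card (nsmulAddMonoidHom p : G →+ G).ker := by
    rw [h2, mul_comm, h1]
  exact Nat.eq_of_mul_eq_mul_left hpos this

theorem clIdx_eq_index : clIdx S p K = (pMul p (ClSd S K)).index := by
  unfold clIdx
  have h : pMul p (DivS S K) ⊔ (divS S K).range =
      (pMul p (ClSd S K)).comap (QuotientAddGroup.mk' (divS S K).range) := by
    ext d
    rw [AddSubgroup.mem_comap, AddSubgroup.mem_sup]
    constructor
    · rintro ⟨y, ⟨d', rfl⟩, y', hy', rfl⟩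
      refine ⟨QuotientAddGroup.mk d', ?_⟩
      show p • (QuotientAddGroup.mk d' : ClSd S K) = QuotientAddGroup.mk (p • d' + y')
      rw [QuotientAddGroup.mk_add, (QuotientAddGroup.eq_zero_iff y').mpr hy', add_zero]
      rfl
    · rintro ⟨c, hc⟩
      obtain ⟨d', rfl⟩ := QuotientAddGroup.mk_surjective c
      have hc' : (QuotientAddGroup.mk (p • d') : ClSd S K) = QuotientAddGroup.mk d := hc
      rw [QuotientAddGroup.eq] at hc'
      exact ⟨p • d', ⟨d', rfl⟩, -(p • d') + d, hc', by abel⟩
  rw [h]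
  exact AddSubgroup.index_comap_of_surjective _ (QuotientAddGroup.mk'_surjective _)

theorem clIdx_eq_card : clIdx S p K = Nat.card (nsmulAddMonoidHom p : ClSd S K →+ ClSd S K).ker := by
  rw [clIdx_eq_index, index_pMul_eq_card_ker]

theorem clIdx_ne_zero : clIdx S p K ≠ 0 := by
  rw [clIdx_eq_card]
  exact Nat.card_pos.ne'

/-- **EX-V** -/
theorem exV : H17X.VStatement := by
  intro S p K _ _ hp _
  refine ⟨clIdx_ne_zero S p K, ?_⟩
  rw [vIdx_eq_relIndex S p K hp.pos, relIndex_Ppow_Vgrp S K p hp.pos, eIdx_eq S p K hp.pos,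
    clIdx_eq_card]

end H12XV
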