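/-
W2-C (S55) block C, deliverable C3B, slice **EX-TR** (helper14): transport of the existence
theorem mod `p` from the tensor model to the module `B` of block E:
`LevelField + BClsStrong + ExTensor ⇒ H14PT.C3B S p`.
-/
import Fermat.Agent.CFT2.C3.Defs_helper17

set_option autoImplicit false
set_option linter.unusedSectionVars false
set_option linter.unusedVariables false
set_option linter.style.haveILetI false

noncomputable section

namespace H14X

open NumberField H17C H14PT H15D H17X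

local notation "Qb" => AlgebraicClosure ℚ
local notation "GQ" => (AlgebraicClosure ℚ ≃ₐ[ℚ] AlgebraicClosure ℚ)

/-- Bezout in an additive group: if `p c = j x`, `m c = j y` with `p`, `m` coprime then `c` is in
the image of `j` -/
theorem mem_range_of_coprime {A C : Type*} [AddCommGroup A] [AddCommGroup C] (j : A →+ C)
    {p m : ℕ} (h : Nat.Coprime p m) (c : C) (x y : A) (hx : j x = p • c) (hy : j y = m • c) :
    ∃ z : A, j z = c := by
  have hb := Nat.gcd_eq_gcd_ab p m
  rw [h] at hb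
  refine ⟨Nat.gcdA p m • x + Nat.gcdB p m • y, ?_⟩
  have h1 : ((1 : ℕ) : ℤ) • c = c := by rw [Nat.cast_one, one_smul]
  rw [map_add, map_zsmul, map_zsmul, hx, hy, ← natCast_zsmul c p, ← natCast_zsmul c m,
    ← mul_smul, ← mul_smul, ← add_smul, mul_comm _ (p : ℤ), mul_comm _ (m : ℤ), ← hb, h1]

/-- two finite-dimensional intermediate fields with the same fixing subgroup are equal (LF2) -/
theorem eq_of_fixingSubgroup_eq
    (hLF2 : ∀ (F : IntermediateField ℚ Qb) [FiniteDimensional ℚ F] (x : Qb),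
      (∀ s ∈ F.fixingSubgroup, s x = x) → x ∈ F)
    (F F' : IntermediateField ℚ Qb) [FiniteDimensional ℚ F] [FiniteDimensional ℚ F']
    (h : F.fixingSubgroup = F'.fixingSubgroup) : F = F' := by
  apply le_antisymm
  · intro x hx
    apply hLF2 F' x
    intro s hs
    rw [← h] at hs
    exact (IntermediateField.mem_fixingSubgroup_iff F s).1 hs x hx
  · intro x hx
    apply hLF2 F x
    intro s hs
    rw [h] at hs
    exact (IntermediateField.mem_fixingSubgroup_iff F' s).1 hs x hx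

set_option maxHeartbeats 1600000 in
/-- **(EX-TR)** -/
theorem exTr : H17X.C3TransportStatement := by
  intro S p hp hpS hLF hB hEx L
  classical
  obtain ⟨hLF1, hLF2, hLF3⟩ := hLF
  obtain ⟨F, hFfd, hFgal, hFur, hLU, e, he⟩ := hLF1 L
  haveI := hFfd
  haveI := hFgal
  obtain ⟨F', hF'fd, hF'gal, hFF', hF'ur, hN⟩ := hEx F hFur
  haveI := hF'fd
  haveI := hF'gal
  have hnorm' : F'.fixingSubgroup.Normal := hLF3 F'
  obtain ⟨L', hL'U⟩ : ∃ L' : (levelsS S).Lv, L'.U = F'.fixingSubgroup :=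
    ⟨⟨F'.fixingSubgroup, ⟨F', hF'ur, hnorm', rfl⟩⟩, rfl⟩
  have hL'L : L'.U ≤ L.U := by
    rw [hLU, hL'U]
    exact IntermediateField.fixingSubgroup_antitone hFF'
  obtain ⟨F'', hF''fd, hF''gal, hF''ur, hL'F'', e', he'⟩ := hLF1 L'
  haveI := hF''fd
  have hFeq : F'' = F' := eq_of_fixingSubgroup_eq hLF2 F'' F' (by rw [← hL'F'', hL'U])
  subst hFeq
  obtain ⟨j, hjinj, hjeq, hj0, hjp⟩ := hB F'' hF'ur L' hL'U e' he'
  refine ⟨L', hL'L, fun b => ?_⟩
  letI : Fintype ↥(L.U.map (QuotientGroup.mk' L'.U)) := Fintype.ofFinite _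
  letI : Fintype ↥(galSub F F'') := Fintype.ofFinite _
  -- `e'` identifies `L.U ⧸ L'.U` with `Gal(F'/F)`
  have hmem : ∀ k : GQ ⧸ L'.U, k ∈ L.U.map (QuotientGroup.mk' L'.U) ↔ e' k ∈ galSub F F'' := by
    intro k
    constructor
    · rintro ⟨g, hg, rfl⟩
      intro x hx
      apply Subtype.ext
      show ((e' ((g : GQ) : GQ ⧸ L'.U) x : F'') : Qb) = (x : Qb)
      rw [he' g x]
      have hg' : g ∈ F.fixingSubgroup := hLU ▸ hg
      exact (IntermediateField.mem_fixingSubgroup_iff F g).1 hg' _ hx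
    · intro hk
      obtain ⟨g, rfl⟩ := QuotientGroup.mk_surjective k
      refine ⟨g, ?_, rfl⟩
      rw [hLU]
      apply (IntermediateField.mem_fixingSubgroup_iff F g).2
      intro x hx
      have h1 := hk ⟨x, hFF' hx⟩ hx
      have h2 := he' g ⟨x, hFF' hx⟩
      rw [h1] at h2
      exact h2.symm
  -- the norm element
  obtain ⟨Nb, hNb⟩ : ∃ Nb : BL S L',
      Nb = ∑ k : ↥(L.U.map (QuotientGroup.mk' L'.U)), (BL S L').ρ (k : GQ ⧸ L'.U) b := ⟨_, rfl⟩
  have hNbc : normLv S L L' b = ((Nb : BL S L') : Additive (ideles S) ⧸ imE S) := by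
    rw [hNb]; rfl
  have hjN : j Nb = clsN S F'' (galSub F F'') (j b) := by
    rw [hNb, map_sum]
    show _ = ((∑ h : ↥(galSub F F''), clsRep S ℚ F'' (h : AutQ F'')) :
      ClS S F'' →ₗ[ℤ] ClS S F'') (j b)
    rw [LinearMap.sum_apply]
    refine Fintype.sum_equiv (Equiv.ofBijective
      (fun k : ↥(L.U.map (QuotientGroup.mk' L'.U)) =>
        (⟨e' k.1, (hmem k.1).1 k.2⟩ : ↥(galSub F F''))) ⟨?_, ?_⟩) _ _ (fun k => hjeq k.1 b)
    · intro k k' h
      exact Subtype.ext (e'.injective (congrArg Subtype.val h))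
    · rintro ⟨σ, hσ⟩
      refine ⟨⟨e'.symm σ, (hmem _).2 (by rw [e'.apply_symm_apply]; exact hσ)⟩, ?_⟩
      apply Subtype.ext
      exact e'.apply_symm_apply σ
  obtain ⟨c', hc'inv, hc'⟩ := hN (j b)
  have hcop : Nat.Coprime p j.range.index := (Nat.Prime.coprime_iff_not_dvd hp).2 hjp
  obtain ⟨d, hd⟩ : j.range.index • c' ∈ j.range := AddSubgroup.nsmul_index_mem j.range c'
  obtain ⟨b'', hb''⟩ := mem_range_of_coprime j hcop c' Nb d (hjN.trans hc') hd
  have hNp : Nb = p • b'' := hjinj (by rw [map_nsmul, hb'', hjN, hc'])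
  refine ⟨((b'' : BL S L') : Additive (ideles S) ⧸ imE S), fun s hs => ?_, ?_⟩
  · have h1 : (BL S L').ρ ((s : GQ) : GQ ⧸ L'.U) b'' = b'' := by
      apply hjinj
      rw [hjeq, hb'']
      exact (mem_clsInv S F'' (galSub F F'') c').1 hc'inv _ ((hmem _).1 ⟨s, hs, rfl⟩)
    exact congrArg Subtype.val h1
  · rw [hNbc, hNp]
    rfl

end H14X

end
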