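/-
W2-C (S55) block C, C3B sub-slice **EX-V0** (helper9): abstract part.

For `K → L`: if every idele of `K` is a norm from `L` (EX-SPLIT) and the norm group `𝒩 ⊆ A_K`
contains `Kˣ` and `p A_K` (EX-NORM), then `𝒩 ⊇ I_K × 0 + p A_K + Kˣ`, a subgroup of index
`clIdx = |Cl_S/p|`; hence `[A_K : 𝒩]` divides `clIdx`.
-/
import Fermat.Agent.CFT2.C3.Defs_helper17

set_option autoImplicit false
set_option linter.style.haveILetI false
set_option linter.unusedSectionVars false
set_option linter.unusedVariables false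

noncomputable section

namespace H9V0

open NumberField H17C H17X H14PT H15D

local notation "Qb" => AlgebraicClosure ℚ
local notation "GQ" => (AlgebraicClosure ℚ ≃ₐ[ℚ] AlgebraicClosure ℚ)

/-- the conclusion of **(EX-NORM)** `H17X.NormGroupStatement` -/
def NormConcl : Prop :=
  ∀ (S : Finset Nat.Primes) (p : ℕ) (K L : Type) [Field K] [NumberField K] [Field L]
    [NumberField L] [Algebra K L] [IsGalois ℚ L], p.Prime → p ≠ 2 → (∃ q ∈ S, (q : ℕ) = p) →
    UnramOutside S L ⊤ → IsPGroup p (fixSub K L) →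
    (princS S K).toAddSubgroup ≤ normAmb S K L ∧
    (normAmb S K L).index = Nat.card (Abelianization (fixSub K L)) ∧
    ∀ n : ℕ, (∀ σ ∈ fixSub K L, σ ^ n = 1) → pMul n (AmbS S K) ≤ normAmb S K L

/-- `NormGroupStatement` with its inputs gives `NormConcl` -/
theorem normConcl_of (h : NormGroupStatement) (h1 : RecAppStatement) (h2 : FundamentalClass)
    (h3 : ∀ (G : Type) [Group G] [Finite G], RecExpStatement G)
    (h4 : ∀ S : Finset Nat.Primes, H22BC.TowerDescStatement S)
    (h5 : ∀ S : Finset Nat.Primes, H22BC.TowerEqvStatement S) : NormConcl := by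
  intro S p K L _ _ _ _ _ _ hp hp2 hpS hU hP
  exact h h1 h2 h3 S (h4 S) (h5 S) p K L hp hp2 hpS hU hP

section abs

variable (S : Finset Nat.Primes) (p : ℕ)
  (K L : Type) [Field K] [NumberField K] [Field L] [NumberField L] [Algebra K L]

theorem ambN_fst_zero (H : Subgroup (AutQ L)) (a : Additive (KS S L)ˣ) :
    ambN S L H ((a, 0) : AmbS S L) = (ideleN S L H a, 0) := by
  letI : Fintype H := Fintype.ofFinite H
  have h1 : ambN S L H ((a, 0) : AmbS S L) =
      ∑ h : H, ambRep S ℚ L (h : AutQ L) ((a, 0) : AmbS S L) := by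
    unfold ambN
    simp only [LinearMap.toAddMonoidHom_coe, LinearMap.sum_apply]
  have h2 : ideleN S L H a = ∑ h : H, ideleRep S ℚ L (h : AutQ L) a := by
    unfold ideleN
    simp only [LinearMap.toAddMonoidHom_coe, LinearMap.sum_apply]
  rw [h1, h2]
  refine Prod.ext ?_ ?_
  · rw [Prod.fst_sum]
    rfl
  · rw [Prod.snd_sum]
    simp [ambRep_apply]

/-- every idele of `K` is in the norm group (EX-SPLIT) -/
theorem idele_mem_normAmb
    (hsplit : ∀ x : (KS S K)ˣ, ∃ y : (KS S L)ˣ,
      ideleN S L (fixSub K L) (Additive.ofMul y) = Additive.ofMul (ideleBase S K L x))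
    (x : Additive (KS S K)ˣ) : ((x, 0) : AmbS S K) ∈ normAmb S K L := by
  obtain ⟨y, hy⟩ := hsplit (Additive.toMul x)
  refine ⟨((Additive.ofMul y, 0) : AmbS S L), ?_⟩
  rw [ambN_fst_zero, hy, ambBase_apply]
  have : ((Additive.ofMul (ideleBase S K L (Additive.toMul x)),
      H17SI.pullDiv S K L (0 : DivS S K)) : AmbS S L) -
      ((Additive.ofMul (ideleBase S K L (Additive.toMul x)), 0) : AmbS S L) = 0 := by
    rw [map_zero]
    exact sub_self _
  show ((Additive.ofMul (ideleBase S K L (Additive.toMul x)),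
      H17SI.pullDiv S K L (0 : DivS S K)) : AmbS S L) -
      ((Additive.ofMul (ideleBase S K L (Additive.toMul x)), 0) : AmbS S L) ∈ princS S L
  rw [this]
  exact (princS S L).zero_mem

/-- `[A_K : 𝒩]` divides `|Cl_S / p|` -/
theorem index_dvd_clIdx
    (h1 : (princS S K).toAddSubgroup ≤ normAmb S K L)
    (h2 : pMul p (AmbS S K) ≤ normAmb S K L)
    (h3 : ∀ x : Additive (KS S K)ˣ, ((x, 0) : AmbS S K) ∈ normAmb S K L) :
    (normAmb S K L).index ∣ clIdx S p K := by
  have hle : (pMul p (DivS S K) ⊔ (divS S K).range).comap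
      (AddMonoidHom.snd (Additive (KS S K)ˣ) (DivS S K)) ≤ normAmb S K L := by
    intro z hz
    obtain ⟨u, hu, v, hv, huv⟩ := AddSubgroup.mem_sup.1 (AddSubgroup.mem_comap.1 hz)
    obtain ⟨d, rfl⟩ := (mem_pMul _).1 hu
    obtain ⟨a, rfl⟩ := hv
    have e : z = ((z.1 - (princHom S K a).1, 0) : AmbS S K) +
        (p • ((0, d) : AmbS S K) + princHom S K a) := by
      refine Prod.ext ?_ ?_
      · simp
      · have : (princHom S K a).2 = divS S K a := rfl
        simp only [Prod.snd_add, Prod.smul_snd, this, zero_add]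
        exact huv.symm
    rw [e]
    refine add_mem (h3 _) (add_mem (h2 ((mem_pMul _).2 ⟨_, rfl⟩)) (h1 ?_))
    exact ⟨a, rfl⟩
  have h4 := AddSubgroup.index_dvd_of_le hle
  rw [AddSubgroup.index_comap_of_surjective _ (fun d => ⟨(0, d), rfl⟩)] at h4
  exact h4

end abs

end H9V0

end
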