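/-
W2-C (S55) block C, C3B sub-slice **EX-V0** (helper9): `H17X.V0Statement` from EX-KF, EX-KUM,
EX-NORM (conclusion), EX-SPLIT, EX-SUNIT, EX-V.

`F₀ = F(V₀^{1/p})`:  `[V₀ : pFˣ] ≤ |Gal(F₀/F)| = [A_F : 𝒩₀]` and `𝒩₀ ⊇ I×0 + pA + Fˣ`,
`[A : I×0 + pA + Fˣ] = clIdx`.
-/
import Fermat.Agent.CFT2.C3.ExV0Abs_helper9
import Fermat.Agent.CFT2.C.BCls.LevelField_helper9

set_option autoImplicit false
set_option linter.style.haveILetI false
set_option linter.unusedSectionVars false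
set_option linter.unusedVariables false

noncomputable section

namespace H9V0

open NumberField H17C H17X H14PT H15D

local notation "Qb" => AlgebraicClosure ℚ
local notation "GQ" => (AlgebraicClosure ℚ ≃ₐ[ℚ] AlgebraicClosure ℚ)

variable (S : Finset Nat.Primes)

/-- `V₀` is stable under `Aut(K)` -/
theorem v0_stable (p : ℕ) (K : Type) [Field K] [NumberField K] (σ : AutQ K) (a : Kˣ)
    (ha : Additive.ofMul a ∈ v0Add S p K) :
    Additive.ofMul (Units.map ((σ : K →+* K) : K →* K) a) ∈ v0Add S p K := by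
  have e : Units.map ((σ : K →+* K) : K →* K) a = Units.map (σ : K →* K) a := Units.ext rfl
  rw [e]
  obtain ⟨h1, h2⟩ := ha
  refine ⟨?_, ?_⟩
  · obtain ⟨d, hd⟩ := (mem_pMul _).1 (AddSubgroup.mem_comap.1 h1)
    refine AddSubgroup.mem_comap.2 ((mem_pMul _).2 ⟨divRep S ℚ K σ d, ?_⟩)
    rw [divS_smul S ℚ K σ a, ← hd, map_nsmul]
  · obtain ⟨y, hy⟩ := (mem_pMul _).1 (AddSubgroup.mem_comap.1 h2)
    refine AddSubgroup.mem_comap.2 ((mem_pMul _).2 ⟨Additive.ofMul (σ • Additive.toMul y), ?_⟩)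
    have h3 : diagS S K a = (Additive.toMul y) ^ p := by
      have := congrArg Additive.toMul hy
      exact this.symm
    show Additive.ofMul ((σ • Additive.toMul y) ^ p) =
      Additive.ofMul (diagS S K (Units.map (σ : K →* K) a))
    rw [← ideleAct_diagS S ℚ K σ a, h3, smul_pow']

/-- the algebra structure `F → F'` for `F ≤ F'` -/
@[reducible] def incAlg {F F' : IntermediateField ℚ Qb} (h : F ≤ F') : Algebra ↥F ↥F' :=
  (IntermediateField.inclusion h).toRingHom.toAlgebra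

theorem incAlg_coe {F F' : IntermediateField ℚ Qb} (h : F ≤ F') (x : F) :
    (((incAlg h).algebraMap x : F') : Qb) = (x : Qb) := rfl

/-- `Gal(F'/F)`: the two descriptions agree -/
theorem fixSub_eq {F F' : IntermediateField ℚ Qb} [FiniteDimensional ℚ F]
    [FiniteDimensional ℚ F'] (h : F ≤ F') :
    (letI := incAlg h; fixSub ↥F ↥F') = galSub F F' := by
  letI := incAlg h
  ext σ
  rw [mem_fixSub, mem_galSub]
  constructor
  · intro hσ x hx
    have := hσ ⟨(x : Qb), hx⟩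
    have e : algebraMap ↥F ↥F' ⟨(x : Qb), hx⟩ = x := Subtype.ext rfl
    rw [e] at this
    exact this
  · intro hσ x
    exact hσ _ (by
      show ((algebraMap ↥F ↥F' x : F') : Qb) ∈ F
      exact x.2)

/-- the Kummer field is generated, as an `F`-algebra, by the roots -/
theorem adjoin_roots_eq_top (p : ℕ) (F : IntermediateField ℚ Qb)
    (W : AddSubgroup (Additive (↥F)ˣ)) [hfin : FiniteDimensional ℚ (kumW p F W)] :
    letI := incAlg (le_kumW p F W)
    Algebra.adjoin ↥F {α : ↥(kumW p F W) | ∃ a : (↥F)ˣ, Additive.ofMul a ∈ W ∧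
      α ^ p = algebraMap ↥F ↥(kumW p F W) (a : F)} = ⊤ := by
  letI := incAlg (le_kumW p F W)
  haveI : IsScalarTower ℚ ↥F ↥(kumW p F W) :=
    IsScalarTower.of_algebraMap_eq (fun r => Subtype.ext rfl)
  haveI : Algebra.IsAlgebraic ↥F ↥(kumW p F W) := by
    haveI : Module.Finite ↥F ↥(kumW p F W) := Module.Finite.of_restrictScalars_finite ℚ _ _
    exact Algebra.IsAlgebraic.of_finite _ _
  set R' : Set ↥(kumW p F W) := {α : ↥(kumW p F W) | ∃ a : (↥F)ˣ, Additive.ofMul a ∈ W ∧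
      α ^ p = algebraMap ↥F ↥(kumW p F W) (a : F)} with hR'
  rw [← IntermediateField.adjoin_eq_top_iff_of_isAlgebraic
    (fun x _ => Algebra.IsAlgebraic.isAlgebraic x)]
  set E' : IntermediateField ↥F ↥(kumW p F W) := IntermediateField.adjoin ↥F R' with hE'
  -- the image of `E'` in `Qb`
  let T : Subfield Qb := E'.toSubfield.map ((kumW p F W).val : ↥(kumW p F W) →+* Qb)
  let X : IntermediateField ℚ Qb := Subfield.toIntermediateField T (fun r => by
    show algebraMap ℚ Qb r ∈ T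
    refine ⟨algebraMap ℚ ↥(kumW p F W) r, ?_, rfl⟩
    show algebraMap ℚ ↥(kumW p F W) r ∈ E'
    rw [IsScalarTower.algebraMap_apply ℚ ↥F ↥(kumW p F W)]
    exact E'.algebraMap_mem _)
  have hX : ∀ x : Qb, x ∈ X ↔ ∃ y : ↥(kumW p F W), y ∈ E' ∧ (y : Qb) = x := by
    intro x
    constructor
    · rintro ⟨y, hy, rfl⟩
      exact ⟨y, hy, rfl⟩
    · rintro ⟨y, hy, rfl⟩
      exact ⟨y, hy, rfl⟩
  have hFX : F ≤ X := by
    intro x hx
    rw [hX]
    exact ⟨algebraMap ↥F ↥(kumW p F W) ⟨x, hx⟩, E'.algebraMap_mem _, rfl⟩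
  have hRX : IntermediateField.adjoin ℚ
      {w : Qb | ∃ a : (↥F)ˣ, Additive.ofMul a ∈ W ∧ w ^ p = (((a : (↥F)ˣ) : ↥F) : Qb)} ≤ X := by
    rw [IntermediateField.adjoin_le_iff]
    rintro w ⟨a, haW, hw⟩
    have hwF : w ∈ kumW p F W :=
      (le_sup_right : _ ≤ kumW p F W) (IntermediateField.subset_adjoin ℚ _ ⟨a, haW, hw⟩)
    show w ∈ X
    rw [hX]
    refine ⟨⟨w, hwF⟩, IntermediateField.subset_adjoin _ _ ⟨a, haW, ?_⟩, rfl⟩
    exact Subtype.ext hw
  have hle : kumW p F W ≤ X := sup_le hFX hRX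
  rw [eq_top_iff]
  intro x _
  obtain ⟨y, hy, hyx⟩ := (hX _).1 (hle x.2)
  have : y = x := Subtype.ext hyx
  rw [← this]
  exact hy

/-- **(EX-V0)** from the other slices. -/
theorem v0_of (hKF : KumFieldStatement) (hKum : KummerStatement) (hN : NormConcl)
    (hSp : SplitStatement) (hSU : SUnitStatement) (hV : VStatement) : V0Statement := by
  intro S p hp hp2 hpS F _ _ hF hζ
  -- finiteness
  obtain ⟨-, heIdx, -⟩ := hSU S p ↥F hp
  obtain ⟨hcl, hvIdx⟩ := hV S p ↥F hp heIdx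
  have hv : vIdx S p ↥F ≠ 0 := by
    rw [hvIdx]
    exact mul_ne_zero heIdx hcl
  -- the Kummer field of `V₀`
  obtain ⟨hU, hG⟩ := hKF S p hp hpS F hF hv (v0Add S p ↥F) inf_le_left
    (fun σ a ha => v0_stable S p ↥F σ a ha)
  haveI hfin : FiniteDimensional ℚ ↥(kumW p F (v0Add S p ↥F)) := hU.1
  haveI := hG
  obtain ⟨hexp, hcomm, hcard⟩ := hKum p hp F (v0Add S p ↥F) hζ hfin
  letI := incAlg (le_kumW p F (v0Add S p ↥F))
  have hfix := fixSub_eq (le_kumW p F (v0Add S p ↥F))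
  have hexp' : ∀ σ ∈ fixSub ↥F ↥(kumW p F (v0Add S p ↥F)), σ ^ p = 1 := by
    intro σ hσ
    rw [hfix] at hσ
    exact hexp σ hσ
  have hPG : IsPGroup p (fixSub ↥F ↥(kumW p F (v0Add S p ↥F))) := by
    intro g
    refine ⟨1, ?_⟩
    rw [pow_one]
    exact Subtype.ext (hexp' g.1 g.2)
  have hUn : UnramOutside S ↥(kumW p F (v0Add S p ↥F)) ⊤ :=
    H9BL.unrTr S (kumW p F (v0Add S p ↥F)) hU
  obtain ⟨hn1, hn2, hn3⟩ := hN S p ↥F ↥(kumW p F (v0Add S p ↥F)) hp hp2 hpS hUn hPG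
  have hsplit := hSp S p ↥F ↥(kumW p F (v0Add S p ↥F)) hp hζ
    (adjoin_roots_eq_top p F (v0Add S p ↥F))
  have hdvd := index_dvd_clIdx S p ↥F ↥(kumW p F (v0Add S p ↥F)) hn1 (hn3 p hexp')
    (idele_mem_normAmb S ↥F ↥(kumW p F (v0Add S p ↥F)) hsplit)
  have hle := Nat.le_of_dvd (Nat.pos_of_ne_zero hcl) hdvd
  -- `|H^ab| = |H|`
  have hab : Nat.card (Abelianization (fixSub ↥F ↥(kumW p F (v0Add S p ↥F)))) =
      Nat.card (galSub F (kumW p F (v0Add S p ↥F))) := by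
    rw [hfix]
    letI : CommGroup (galSub F (kumW p F (v0Add S p ↥F))) :=
      { (inferInstance : Group (galSub F (kumW p F (v0Add S p ↥F)))) with
        mul_comm := fun a b => Subtype.ext (hcomm a.1 a.2 b.1 b.2) }
    exact (Nat.card_congr (Abelianization.equivOfComm
      (H := galSub F (kumW p F (v0Add S p ↥F)))).toEquiv).symm
  calc v0Idx S p ↥F ≤ Nat.card (galSub F (kumW p F (v0Add S p ↥F))) := hcard
    _ = (normAmb S ↥F ↥(kumW p F (v0Add S p ↥F))).index := by rw [hn2, hab]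
    _ ≤ clIdx S p ↥F := hle

end H9V0

end
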