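/-
W2-C (S55) block C, deliverable C3B, slice EX-LOC: SUB-SLICES (helper17) and their assembly.
`[I : pI] = [I : pI + U] · [U : U ∩ pI] ≤ p^{nS} · (|I[p]| · p^{[K:ℚ]}) ≤ p^{[K:ℚ] + 2 nS}`.
Nothing here is proved by a placeholder.
-/
import Fermat.Agent.CFT2.C3.Defs_helper17

set_option autoImplicit false
set_option linter.unusedSectionVars false
set_option linter.unusedVariables false

noncomputable section

namespace H17X

open NumberField H17C

/-- the `p`-torsion of `I_K`: the `p`-th roots of unity of `K_S` -/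
abbrev TorsP (S : Finset Nat.Primes) (p : ℕ) (K : Type) [Field K] [NumberField K] : Type :=
  {x : (KS S K)ˣ // x ^ p = 1}

/-- **(EX-TORS)** `K_S` has at most `p^{nS}` `p`-th roots of unity (`ζ_p ∈ K`).
(`x^p = 1 ⇒ x ∈ Λ`; approximate `x` by `x̃ ∈ 𝓞_K` modulo `m^k Λ`; for every `P ∈ PrimesIn`:
`∏_i (x̃ - ζ^i) ≡ 0 mod P^k` and `ord_P(ζ^i - ζ^j) ≤ c` give exactly one `i_P` with
`x̃ ≡ ζ^{i_P} mod P^{k - (p-1)c}`; `x ↦ (i_P)_P` is injective as `⋂ m^k Λ = 0`.) -/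
def TorsStatement : Prop :=
  ∀ (S : Finset Nat.Primes) (p : ℕ) (K : Type) [Field K] [NumberField K], p.Prime → p ≠ 2 →
    (∃ ζ : K, IsPrimitiveRoot ζ p) →
    Finite (TorsP S p K) ∧ Nat.card (TorsP S p K) ≤ p ^ nS S K

/-- **(EX-IU)** `[I : pI + U] ≤ p^{nS}`, finite.  (`I = Kˣ U` by weak approximation
`H3C.h3c_weakApprox`; `Kˣ/(Kˣ ∩ U) ↪ ℤ^{PrimesIn}` by `(ord_P)_P`.) -/
def IUStatement : Prop :=
  ∀ (S : Finset Nat.Primes) (p : ℕ) (K : Type) [Field K] [NumberField K], p.Prime →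
    (pMul p (Additive (KS S K)ˣ) ⊔ unitIdeleAdd S K).index ≠ 0 ∧
    (pMul p (Additive (KS S K)ˣ) ⊔ unitIdeleAdd S K).index ≤ p ^ nS S K

/-- **(EX-UQ)** `[U : U ∩ pI] ≤ |I[p]| · p^{[K:ℚ]}`, finite (`p ∈ S` odd).
(`[U : pU] = |U[p]| · [U₁ : pU₁]` for `U₁ = 1 + m^k Λ` of finite index and torsion free,
`pU₁ = 1 + p m^k Λ` (POW'), `|Λ/pΛ| = p^{[K:ℚ]}`.) -/
def UQStatement : Prop :=
  ∀ (S : Finset Nat.Primes) (p : ℕ) (K : Type) [Field K] [NumberField K], p.Prime → p ≠ 2 →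
    (∃ q ∈ S, (q : ℕ) = p) → Finite (TorsP S p K) →
    (pMul p (Additive (KS S K)ˣ)).relIndex (unitIdeleAdd S K) ≠ 0 ∧
    (pMul p (Additive (KS S K)ˣ)).relIndex (unitIdeleAdd S K) ≤
      Nat.card (TorsP S p K) * p ^ Module.finrank ℚ K

/-- **(EX-LOC)** from the sub-slices -/
theorem h17x_loc_of (hT : TorsStatement) (hIU : IUStatement) (hUQ : UQStatement) :
    LocStatement := by
  intro S p K _ _ hp hp2 hpS hζ
  obtain ⟨hfin, hcard⟩ := hT S p K hp hp2 hζ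
  obtain ⟨hiu0, hiu⟩ := hIU S p K hp
  obtain ⟨huq0, huq⟩ := hUQ S p K hp hp2 hpS hfin
  have h1 : (pMul p (Additive (KS S K)ˣ)).relIndex
      (pMul p (Additive (KS S K)ˣ) ⊔ unitIdeleAdd S K) *
      (pMul p (Additive (KS S K)ˣ) ⊔ unitIdeleAdd S K).index =
      (pMul p (Additive (KS S K)ˣ)).index := AddSubgroup.relIndex_mul_index le_sup_left
  have h2 : (pMul p (Additive (KS S K)ˣ)).relIndex
      (pMul p (Additive (KS S K)ˣ) ⊔ unitIdeleAdd S K) =
      (pMul p (Additive (KS S K)ˣ)).relIndex (unitIdeleAdd S K) :=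
    AddSubgroup.relIndex_sup_left _ _
  rw [h2] at h1
  have hi : iIdx S p K = (pMul p (Additive (KS S K)ˣ)).relIndex (unitIdeleAdd S K) *
      (pMul p (Additive (KS S K)ˣ) ⊔ unitIdeleAdd S K).index := h1.symm
  refine ⟨?_, ?_⟩
  · rw [hi]
    exact Nat.mul_ne_zero huq0 hiu0
  · rw [hi]
    calc (pMul p (Additive (KS S K)ˣ)).relIndex (unitIdeleAdd S K) *
          (pMul p (Additive (KS S K)ˣ) ⊔ unitIdeleAdd S K).index
        ≤ (Nat.card (TorsP S p K) * p ^ Module.finrank ℚ K) * p ^ nS S K :=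
          Nat.mul_le_mul huq hiu
      _ ≤ (p ^ nS S K * p ^ Module.finrank ℚ K) * p ^ nS S K :=
          Nat.mul_le_mul_right _ (Nat.mul_le_mul_right _ hcard)
      _ = p ^ (Module.finrank ℚ K + 2 * nS S K) := by
          rw [← pow_add, ← pow_add]
          congr 1
          ring

end H17X

end
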