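/-
W2-C (S55) block C, deliverable **C3B** (helper17): the final assembly.
`h17x_c3b_of` : `H14PT.C3B S p` from the slices that are still pending (EX-LOC, EX-KUM, EX-SPLIT, EX);
everything else is discharged here.
-/
import Fermat.Agent.CFT2.C3.ExMu_helper17
import Fermat.Agent.CFT2.C3.LocSlices_helper17
import Fermat.Agent.CFT2.C3.ExCount_helper12
import Fermat.Agent.CFT2.C3.ExSV_helper12
import Fermat.Agent.CFT2.C3.ExKF_helper9
import Fermat.Agent.CFT2.C3.ExRecApp_helper25
import Fermat.Agent.CFT2.C3.ExNorm_helper22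
import Fermat.Agent.CFT2.C3.ExV0_helper9
import Fermat.Agent.CFT2.C3.ExTr_helper14
import Fermat.Agent.CFT2.C.BCls.Strong_helper22
import Fermat.Agent.CFT2.C.BCls.LevelField_helper9
import Fermat.Agent.CFT2.C.BCls.Tower2_helper22
import Fermat.Agent.CFT2.C.FCFinal_helper25

set_option autoImplicit false
set_option linter.unusedSectionVars false
set_option linter.unusedVariables false

noncomputable section

namespace H17X

open NumberField H17C H14PT H15D

/-- **(EX-V0)**, modulo EX-KUM and EX-SPLIT -/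
theorem h17x_v0_of (hKum : KummerStatement) (hSplit : SplitStatement) : V0Statement :=
  H9V0.v0_of H9XU.kumField hKum
    (H9V0.normConcl_of H22XN.h22xn_normGroup H25X.h25x_recApp H25C.h25c_fundamentalClass
      (fun G _ _ => H25X.h25x_recExp G) (fun S => H22BC.h22bc_towerDesc S)
      (fun S => H22BC.h22bc_towerEqv S))
    hSplit H12XV.exSUnit H12XV.exV

/-- **(EX-MU)**, modulo EX-LOC, EX-KUM and EX-SPLIT -/
theorem h17x_exMu_of (hLoc : LocStatement) (hKum : KummerStatement) (hSplit : SplitStatement) :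
    ExMuStatement :=
  h17x_exMu H12XV.exSUnit H12XV.exV hLoc H12XC.exCount (h17x_v0_of hKum hSplit) H9XU.kumField
    hKum H22XN.h22xn_normGroup H25X.h25x_recApp H25C.h25c_fundamentalClass
    (fun G _ _ => H25X.h25x_recExp G) (fun S => H9BL.unrTr S)
    (fun S => H22BC.h22bc_towerDesc S) (fun S => H22BC.h22bc_towerEqv S)

/-- **C3B**, modulo EX-LOC, EX-KUM, EX-SPLIT and EX (the reduction to `ζ_p ∈ F`) -/
theorem h17x_c3b_of (hLoc : LocStatement) (hKum : KummerStatement) (hSplit : SplitStatement)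
    (hEx : ExMuStatement → ∀ (S : Finset Nat.Primes) (p : ℕ), p.Prime → p ≠ 2 →
      (∃ q ∈ S, (q : ℕ) = p) → ExTensorStatement S p)
    (S : Finset Nat.Primes) (p : ℕ) (hp : p.Prime) (hp2 : p ≠ 2)
    (hpS : ∃ q ∈ S, (q : ℕ) = p) : C3B S p :=
  H14X.exTr S p hp hpS (H9BL.levelFieldStmt S) (H22BC.h22bc_bclsStrong S p hp hpS)
    (hEx (h17x_exMu_of hLoc hKum hSplit) S p hp hp2 hpS)

end H17X

end
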