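import Mathlib
import Fermat.Agent.CFT2.C3.LocSlices_helper17
import Fermat.Agent.CFT2.C3.ExSV_helper12
import Fermat.Agent.CFT2.C.WeakApprox_helper3

/-!
# W2-C (S55) block C3, slice EX-LOC, sub-slice EX-IU (helper12)

`H17X.IUStatement`: `[I : pI + U] ≤ p ^ nS`, finite.
(`I = Kˣ U` by weak approximation; the elements of `Kˣ` which are units at all primes above `S`
lie in `U`; so `I / (pI + U)` is a quotient of `M / pM`, `M = ord_Σ(Kˣ) ⊆ ℤ^Σ`.)
-/

set_option autoImplicit false
set_option linter.style.haveILetI false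
set_option linter.unusedSectionVars false
set_option linter.unusedVariables false

noncomputable section

namespace H12IU

open H17C H17X NumberField IsDedekindDomain H12FIN H12KF H12XS H12XV Module

variable (S : Finset Nat.Primes) (p : ℕ) (K : Type) [Field K] [NumberField K]

/-- the orders of an element of `Kˣ` at the primes above `S` -/
def ordAll : Additive Kˣ →+ (Sig S K → ℤ) where
  toFun x v := ordv v.1 ((Additive.toMul x : Kˣ) : K)
  map_zero' := by
    funext v
    show ordv v.1 ((1 : Kˣ) : K) = 0
    rw [Units.val_one, ordv_one]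
  map_add' x y := by
    funext v
    show ordv v.1 ((Additive.toMul x * Additive.toMul y : Kˣ) : K) = _
    rw [Units.val_mul, ordv_mul _ (Additive.toMul x).ne_zero (Additive.toMul y).ne_zero]
    rfl

theorem ordAll_apply (x : Additive Kˣ) (v : Sig S K) :
    ordAll S K x v = ordv v.1 ((Additive.toMul x : Kˣ) : K) := rfl

/-- elements of `Kˣ` which are units at the primes above `S` are unit ideles -/
theorem diagAdd_mem_of_ordAll (x : Additive Kˣ) (h : ordAll S K x = 0) :
    diagAdd S K x ∈ unitIdeleAdd S K := by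
  show diagS S K (Additive.toMul x) ∈ unitIdele S K
  apply diagS_mem_unitIdele
  intro v hv
  exact val_eq_one_of_ordv v _ (Additive.toMul x).ne_zero (congrFun h ⟨v, hv⟩)

/-- weak approximation: `I = Kˣ + U` -/
theorem exists_sub_mem (u : Additive (KS S K)ˣ) :
    ∃ a : Additive Kˣ, u - diagAdd S K a ∈ unitIdeleAdd S K := by
  obtain ⟨a, ha⟩ := H3C.h3c_weakApprox S K 1 one_ne_zero (Additive.toMul u)
  exact ⟨Additive.ofMul a, ha.1⟩

/-- the image of `ord_Σ` -/
abbrev M : AddSubgroup (Sig S K → ℤ) := (ordAll S K).range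

/-- `ord_Σ` onto its image -/
def ordM : Additive Kˣ →+ M S K := (ordAll S K).rangeRestrict

theorem ordM_surjective : Function.Surjective (ordM S K) :=
  (ordAll S K).rangeRestrict_surjective

/-- the subgroup `pI + U` -/
abbrev IU : AddSubgroup (Additive (KS S K)ˣ) := pMul p (Additive (KS S K)ˣ) ⊔ unitIdeleAdd S K

theorem comap_le : (pMul p (M S K)).comap (ordM S K) ≤ (IU S p K).comap (diagAdd S K) := by
  intro a ha
  rw [AddSubgroup.mem_comap] at ha ⊢
  obtain ⟨m, hm⟩ := ha
  obtain ⟨b, rfl⟩ := ordM_surjective S K m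
  have hm' : p • ordM S K b = ordM S K a := hm
  have h0 : ordAll S K (a - p • b) = 0 := by
    have := congrArg (fun x : M S K => (x : Sig S K → ℤ)) hm'
    simp only [AddSubgroup.coe_nsmul] at this
    rw [map_sub, map_nsmul]
    show ordAll S K a - p • ordAll S K b = 0
    rw [sub_eq_zero]
    exact this.symm
  have h1 := diagAdd_mem_of_ordAll S K _ h0
  rw [map_sub, map_nsmul] at h1
  rw [AddSubgroup.mem_sup]
  exact ⟨p • diagAdd S K b, ⟨_, rfl⟩, _, h1, by abel⟩

theorem index_IU_eq : (IU S p K).index = ((IU S p K).comap (diagAdd S K)).index := by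
  rw [AddSubgroup.index_comap]
  have htop : IU S p K ⊔ (diagAdd S K).range = ⊤ := by
    rw [eq_top_iff]
    intro u _
    obtain ⟨a, ha⟩ := exists_sub_mem S K u
    rw [AddSubgroup.mem_sup]
    refine ⟨u - diagAdd S K a, ?_, diagAdd S K a, ⟨a, rfl⟩, by abel⟩
    exact (le_sup_right : unitIdeleAdd S K ≤ IU S p K) ha
  rw [← AddSubgroup.relIndex_sup_left (diagAdd S K).range (IU S p K), htop,
    AddSubgroup.relIndex_top_right]

instance instFiniteM : Module.Finite ℤ (M S K) := by
  haveI : Fintype (Sig S K) := Fintype.ofFinite _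
  have : IsNoetherian ℤ (Sig S K → ℤ) := inferInstance
  exact Module.Finite.of_fg (IsNoetherian.noetherian (AddSubgroup.toIntSubmodule (M S K)))

theorem index_pMul_M (hp : 0 < p) : (pMul p (M S K)).index = p ^ finrank ℤ (M S K) := by
  haveI : NeZero p := ⟨hp.ne'⟩
  have h := H29FI.h29fi_index_nsmul (M S K) p
  have hker : (nsmulAddMonoidHom p : M S K →+ M S K).ker = ⊥ := by
    ext x
    simp only [AddMonoidHom.mem_ker, nsmulAddMonoidHom_apply, AddSubgroup.mem_bot]
    constructor
    · intro hx
      have hx' := congrArg (fun x : M S K => (x : Sig S K → ℤ)) hx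
      simp only [AddSubgroup.coe_nsmul, AddSubgroup.coe_zero] at hx'
      apply Subtype.ext
      funext v
      have := congrFun hx' v
      simp only [Pi.smul_apply, nsmul_eq_mul, Pi.zero_apply] at this
      rcases mul_eq_zero.mp this with h | h
      · exact absurd (by exact_mod_cast h : p = 0) hp.ne'
      · exact h
    · intro hx
      rw [hx, smul_zero]
  rw [hker, AddSubgroup.card_bot, mul_one] at h
  exact h

theorem finrank_M_le : finrank ℤ (M S K) ≤ nS S K := by
  haveI : Fintype (Sig S K) := Fintype.ofFinite _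
  have h1 : finrank ℤ (M S K) ≤ finrank ℤ (Sig S K → ℤ) :=
    Submodule.finrank_le (AddSubgroup.toIntSubmodule (M S K))
  rw [Module.finrank_pi, ← Nat.card_eq_fintype_card, ← nS_eq] at h1
  exact h1

/-- **EX-IU** -/
theorem exIU : H17X.IUStatement := by
  intro S p K _ _ hp
  have h1 : ((pMul p (M S K)).comap (ordM S K)).index = p ^ finrank ℤ (M S K) := by
    rw [AddSubgroup.index_comap_of_surjective _ (ordM_surjective S K), index_pMul_M S p K hp.pos]
  have h2 := AddSubgroup.index_dvd_of_le (comap_le S p K)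
  rw [← index_IU_eq, h1] at h2
  have h3 : p ^ finrank ℤ (M S K) ≤ p ^ nS S K :=
    Nat.pow_le_pow_right hp.pos (finrank_M_le S K)
  have hne : (IU S p K).index ≠ 0 := by
    intro h0
    rw [h0, zero_dvd_iff] at h2
    exact (pow_ne_zero _ hp.ne_zero) h2
  exact ⟨hne, (Nat.le_of_dvd (pow_pos hp.pos _) h2).trans h3⟩

end H12IU
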