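import Mathlib

/-!
# W2-C (S55), block C3 (existence theorem mod `p`), slice EX-KUM (helper10): multi-Kummer theory

Abstract core (pure Mathlib).  `E / L` finite Galois, `ζ ∈ L` a primitive `p`-th root of unity,
`R ≤ Eˣ` a subgroup with `αᵖ ∈ L` for all `α ∈ R`, and `E = L(R)`.  Then
`Gal(E/L)` is abelian of exponent `p` and `|Gal(E/L)| = [R : R ∩ Lˣ]`
(`H10XK.kummer_comm`, `H10XK.kummer_pow`, `H10XK.kummer_card`).
-/

set_option autoImplicit false
set_option linter.unusedSectionVars false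
set_option linter.unusedVariables false
set_option linter.style.longLine false
set_option linter.style.haveILetI false

noncomputable section

open IntermediateField

namespace H10XK

variable {L E : Type*} [Field L] [Field E] [Algebra L E]
variable (p : ℕ) (ζ : L)

/-- a `p`-th root of unity of `E` lies in `L` -/
theorem mem_range_of_pow_eq_one (hp : 0 < p) (hζ : IsPrimitiveRoot ζ p) {x : E} (hx : x ^ p = 1) :
    ∃ c : L, algebraMap L E c = x := by
  have : NeZero p := ⟨hp.ne'⟩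
  have hζ' : IsPrimitiveRoot (algebraMap L E ζ) p := hζ.map_of_injective (algebraMap L E).injective
  obtain ⟨i, -, hi⟩ := hζ'.eq_pow_of_pow_eq_one hx
  exact ⟨ζ ^ i, by rw [map_pow, hi]⟩

variable (R : Subgroup Eˣ)

/-- the Kummer character of `σ`: `α ↦ σ α / α` -/
def kumChar (σ : E ≃ₐ[L] E) : R →* Eˣ where
  toFun α := Units.map (σ : E →* E) (α : Eˣ) * (α : Eˣ)⁻¹
  map_one' := by simp
  map_mul' α β := by
    simp only [Subgroup.coe_mul, map_mul, mul_inv_rev]
    rw [mul_comm ((β : Eˣ)⁻¹), mul_mul_mul_comm]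

theorem kumChar_apply (σ : E ≃ₐ[L] E) (α : R) :
    ((kumChar R σ α : Eˣ) : E) = σ (α : Eˣ) * ((α : Eˣ) : E)⁻¹ := by
  simp [kumChar]

variable {p ζ R}

/-- the values of the Kummer characters are `p`-th roots of unity -/
theorem kumChar_pow (hR : ∀ α ∈ R, ∃ a : L, ((α : Eˣ) : E) ^ p = algebraMap L E a)
    (σ : E ≃ₐ[L] E) (α : R) : (kumChar R σ α) ^ p = 1 := by
  apply Units.ext
  obtain ⟨a, ha⟩ := hR α α.2
  rw [Units.val_pow_eq_pow_val, kumChar_apply, mul_pow, ← map_pow, ha, AlgEquiv.commutes,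
    inv_pow, ← ha, Units.val_one]
  exact mul_inv_cancel₀ (pow_ne_zero _ (Units.ne_zero _))

/-- the values of the Kummer characters lie in `L` -/
theorem kumChar_mem (hp : 0 < p) (hζ : IsPrimitiveRoot ζ p)
    (hR : ∀ α ∈ R, ∃ a : L, ((α : Eˣ) : E) ^ p = algebraMap L E a)
    (σ : E ≃ₐ[L] E) (α : R) : ∃ c : L, algebraMap L E c = ((kumChar R σ α : Eˣ) : E) := by
  apply mem_range_of_pow_eq_one p ζ hp hζ
  have := congrArg (fun u : Eˣ => (u : E)) (kumChar_pow hR σ α)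
  simpa using this

/-- multiplicativity in `σ` -/
theorem kumChar_mul (hp : 0 < p) (hζ : IsPrimitiveRoot ζ p)
    (hR : ∀ α ∈ R, ∃ a : L, ((α : Eˣ) : E) ^ p = algebraMap L E a)
    (σ τ : E ≃ₐ[L] E) : kumChar R (σ * τ) = kumChar R σ * kumChar R τ := by
  ext α
  obtain ⟨c, hc⟩ := kumChar_mem hp hζ hR τ α
  rw [MonoidHom.mul_apply, Units.val_mul, kumChar_apply, kumChar_apply]
  have hα0 : ((α : Eˣ) : E) ≠ 0 := Units.ne_zero _
  -- `τ α = c α`
  have h1 : τ ((α : Eˣ) : E) = algebraMap L E c * ((α : Eˣ) : E) := by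
    rw [hc, kumChar_apply, inv_mul_cancel_right₀ hα0]
  rw [AlgEquiv.mul_apply, h1, map_mul, AlgEquiv.commutes, ← hc]
  field_simp

/-- the Kummer pairing as a homomorphism `Gal(E/L) →* (R →* Eˣ)` -/
def kumHom (hp : 0 < p) (hζ : IsPrimitiveRoot ζ p)
    (hR : ∀ α ∈ R, ∃ a : L, ((α : Eˣ) : E) ^ p = algebraMap L E a) :
    (E ≃ₐ[L] E) →* (R →* Eˣ) where
  toFun σ := kumChar R σ
  map_one' := by
    ext α
    simp [kumChar]
  map_mul' σ τ := kumChar_mul hp hζ hR σ τ

theorem kumHom_apply (hp : 0 < p) (hζ : IsPrimitiveRoot ζ p)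
    (hR : ∀ α ∈ R, ∃ a : L, ((α : Eˣ) : E) ^ p = algebraMap L E a) (σ : E ≃ₐ[L] E) :
    kumHom hp hζ hR σ = kumChar R σ := rfl

/-- the Kummer pairing is nondegenerate on the left if `R` generates `E` -/
theorem kumHom_injective (hp : 0 < p) (hζ : IsPrimitiveRoot ζ p)
    (hR : ∀ α ∈ R, ∃ a : L, ((α : Eˣ) : E) ^ p = algebraMap L E a)
    (hgen : IntermediateField.adjoin L {x : E | ∃ α ∈ R, ((α : Eˣ) : E) = x} = ⊤) :
    Function.Injective (kumHom hp hζ hR) := by
  rw [injective_iff_map_eq_one]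
  intro σ hσ
  -- `σ` fixes the generators
  have hfix : ∀ x ∈ {x : E | ∃ α ∈ R, ((α : Eˣ) : E) = x}, σ x = x := by
    rintro x ⟨α, hα, rfl⟩
    have h := congrArg (fun f : R →* Eˣ => ((f ⟨α, hα⟩ : Eˣ) : E)) hσ
    simp only [kumHom_apply, kumChar_apply, MonoidHom.one_apply, Units.val_one] at h
    have hα0 : ((α : Eˣ) : E) ≠ 0 := Units.ne_zero _
    field_simp at h
    exact h
  have hmem : ∀ x : E, x ∈ IntermediateField.adjoin L {x : E | ∃ α ∈ R, ((α : Eˣ) : E) = x} →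
      σ x = x := by
    intro x hx
    induction hx using IntermediateField.adjoin_induction with
    | mem x hx => exact hfix x hx
    | algebraMap x => exact σ.commutes x
    | add x y _ _ hx hy => rw [map_add, hx, hy]
    | inv x _ hx => rw [map_inv₀, hx]
    | mul x y _ _ hx hy => rw [map_mul, hx, hy]
  ext x
  exact hmem x (by rw [hgen]; exact IntermediateField.mem_top)

/-- **Kummer**: the Galois group is commutative. -/
theorem kummer_comm (hp : 0 < p) (hζ : IsPrimitiveRoot ζ p)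
    (hR : ∀ α ∈ R, ∃ a : L, ((α : Eˣ) : E) ^ p = algebraMap L E a)
    (hgen : IntermediateField.adjoin L {x : E | ∃ α ∈ R, ((α : Eˣ) : E) = x} = ⊤)
    (σ τ : E ≃ₐ[L] E) : σ * τ = τ * σ := by
  apply kumHom_injective hp hζ hR hgen
  rw [map_mul, map_mul]
  exact mul_comm (kumHom hp hζ hR σ) (kumHom hp hζ hR τ)

/-- **Kummer**: the Galois group has exponent `p`. -/
theorem kummer_pow (hp : 0 < p) (hζ : IsPrimitiveRoot ζ p)
    (hR : ∀ α ∈ R, ∃ a : L, ((α : Eˣ) : E) ^ p = algebraMap L E a)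
    (hgen : IntermediateField.adjoin L {x : E | ∃ α ∈ R, ((α : Eˣ) : E) = x} = ⊤)
    (σ : E ≃ₐ[L] E) : σ ^ p = 1 := by
  apply kumHom_injective hp hζ hR hgen
  rw [map_pow, map_one]
  ext α
  rw [MonoidHom.pow_apply, kumHom_apply, kumChar_pow hR]
  rfl


/-! ### the right kernel and the count -/

variable (L E) in
/-- the image of `Lˣ` in `Eˣ` -/
def baseUnits : Subgroup Eˣ := (Units.map (algebraMap L E : L →* E)).range

theorem mem_baseUnits_iff (u : Eˣ) : u ∈ baseUnits L E ↔ ∃ c : L, algebraMap L E c = (u : E) := by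
  constructor
  · rintro ⟨c, rfl⟩
    exact ⟨(c : L), rfl⟩
  · rintro ⟨c, hc⟩
    have hc0 : c ≠ 0 := by
      rintro rfl
      rw [map_zero] at hc
      exact u.ne_zero hc.symm
    exact ⟨Units.mk0 c hc0, Units.ext (by simpa using hc)⟩

/-- the flipped Kummer pairing `R →* (Gal(E/L) →* Eˣ)` -/
def kumFlip (hp : 0 < p) (hζ : IsPrimitiveRoot ζ p)
    (hR : ∀ α ∈ R, ∃ a : L, ((α : Eˣ) : E) ^ p = algebraMap L E a) :
    R →* ((E ≃ₐ[L] E) →* Eˣ) := (kumHom hp hζ hR).flip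

theorem kumFlip_apply (hp : 0 < p) (hζ : IsPrimitiveRoot ζ p)
    (hR : ∀ α ∈ R, ∃ a : L, ((α : Eˣ) : E) ^ p = algebraMap L E a) (α : R) (σ : E ≃ₐ[L] E) :
    kumFlip hp hζ hR α σ = kumChar R σ α := rfl

section Count

variable [FiniteDimensional L E] [IsGalois L E]

/-- the right kernel of the Kummer pairing is `R ∩ Lˣ` -/
theorem kumFlip_ker (hp : 0 < p) (hζ : IsPrimitiveRoot ζ p)
    (hR : ∀ α ∈ R, ∃ a : L, ((α : Eˣ) : E) ^ p = algebraMap L E a) :
    (kumFlip hp hζ hR).ker = (baseUnits L E).subgroupOf R := by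
  ext α
  rw [MonoidHom.mem_ker, Subgroup.mem_subgroupOf, mem_baseUnits_iff]
  have hα0 : ((α : Eˣ) : E) ≠ 0 := Units.ne_zero _
  constructor
  · intro h
    have h2 : ∀ σ : E ≃ₐ[L] E, σ ((α : Eˣ) : E) = ((α : Eˣ) : E) := by
      intro σ
      have h3 := congrArg (fun f : (E ≃ₐ[L] E) →* Eˣ => ((f σ : Eˣ) : E)) h
      simp only [kumFlip_apply, kumChar_apply, MonoidHom.one_apply, Units.val_one] at h3
      field_simp at h3
      exact h3
    exact (IsGalois.mem_range_algebraMap_iff_fixed _).mpr h2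
  · rintro ⟨c, hc⟩
    ext σ
    rw [kumFlip_apply, kumChar_apply, ← hc, AlgEquiv.commutes, MonoidHom.one_apply, Units.val_one]
    exact mul_inv_cancel₀ (by rw [hc]; exact hα0)

theorem hasEnough_of_primitive (hp : 0 < p) (hζ : IsPrimitiveRoot ζ p) :
    HasEnoughRootsOfUnity E p :=
  have : NeZero p := ⟨hp.ne'⟩
  ⟨⟨algebraMap L E ζ, hζ.map_of_injective (algebraMap L E).injective⟩, rootsOfUnity.isCyclic E p⟩

/-- `[R : R ∩ Lˣ] ≤ |Gal(E/L)|`, and the index is finite -/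
theorem kummer_index_le (hp : 0 < p) (hζ : IsPrimitiveRoot ζ p)
    (hR : ∀ α ∈ R, ∃ a : L, ((α : Eˣ) : E) ^ p = algebraMap L E a)
    (hgen : IntermediateField.adjoin L {x : E | ∃ α ∈ R, ((α : Eˣ) : E) = x} = ⊤) :
    (baseUnits L E).relIndex R ≠ 0 ∧ (baseUnits L E).relIndex R ≤ Nat.card (E ≃ₐ[L] E) := by
  have : NeZero p := ⟨hp.ne'⟩
  letI : CommGroup (E ≃ₐ[L] E) :=
    { (inferInstance : Group (E ≃ₐ[L] E)) with mul_comm := kummer_comm hp hζ hR hgen }
  have hexp : Monoid.exponent (E ≃ₐ[L] E) ∣ p :=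
    Monoid.exponent_dvd_of_forall_pow_eq_one (kummer_pow hp hζ hR hgen)
  haveI : HasEnoughRootsOfUnity E p := hasEnough_of_primitive (L := L) hp hζ
  haveI : HasEnoughRootsOfUnity E (Monoid.exponent (E ≃ₐ[L] E)) :=
    HasEnoughRootsOfUnity.of_dvd E hexp
  have hcard : Nat.card ((E ≃ₐ[L] E) →* Eˣ) = Nat.card (E ≃ₐ[L] E) :=
    CommGroup.card_monoidHom_of_hasEnoughRootsOfUnity (E ≃ₐ[L] E) E
  have hidx : (baseUnits L E).relIndex R = Nat.card (kumFlip hp hζ hR).range := by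
    rw [Subgroup.relIndex, ← kumFlip_ker hp hζ hR, Subgroup.index_ker]
  rw [hidx, ← hcard]
  refine ⟨?_, Nat.card_le_card_of_injective _ (Subtype.val_injective)⟩
  exact Nat.card_pos.ne'

/-- **Kummer**: `|Gal(E/L)| = [R : R ∩ Lˣ]`. -/
theorem kummer_card (hp : 0 < p) (hζ : IsPrimitiveRoot ζ p)
    (hR : ∀ α ∈ R, ∃ a : L, ((α : Eˣ) : E) ^ p = algebraMap L E a)
    (hgen : IntermediateField.adjoin L {x : E | ∃ α ∈ R, ((α : Eˣ) : E) = x} = ⊤) :
    Nat.card (E ≃ₐ[L] E) = (baseUnits L E).relIndex R := by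
  obtain ⟨h0, hle⟩ := kummer_index_le hp hζ hR hgen
  refine le_antisymm ?_ hle
  have : NeZero p := ⟨hp.ne'⟩
  set K : Subgroup R := (baseUnits L E).subgroupOf R with hK
  have hKidx : K.index = (baseUnits L E).relIndex R := rfl
  haveI : Finite (R ⧸ K) := Subgroup.index_ne_zero_iff_finite.mp (by rw [hKidx]; exact h0)
  have hexp : Monoid.exponent (R ⧸ K) ∣ p := by
    apply Monoid.exponent_dvd_of_forall_pow_eq_one
    intro q
    induction q using QuotientGroup.induction_on with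
    | H α =>
      rw [← QuotientGroup.mk_pow, QuotientGroup.eq_one_iff, hK, Subgroup.mem_subgroupOf,
        mem_baseUnits_iff]
      obtain ⟨a, ha⟩ := hR α α.2
      exact ⟨a, by rw [← ha]; simp⟩
  haveI : HasEnoughRootsOfUnity E p := hasEnough_of_primitive (L := L) hp hζ
  haveI : HasEnoughRootsOfUnity E (Monoid.exponent (R ⧸ K)) :=
    HasEnoughRootsOfUnity.of_dvd E hexp
  have hcard : Nat.card ((R ⧸ K) →* Eˣ) = Nat.card (R ⧸ K) :=
    CommGroup.card_monoidHom_of_hasEnoughRootsOfUnity (R ⧸ K) E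
  have hle' : ∀ σ : E ≃ₐ[L] E, K ≤ (kumChar R σ).ker := by
    intro σ α hα
    rw [hK, ← kumFlip_ker hp hζ hR, MonoidHom.mem_ker] at hα
    rw [MonoidHom.mem_ker, ← kumFlip_apply hp hζ hR, hα]
    rfl
  let g : (E ≃ₐ[L] E) → ((R ⧸ K) →* Eˣ) := fun σ => QuotientGroup.lift K (kumChar R σ) (hle' σ)
  have hg : Function.Injective g := by
    intro σ τ h
    apply kumHom_injective hp hζ hR hgen
    rw [kumHom_apply, kumHom_apply]
    ext α
    have := congrArg (fun f : (R ⧸ K) →* Eˣ => ((f (QuotientGroup.mk α) : Eˣ) : E)) h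
    simpa [g] using this
  calc Nat.card (E ≃ₐ[L] E) ≤ Nat.card ((R ⧸ K) →* Eˣ) := Nat.card_le_card_of_injective g hg
    _ = Nat.card (R ⧸ K) := hcard
    _ = (baseUnits L E).relIndex R := rfl

end Count

end H10XK

end
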