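import Mathlib
import Fermat.Agent.CFT2.C3.ExKumCore_helper10

/-!
# W2-C (S55), block C3, slice EX-KUM (helper10): multi-Kummer theory, field form

`L` a field with a primitive `p`-th root of unity `ζ`, `V ≤ Lˣ` a subgroup.
* `H10XK.kummer_card_V` : if `E/L` is finite Galois, generated by the `p`-th roots of the elements
  of `V`, and contains a `p`-th root of every element of `V`, then
  `|Gal(E/L)| = [V : V ∩ Lˣᵖ]`, `Gal(E/L)` is commutative of exponent `p`;
* `H10XK.kummer_mem_V` : if moreover `Lˣᵖ ≤ V`, an element of `Lˣ` that is a `p`-th power in `E`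
  lies in `V`;
* `H10XK.kumField Ω p V` : the field `L(V^{1/p})` inside a normal extension `Ω/L`;
  `kumField_finiteDimensional`, `kumField_isGalois`.
-/

set_option autoImplicit false
set_option linter.unusedSectionVars false
set_option linter.unusedVariables false
set_option linter.style.longLine false
set_option linter.style.haveILetI false

noncomputable section

open IntermediateField

namespace H10XK

/-- `Lˣ → Eˣ` -/
def unitsMap (L E : Type*) [Field L] [Field E] [Algebra L E] : Lˣ →* Eˣ :=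
  Units.map (algebraMap L E : L →* E)

/-- the radical group of `V`: the `α ∈ Eˣ` with `αᵖ ∈ V` -/
def radGroup (p : ℕ) {L : Type*} (E : Type*) [Field L] [Field E] [Algebra L E]
    (V : Subgroup Lˣ) : Subgroup Eˣ := (V.map (unitsMap L E)).comap (powMonoidHom p)

/-- the `p`-th powers `Lˣᵖ` -/
def powSub (p : ℕ) (L : Type*) [Field L] : Subgroup Lˣ := (powMonoidHom p : Lˣ →* Lˣ).range

/-- the subgroup of `Lˣ` of elements that become `p`-th powers in `E` -/
def powIn (p : ℕ) (L E : Type*) [Field L] [Field E] [Algebra L E] : Subgroup Lˣ :=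
  (((powMonoidHom p : Eˣ →* Eˣ).range).comap (unitsMap L E))

variable {L E : Type*} [Field L] [Field E] [Algebra L E]
variable {p : ℕ} {ζ : L}

theorem unitsMap_apply (a : Lˣ) : ((unitsMap L E a : Eˣ) : E) = algebraMap L E (a : L) := rfl

theorem unitsMap_injective : Function.Injective (unitsMap L E) :=
  Units.map_injective (algebraMap L E).injective

theorem baseUnits_eq_range : baseUnits L E = (unitsMap L E).range := rfl

theorem mem_radGroup_iff (V : Subgroup Lˣ) (α : Eˣ) :
    α ∈ radGroup p E V ↔ ∃ a ∈ V, ((α : Eˣ) : E) ^ p = algebraMap L E (a : L) := by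
  unfold radGroup
  rw [Subgroup.mem_comap, Subgroup.mem_map]
  constructor
  · rintro ⟨a, ha, h⟩
    refine ⟨a, ha, ?_⟩
    have := congrArg (fun u : Eˣ => (u : E)) h
    simpa [unitsMap_apply] using this.symm
  · rintro ⟨a, ha, h⟩
    refine ⟨a, ha, Units.ext ?_⟩
    simpa [unitsMap_apply] using h.symm

theorem mem_powSub_iff (a : Lˣ) : a ∈ powSub p L ↔ ∃ b : Lˣ, b ^ p = a := Iff.rfl

/-- `{α : αᵖ ∈ Lˣᵖ} = Lˣ` (as `μ_p ⊆ L`) -/
theorem comap_pow_map_powSub (hp : 0 < p) (hζ : IsPrimitiveRoot ζ p) :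
    ((powSub p L).map (unitsMap L E)).comap (powMonoidHom p) = baseUnits L E := by
  ext α
  rw [Subgroup.mem_comap, Subgroup.mem_map, mem_baseUnits_iff]
  constructor
  · rintro ⟨a, ⟨b, rfl⟩, h⟩
    have h1 : (((α : Eˣ) : E) * (algebraMap L E (b : L))⁻¹) ^ p = 1 := by
      have h2 := congrArg (fun u : Eˣ => (u : E)) h
      simp only [powMonoidHom_apply, unitsMap_apply, Units.val_pow_eq_pow_val, map_pow] at h2
      rw [mul_pow, inv_pow, ← h2]
      exact mul_inv_cancel₀ (pow_ne_zero _ (by simpa using b.ne_zero))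
    obtain ⟨c, hc⟩ := mem_range_of_pow_eq_one p ζ hp hζ h1
    refine ⟨c * b, ?_⟩
    rw [map_mul, hc, inv_mul_cancel_right₀ (by simpa using b.ne_zero)]
  · rintro ⟨c, hc⟩
    have hc0 : c ≠ 0 := by
      rintro rfl
      rw [map_zero] at hc
      exact α.ne_zero hc.symm
    refine ⟨(Units.mk0 c hc0) ^ p, ⟨Units.mk0 c hc0, rfl⟩, Units.ext ?_⟩
    simp [unitsMap_apply, hc]

/-- if `E` contains `p`-th roots of the elements of `V`: `(radical group)ᵖ = V` -/
theorem map_pow_radGroup (hp : 0 < p) (V : Subgroup Lˣ)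
    (hroots : ∀ a ∈ V, ∃ x : E, x ^ p = algebraMap L E (a : L)) :
    (radGroup p E V).map (powMonoidHom p) = V.map (unitsMap L E) := by
  unfold radGroup
  rw [Subgroup.map_comap_eq, inf_eq_right]
  rintro u ⟨a, ha, rfl⟩
  obtain ⟨x, hx⟩ := hroots a ha
  have hx0 : x ≠ 0 := by
    rintro rfl
    rw [zero_pow hp.ne'] at hx
    exact a.ne_zero ((algebraMap L E).injective (by rw [← hx, map_zero]))
  exact ⟨Units.mk0 x hx0, Units.ext (by simpa [unitsMap_apply] using hx)⟩

/-- `[R_V : R_V ∩ Lˣ] = [V : V ∩ Lˣᵖ]` -/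
theorem relIndex_radGroup (hp : 0 < p) (hζ : IsPrimitiveRoot ζ p) (V : Subgroup Lˣ)
    (hroots : ∀ a ∈ V, ∃ x : E, x ^ p = algebraMap L E (a : L)) :
    (baseUnits L E).relIndex (radGroup p E V) = (powSub p L).relIndex V := by
  rw [← comap_pow_map_powSub hp hζ, Subgroup.relIndex_comap, map_pow_radGroup hp V hroots,
    Subgroup.relIndex_map_map_of_injective _ _ unitsMap_injective]

theorem radGroup_hR (V : Subgroup Lˣ) :
    ∀ α ∈ radGroup p E V, ∃ a : L, ((α : Eˣ) : E) ^ p = algebraMap L E a := by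
  intro α hα
  obtain ⟨a, -, h⟩ := (mem_radGroup_iff V α).mp hα
  exact ⟨a, h⟩

theorem radGroup_gen_eq (hp : 0 < p) (V : Subgroup Lˣ) :
    {x : E | ∃ α ∈ radGroup p E V, ((α : Eˣ) : E) = x} =
      {x : E | ∃ a ∈ V, x ^ p = algebraMap L E (a : L)} := by
  apply Set.ext
  intro x
  constructor
  · rintro ⟨α, hα, rfl⟩
    exact (mem_radGroup_iff V α).mp hα
  · rintro ⟨a, ha, h⟩
    have hx0 : x ≠ 0 := by
      rintro rfl
      rw [zero_pow hp.ne'] at h
      exact a.ne_zero ((algebraMap L E).injective (by rw [← h, map_zero]))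
    exact ⟨Units.mk0 x hx0, (mem_radGroup_iff V _).mpr ⟨a, ha, by simpa using h⟩, rfl⟩

section Count

variable [FiniteDimensional L E] [IsGalois L E]

/-- **multi-Kummer**: `|Gal(E/L)| = [V : V ∩ Lˣᵖ]`, commutative of exponent `p`. -/
theorem kummer_card_V (hp : 0 < p) (hζ : IsPrimitiveRoot ζ p) (V : Subgroup Lˣ)
    (hroots : ∀ a ∈ V, ∃ x : E, x ^ p = algebraMap L E (a : L))
    (hgen : IntermediateField.adjoin L {x : E | ∃ a ∈ V, x ^ p = algebraMap L E (a : L)} = ⊤) :
    Nat.card (E ≃ₐ[L] E) = (powSub p L).relIndex V ∧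
      (∀ σ τ : E ≃ₐ[L] E, σ * τ = τ * σ) ∧ (∀ σ : E ≃ₐ[L] E, σ ^ p = 1) := by
  have hgen' : IntermediateField.adjoin L
      {x : E | ∃ α ∈ radGroup p E V, ((α : Eˣ) : E) = x} = ⊤ := by
    rw [radGroup_gen_eq hp V, hgen]
  refine ⟨?_, kummer_comm hp hζ (radGroup_hR V) hgen', kummer_pow hp hζ (radGroup_hR V) hgen'⟩
  rw [kummer_card hp hζ (radGroup_hR V) hgen', relIndex_radGroup hp hζ V hroots]

/-- the degree form -/
theorem kummer_finrank_V (hp : 0 < p) (hζ : IsPrimitiveRoot ζ p) (V : Subgroup Lˣ)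
    (hroots : ∀ a ∈ V, ∃ x : E, x ^ p = algebraMap L E (a : L))
    (hgen : IntermediateField.adjoin L {x : E | ∃ a ∈ V, x ^ p = algebraMap L E (a : L)} = ⊤) :
    Module.finrank L E = (powSub p L).relIndex V := by
  rw [← IsGalois.card_aut_eq_finrank, (kummer_card_V hp hζ V hroots hgen).1]

theorem mem_powIn_iff (hp : 0 < p) (a : Lˣ) :
    a ∈ powIn p L E ↔ ∃ x : E, x ^ p = algebraMap L E (a : L) := by
  unfold powIn
  rw [Subgroup.mem_comap, MonoidHom.mem_range]
  constructor
  · rintro ⟨u, hu⟩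
    refine ⟨(u : E), ?_⟩
    have := congrArg (fun u : Eˣ => (u : E)) hu
    simpa [unitsMap_apply] using this
  · rintro ⟨x, hx⟩
    have hx0 : x ≠ 0 := by
      rintro rfl
      rw [zero_pow hp.ne'] at hx
      exact a.ne_zero ((algebraMap L E).injective (by rw [← hx, map_zero]))
    exact ⟨Units.mk0 x hx0, Units.ext (by simpa [unitsMap_apply] using hx)⟩

/-- **Kummer, converse**: if `Lˣᵖ ≤ V`, every element of `Lˣ` that is a `p`-th power in
`E = L(V^{1/p})` lies in `V`. -/
theorem kummer_mem_V (hp : 0 < p) (hζ : IsPrimitiveRoot ζ p) (V : Subgroup Lˣ)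
    (hpow : powSub p L ≤ V)
    (hroots : ∀ a ∈ V, ∃ x : E, x ^ p = algebraMap L E (a : L))
    (hgen : IntermediateField.adjoin L {x : E | ∃ a ∈ V, x ^ p = algebraMap L E (a : L)} = ⊤)
    (a : Lˣ) (ha : ∃ x : E, x ^ p = algebraMap L E (a : L)) : a ∈ V := by
  have hVV' : V ≤ powIn p L E := fun b hb => (mem_powIn_iff hp b).mpr (hroots b hb)
  have hroots' : ∀ a ∈ powIn p L E, ∃ x : E, x ^ p = algebraMap L E (a : L) :=
    fun b hb => (mem_powIn_iff hp b).mp hb
  have hgen' : IntermediateField.adjoin L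
      {x : E | ∃ a ∈ powIn p L E, x ^ p = algebraMap L E (a : L)} = ⊤ := by
    rw [eq_top_iff, ← hgen]
    apply IntermediateField.adjoin.mono
    rintro x ⟨b, hb, h⟩
    exact ⟨b, hVV' hb, h⟩
  have h1 := (kummer_card_V hp hζ V hroots hgen).1
  have h2 := (kummer_card_V hp hζ (powIn p L E) hroots' hgen').1
  have h3 : (powSub p L).relIndex V * V.relIndex (powIn p L E) =
      (powSub p L).relIndex (powIn p L E) := Subgroup.relIndex_mul_relIndex _ _ _ hpow hVV'
  rw [← h1, ← h2] at h3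
  have hpos : 0 < Nat.card (E ≃ₐ[L] E) := Nat.card_pos
  have h4 : V.relIndex (powIn p L E) = 1 := by
    have := Nat.eq_of_mul_eq_mul_left hpos (h3.trans (mul_one _).symm)
    exact this
  exact (Subgroup.relIndex_eq_one.mp h4) ((mem_powIn_iff hp a).mpr ha)

end Count

end H10XK

end
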