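import Fermat.Agent.CFT2.C3.Defs_helper17
import Fermat.Agent.CFT2.C3.ExKumField_helper10

/-!
# W2-C (S55), block C3, slice EX-KUM (helper10): `H17X.KummerStatement`

`H10XK.h10xk_kummer : H17X.KummerStatement`: for `ζ_p ∈ F`, `F' = F(W^{1/p})` finite over `ℚ`:
`Gal(F'/F)` (`= H17X.galSub F F'`) is abelian of exponent `p`, of order `[W : W ∩ Fˣᵖ]`
(`h10xk_kummer_card` for the equality).
-/

set_option autoImplicit false
set_option linter.unusedSectionVars false
set_option linter.unusedVariables false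
set_option linter.style.longLine false
set_option linter.style.haveILetI false

noncomputable section

open IntermediateField

namespace H10XK

open H17X

local notation "Qb" => AlgebraicClosure ℚ

/-- generic form of `Subtype.coe_mk` (so that the kernel never compares two subtypes) -/
theorem val_mk_gen {α : Type*} {P Q : α → Prop} (h : ∀ x, P x → Q x) (x : Subtype P) :
    (⟨x.1, h x.1 x.2⟩ : Subtype Q).1 = x.1 := rfl

section

variable (p : ℕ) (F : IntermediateField ℚ Qb) (W : AddSubgroup (Additive (↥F)ˣ))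

/-- the set of all `p`-th roots of the elements of `W` -/
def rootsW : Set Qb :=
  {w : Qb | ∃ a : (↥F)ˣ, Additive.ofMul a ∈ W ∧ w ^ p = (((a : (↥F)ˣ) : ↥F) : Qb)}

/-- `F(W^{1/p})` as an intermediate field of `Qb / F` -/
def kumM : IntermediateField (↥F) Qb := IntermediateField.adjoin (↥F) (rootsW p F W)

theorem kumM_restrictScalars : (kumM p F W).restrictScalars ℚ = kumW p F W :=
  IntermediateField.restrictScalars_adjoin_eq_sup ℚ F (rootsW p F W)

theorem mem_kumM_iff (x : Qb) : x ∈ kumM p F W ↔ x ∈ kumW p F W := by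
  rw [← kumM_restrictScalars]
  exact Iff.rfl

/-- the identification `F(W^{1/p}) = kumW p F W` of fields -/
def eMF : ↥(kumM p F W) ≃+* ↥(kumW p F W) where
  toFun x := ⟨x.1, (mem_kumM_iff p F W x.1).mp x.2⟩
  invFun y := ⟨y.1, (mem_kumM_iff p F W y.1).mpr y.2⟩
  left_inv x := rfl
  right_inv y := rfl
  map_mul' x y := rfl
  map_add' x y := rfl

theorem eMF_coe (x : ↥(kumM p F W)) : ((eMF p F W x : ↥(kumW p F W)) : Qb) = (x : Qb) :=
  val_mk_gen (fun y hy => (mem_kumM_iff p F W y).mp hy) x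

theorem eMF_symm_coe (y : ↥(kumW p F W)) :
    (((eMF p F W).symm y : ↥(kumM p F W)) : Qb) = (y : Qb) :=
  val_mk_gen (fun y hy => (mem_kumM_iff p F W y).mpr hy) y


/-! ### `F(W^{1/p}) / F` is finite Galois -/

theorem coe_algebraMap_kumM (x : ↥F) :
    ((algebraMap ↥F ↥(kumM p F W) x : ↥(kumM p F W)) : Qb) = (x : Qb) := rfl

theorem rootsW_subset : rootsW p F W ⊆ (kumM p F W : Set Qb) :=
  IntermediateField.subset_adjoin _ _

theorem rootsW_stable (σ : Qb →ₐ[↥F] Qb) : σ '' rootsW p F W ⊆ rootsW p F W := by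
  rintro _ ⟨w, ⟨a, ha, hw⟩, rfl⟩
  refine ⟨a, ha, ?_⟩
  rw [← map_pow, hw]
  exact σ.commutes (a : ↥F)

theorem normal_Qb_over : Normal ↥F Qb :=
  haveI halg : Algebra.IsAlgebraic ℚ Qb := AlgebraicClosure.isAlgebraic ℚ
  haveI : Normal ℚ Qb :=
    normal_iff.2 fun x => ⟨(halg.isAlgebraic x).isIntegral, IsAlgClosed.splits _⟩
  Normal.tower_top_of_normal ℚ ↥F Qb

theorem kumM_normal : Normal ↥F ↥(kumM p F W) := by
  haveI := normal_Qb_over F
  rw [IntermediateField.normal_iff_forall_map_le]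
  intro σ
  unfold kumM
  rw [IntermediateField.adjoin_map]
  exact IntermediateField.adjoin.mono _ _ _ (rootsW_stable p F W σ)

theorem kumM_finite (h : FiniteDimensional ℚ ↥(kumW p F W)) :
    FiniteDimensional ↥F ↥(kumM p F W) := by
  have h1 : FiniteDimensional ℚ ↥(kumM p F W) :=
    Module.Finite.equiv (eMF p F W).symm.toRatAlgEquiv.toLinearEquiv
  exact Module.Finite.right ℚ ↥F ↥(kumM p F W)

theorem kumM_isGalois : IsGalois ↥F ↥(kumM p F W) := by
  haveI := kumM_normal p F W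
  haveI : Algebra.IsAlgebraic ↥F ↥(kumM p F W) := inferInstance
  exact ⟨⟩


/-! ### the hypotheses of the abstract theorem -/

/-- `W` as a subgroup of `Fˣ` -/
def mulW : Subgroup (↥F)ˣ := Subgroup.toAddSubgroup.symm W

theorem mem_mulW (a : (↥F)ˣ) : a ∈ mulW F W ↔ Additive.ofMul a ∈ W := Iff.rfl

theorem toAddSubgroup_mulW : Subgroup.toAddSubgroup (mulW F W) = W :=
  OrderIso.apply_symm_apply _ _

theorem toAddSubgroup_powSub : Subgroup.toAddSubgroup (powSub p ↥F) = pMul p (Additive (↥F)ˣ) := by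
  ext x
  constructor
  · rintro ⟨b, hb⟩
    exact ⟨Additive.ofMul b, hb⟩
  · rintro ⟨y, hy⟩
    exact ⟨Additive.toMul y, hy⟩

theorem relIndex_mulW :
    (powSub p ↥F).relIndex (mulW F W) = (pMul p (Additive (↥F)ˣ)).relIndex W := by
  rw [← Subgroup.relIndex_toAddSubgroup, toAddSubgroup_mulW, toAddSubgroup_powSub]

theorem kumM_hroots (hp : 0 < p) : ∀ a ∈ mulW F W,
    ∃ x : ↥(kumM p F W), x ^ p = algebraMap ↥F ↥(kumM p F W) (a : ↥F) := by
  intro a ha
  obtain ⟨w, hw⟩ := IsAlgClosed.exists_pow_nat_eq (((a : (↥F)ˣ) : ↥F) : Qb) hp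
  have hwX : w ∈ rootsW p F W := ⟨a, ha, hw⟩
  refine ⟨⟨w, rootsW_subset p F W hwX⟩, Subtype.ext ?_⟩
  rw [coe_algebraMap_kumM, ← hw]
  rfl

theorem kumM_hgen : IntermediateField.adjoin ↥F
    {x : ↥(kumM p F W) | ∃ a ∈ mulW F W, x ^ p = algebraMap ↥F ↥(kumM p F W) (a : ↥F)} = ⊤ := by
  apply IntermediateField.map_injective (kumM p F W).val
  rw [IntermediateField.adjoin_map, ← AlgHom.fieldRange_eq_map, IntermediateField.fieldRange_val]
  have hX : (kumM p F W).val ''
      {x : ↥(kumM p F W) | ∃ a ∈ mulW F W, x ^ p = algebraMap ↥F ↥(kumM p F W) (a : ↥F)} =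
      rootsW p F W := by
    apply Set.ext
    intro w
    constructor
    · rintro ⟨x, ⟨a, ha, hx⟩, rfl⟩
      refine ⟨a, ha, ?_⟩
      have := congrArg (fun y : ↥(kumM p F W) => (y : Qb)) hx
      simpa [coe_algebraMap_kumM] using this
    · rintro ⟨a, ha, hw⟩
      refine ⟨⟨w, rootsW_subset p F W ⟨a, ha, hw⟩⟩, ⟨a, ha, Subtype.ext ?_⟩, rfl⟩
      rw [coe_algebraMap_kumM]
      exact hw
  rw [hX]
  rfl


/-! ### `galSub F F' ≃ Gal(F(W^{1/p}) / F)` -/

theorem eMF_algebraMap_mem (x : ↥F) :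
    ((eMF p F W (algebraMap ↥F ↥(kumM p F W) x) : ↥(kumW p F W)) : Qb) ∈ F := by
  rw [eMF_coe, coe_algebraMap_kumM]
  exact x.2

/-- an element of `galSub` as an `F`-automorphism of `F(W^{1/p})` -/
def toGal (σ : galSub F (kumW p F W)) : ↥(kumM p F W) ≃ₐ[↥F] ↥(kumM p F W) :=
  AlgEquiv.ofRingEquiv
    (f := ((eMF p F W).trans (σ.1 : ↥(kumW p F W) ≃ₐ[ℚ] ↥(kumW p F W)).toRingEquiv).trans
      (eMF p F W).symm)
    (by
      intro x
      show (eMF p F W).symm (σ.1 (eMF p F W (algebraMap ↥F ↥(kumM p F W) x))) = _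
      rw [σ.2 _ (eMF_algebraMap_mem p F W x), RingEquiv.symm_apply_apply])

theorem toGal_apply (σ : galSub F (kumW p F W)) (x : ↥(kumM p F W)) :
    toGal p F W σ x = (eMF p F W).symm (σ.1 (eMF p F W x)) := rfl

/-- the homomorphism `galSub F F' → Gal(F(W^{1/p}) / F)` -/
def toGalHom : galSub F (kumW p F W) →* (↥(kumM p F W) ≃ₐ[↥F] ↥(kumM p F W)) where
  toFun := toGal p F W
  map_one' := by
    ext x
    rw [toGal_apply]
    simp
  map_mul' σ τ := by
    ext x
    rw [AlgEquiv.mul_apply, toGal_apply, toGal_apply, toGal_apply, RingEquiv.apply_symm_apply]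
    rfl

theorem toGalHom_apply (σ : galSub F (kumW p F W)) (x : ↥(kumM p F W)) :
    toGalHom p F W σ x = (eMF p F W).symm (σ.1 (eMF p F W x)) := rfl

theorem toGalHom_injective : Function.Injective (toGalHom p F W) := by
  intro σ τ h
  apply Subtype.ext
  ext y
  have h1 := congrArg (fun f : ↥(kumM p F W) ≃ₐ[↥F] ↥(kumM p F W) =>
    eMF p F W (f ((eMF p F W).symm y))) h
  simp only [toGalHom_apply, RingEquiv.apply_symm_apply] at h1
  rw [h1]

theorem toGalHom_surjective : Function.Surjective (toGalHom p F W) := by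
  intro τ
  have hmem : ∀ y : ↥(kumW p F W), ((y : ↥(kumW p F W)) : Qb) ∈ F →
      eMF p F W (τ ((eMF p F W).symm y)) = y := by
    intro y hy
    have h1 : (eMF p F W).symm y = algebraMap ↥F ↥(kumM p F W) ⟨(y : Qb), hy⟩ := by
      apply Subtype.ext
      rw [eMF_symm_coe, coe_algebraMap_kumM]
    rw [h1, τ.commutes, ← h1, RingEquiv.apply_symm_apply]
  let σ : ↥(kumW p F W) ≃ₐ[ℚ] ↥(kumW p F W) :=
    (((eMF p F W).symm.trans τ.toRingEquiv).trans (eMF p F W)).toRatAlgEquiv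
  have hσ : ∀ y, σ y = eMF p F W (τ ((eMF p F W).symm y)) := fun y => rfl
  refine ⟨⟨σ, fun y hy => by rw [hσ, hmem y hy]⟩, ?_⟩
  refine AlgEquiv.ext fun x => ?_
  rw [toGalHom_apply]
  show (eMF p F W).symm (σ (eMF p F W x)) = τ x
  rw [hσ, RingEquiv.symm_apply_apply, RingEquiv.symm_apply_apply]

theorem card_galSub :
    Nat.card (galSub F (kumW p F W)) = Nat.card (↥(kumM p F W) ≃ₐ[↥F] ↥(kumM p F W)) :=
  Nat.card_congr (Equiv.ofBijective _ ⟨toGalHom_injective p F W, toGalHom_surjective p F W⟩)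

end

/-! ### the statement -/

/-- **Kummer theory** in `Qb`, with equality of orders. -/
theorem h10xk_kummer_card (p : ℕ) (hp : p.Prime) (F : IntermediateField ℚ Qb)
    [FiniteDimensional ℚ F] (W : AddSubgroup (Additive (↥F)ˣ))
    (hζ : ∃ ζ : F, IsPrimitiveRoot ζ p) (hfin : FiniteDimensional ℚ (kumW p F W)) :
    (∀ σ ∈ galSub F (kumW p F W), σ ^ p = 1) ∧
    (∀ σ ∈ galSub F (kumW p F W), ∀ τ ∈ galSub F (kumW p F W), σ * τ = τ * σ) ∧
    Nat.card (galSub F (kumW p F W)) = (pMul p (Additive (↥F)ˣ)).relIndex W := by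
  obtain ⟨ζ, hζ⟩ := hζ
  haveI := kumM_finite p F W hfin
  haveI := kumM_isGalois p F W
  obtain ⟨hcard, hcomm, hpow⟩ := kummer_card_V (E := ↥(kumM p F W)) hp.pos hζ (mulW F W)
    (kumM_hroots p F W hp.pos) (kumM_hgen p F W)
  refine ⟨?_, ?_, ?_⟩
  · intro σ hσ
    have h1 : (⟨σ, hσ⟩ : galSub F (kumW p F W)) ^ p = 1 := by
      apply toGalHom_injective p F W
      rw [map_pow, map_one]
      exact hpow _
    exact congrArg Subtype.val h1
  · intro σ hσ τ hτ
    have h1 : (⟨σ, hσ⟩ : galSub F (kumW p F W)) * ⟨τ, hτ⟩ = ⟨τ, hτ⟩ * ⟨σ, hσ⟩ := by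
      apply toGalHom_injective p F W
      rw [map_mul, map_mul]
      exact hcomm _ _
    exact congrArg Subtype.val h1
  · rw [card_galSub, hcard, relIndex_mulW]

/-- **(EX-KUM)** -/
theorem h10xk_kummer : H17X.KummerStatement := by
  intro p hp F _ W hζ hfin
  obtain ⟨h1, h2, h3⟩ := h10xk_kummer_card p hp F W hζ hfin
  exact ⟨h1, h2, h3.ge⟩

end H10XK

end
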