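/-
W2-C (S55) block C3B (existence theorem mod p), sub-slice EX-SPLIT (helper20), part 1: SPLIT-ABS.
A commutative ring `R` with endomorphisms `act h` (`h ∈ H`, a finite index set) and an element `e`
whose translates `act h e` are orthogonal idempotents with sum `1`: every `act`-invariant `u` is the
norm `∏_h act h (1 + e (u - 1))`; and `1 + e (u - 1)` is a unit if `u` is.
-/
import Mathlib

set_option autoImplicit false
set_option linter.unusedSectionVars false

namespace H20XS

variable {R : Type*} [CommRing R] {H : Type*} [Fintype H] [DecidableEq H]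

/-- a product of `1 + x_h` with pairwise orthogonal `x_h` -/
theorem h20xs_prod_one_add (s : Finset H) (x : H → R)
    (hx : ∀ h h' : H, h ≠ h' → x h * x h' = 0) :
    ∏ h ∈ s, (1 + x h) = 1 + ∑ h ∈ s, x h := by
  induction s using Finset.induction_on with
  | empty => simp
  | insert a s ha ih =>
    rw [Finset.prod_insert ha, Finset.sum_insert ha, ih]
    have h0 : x a * ∑ h ∈ s, x h = 0 := by
      rw [Finset.mul_sum]
      apply Finset.sum_eq_zero
      intro h hh
      exact hx a h (fun h' => ha (h' ▸ hh))
    linear_combination h0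

/-- `e` is idempotent -/
theorem h20xs_idem (act : H → R →+* R) (one : H) (hone : ∀ r, act one r = r) (e : R)
    (horth : ∀ h h' : H, h ≠ h' → act h e * act h' e = 0) (hsum : ∑ h : H, act h e = 1) :
    e * e = e := by
  have h1 : e * ∑ h : H, act h e = e := by rw [hsum, mul_one]
  rw [Finset.mul_sum, Finset.sum_eq_single one] at h1
  · rwa [hone] at h1
  · intro h _ hh
    have := horth one h (Ne.symm hh)
    rwa [hone] at this
  · intro hn
    exact absurd (Finset.mem_univ _) hn

/-- **SPLIT-ABS**: the norm of `1 + e (u - 1)` is `u` -/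
theorem h20xs_norm (act : H → R →+* R) (e : R)
    (horth : ∀ h h' : H, h ≠ h' → act h e * act h' e = 0) (hsum : ∑ h : H, act h e = 1)
    (u : R) (hu : ∀ h : H, act h u = u) :
    ∏ h : H, act h (1 + e * (u - 1)) = u := by
  have h1 : ∀ h : H, act h (1 + e * (u - 1)) = 1 + act h e * (u - 1) := by
    intro h
    rw [map_add, map_one, map_mul, map_sub, map_one, hu]
  simp only [h1]
  rw [h20xs_prod_one_add Finset.univ (fun h => act h e * (u - 1))
    (fun h h' hh => by
      have := horth h h' hh
      calc act h e * (u - 1) * (act h' e * (u - 1))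
          = (act h e * act h' e) * ((u - 1) * (u - 1)) := by ring
        _ = 0 := by rw [this, zero_mul])]
  rw [← Finset.sum_mul, hsum]
  ring

/-- `1 + e (u - 1)` is a unit with inverse `1 + e (v - 1)` if `u v = 1` -/
theorem h20xs_unit (e : R) (he : e * e = e) (u v : R) (huv : u * v = 1) :
    (1 + e * (u - 1)) * (1 + e * (v - 1)) = 1 := by
  linear_combination (u - 1) * (v - 1) * he + e * huv

end H20XS
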