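/-
W2-C (S55) block C3B (existence theorem mod p), sub-slice EX-SPLIT (helper20), part 2: SPLIT-IDEM.
The Kummer idempotents.  `R` a commutative ring, `p` invertible in `R`, `ζ ∈ R` a "primitive" `p`-th
root of unity (`∑_{k<p} ζ^{jk} = 0` for `p ∤ j`), `t_1, …, t_n ∈ R` with `t_i^p = 1`:
`E_c = ∏_i (1/p) ∑_j (ζ^{c_i} t_i)^j`  (`c ∈ (ℤ/p)^n`) are orthogonal idempotents with sum `1`.
If the endomorphisms `act h` (`h ∈ H`) satisfy `act h t_i = ζ^{c(h)_i} t_i` with `c : H → (ℤ/p)^n`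
bijective, then `e = E_0` has orthogonal translates `act h e` with sum `1`.
-/
import Fermat.Agent.CFT2.C3.ExSplitAbs_helper20

set_option autoImplicit false
set_option linter.unusedSectionVars false
set_option linter.unusedVariables false

namespace H20XS

variable {R : Type*} [CommRing R] (p : ℕ) [hp : Fact p.Prime] (pinv : R)

/-- `π(s) = (1/p) ∑_{j<p} s^j` -/
def idemOf (s : R) : R := pinv * ∑ j ∈ Finset.range p, s ^ j

theorem h20xs_pow_mod (ζ : R) (hζ1 : ζ ^ p = 1) (a : ℕ) : ζ ^ a = ζ ^ (a % p) := by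
  conv_lhs => rw [← Nat.div_add_mod a p]
  rw [pow_add, pow_mul, hζ1, one_pow, one_mul]

theorem h20xs_pow_congr (ζ : R) (hζ1 : ζ ^ p = 1) {a b : ℕ} (h : a ≡ b [MOD p]) :
    ζ ^ a = ζ ^ b := by
  rw [h20xs_pow_mod p ζ hζ1 a, h20xs_pow_mod p ζ hζ1 b, h]

/-- `s · ∑_{j<p} s^j = ∑_{j<p} s^j` if `s^p = 1` -/
theorem h20xs_mul_sum (s : R) (hs : s ^ p = 1) :
    s * ∑ j ∈ Finset.range p, s ^ j = ∑ j ∈ Finset.range p, s ^ j := by
  have h1 : (∑ j ∈ Finset.range p, s ^ j) * (s - 1) = s ^ p - 1 := geom_sum_mul s p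
  rw [hs, sub_self] at h1
  linear_combination h1

theorem h20xs_mul_idemOf (s : R) (hs : s ^ p = 1) : s * idemOf p pinv s = idemOf p pinv s := by
  unfold idemOf
  rw [mul_left_comm, h20xs_mul_sum p s hs]

theorem h20xs_pow_mul_idemOf (s : R) (hs : s ^ p = 1) (l : ℕ) :
    s ^ l * idemOf p pinv s = idemOf p pinv s := by
  induction l with
  | zero => rw [pow_zero, one_mul]
  | succ l ih => rw [pow_succ, mul_assoc, h20xs_mul_idemOf p pinv s hs, ih]

/-- orthogonality: `π(s) π(z s) = 0` if `∑_l z^l = 0` -/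
theorem h20xs_idemOf_orth (s z : R) (hs : s ^ p = 1)
    (hz : ∑ l ∈ Finset.range p, z ^ l = 0) :
    idemOf p pinv s * idemOf p pinv (z * s) = 0 := by
  have h1 : idemOf p pinv s * idemOf p pinv (z * s) =
      pinv * ∑ l ∈ Finset.range p, z ^ l * (s ^ l * idemOf p pinv s) := by
    conv_lhs => rw [idemOf.eq_1 p pinv (z * s)]
    rw [mul_left_comm, Finset.mul_sum]
    congr 1
    apply Finset.sum_congr rfl
    intro l _
    rw [mul_pow]
    ring
  rw [h1]
  simp only [h20xs_pow_mul_idemOf p pinv s hs]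
  rw [← Finset.sum_mul, hz, zero_mul, mul_zero]

/-- the sum over the twists is `1` -/
theorem h20xs_idemOf_sum (hpinv : (p : R) * pinv = 1) (ζ s : R)
    (hζ : ∀ j : ℕ, 0 < j → j < p → ∑ k ∈ Finset.range p, (ζ ^ k) ^ j = 0) :
    ∑ k ∈ Finset.range p, idemOf p pinv (ζ ^ k * s) = 1 := by
  unfold idemOf
  rw [← Finset.mul_sum, Finset.sum_comm]
  have h1 : ∀ j ∈ Finset.range p, ∑ k ∈ Finset.range p, (ζ ^ k * s) ^ j =
      if j = 0 then (p : R) else 0 := by
    intro j hj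
    rw [Finset.mem_range] at hj
    simp only [mul_pow]
    rw [← Finset.sum_mul]
    by_cases h0 : j = 0
    · subst h0
      simp
    · rw [if_neg h0, hζ j (Nat.pos_of_ne_zero h0) hj, zero_mul]
  rw [Finset.sum_congr rfl h1, Finset.sum_ite_eq' (Finset.range p) 0 (fun _ => (p : R)),
    if_pos (Finset.mem_range.2 hp.out.pos), mul_comm, hpinv]

section multi

variable {ι : Type*} [Fintype ι] [DecidableEq ι] (ζ : R) (t : ι → R)

/-- `E_c = ∏_i π(ζ^{c_i} t_i)` -/
def idemAt (c : ι → Fin p) : R := ∏ i, idemOf p pinv (ζ ^ (c i : ℕ) * t i)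

/-- the `E_c` sum to `1` -/
theorem h20xs_idemAt_sum (hpinv : (p : R) * pinv = 1)
    (hζ : ∀ j : ℕ, 0 < j → j < p → ∑ k ∈ Finset.range p, (ζ ^ k) ^ j = 0) :
    ∑ c : ι → Fin p, idemAt p pinv ζ t c = 1 := by
  unfold idemAt
  have h1 := Finset.prod_univ_sum (fun _ : ι => (Finset.univ : Finset (Fin p)))
    (fun i k => idemOf p pinv (ζ ^ (k : ℕ) * t i))
  rw [Fintype.piFinset_univ] at h1
  rw [← h1]
  apply Finset.prod_eq_one
  intro i _
  rw [Fin.sum_univ_eq_sum_range (fun k => idemOf p pinv (ζ ^ k * t i)) p]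
  exact h20xs_idemOf_sum p pinv hpinv ζ (t i) hζ

/-- the `E_c` are orthogonal -/
theorem h20xs_idemAt_orth (hζ1 : ζ ^ p = 1) (ht : ∀ i, t i ^ p = 1)
    (hζ : ∀ j : ℕ, 0 < j → j < p → ∑ k ∈ Finset.range p, (ζ ^ k) ^ j = 0)
    (c c' : ι → Fin p) (hc : c ≠ c') :
    idemAt p pinv ζ t c * idemAt p pinv ζ t c' = 0 := by
  obtain ⟨i, hi⟩ := Function.ne_iff.1 hc
  unfold idemAt
  rw [← Finset.prod_mul_distrib]
  apply Finset.prod_eq_zero (Finset.mem_univ i)
  -- the factor at `i`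
  set m : ℕ := ((c' i : ℕ) + (p - (c i : ℕ))) % p with hm
  have hci : (c i : ℕ) < p := (c i).2
  have hci' : (c' i : ℕ) < p := (c' i).2
  have hmp : m < p := Nat.mod_lt _ hp.out.pos
  have hm0 : 0 < m := by
    rw [Nat.pos_iff_ne_zero]
    intro h0
    have h1 : p ∣ (c' i : ℕ) + (p - (c i : ℕ)) := Nat.dvd_of_mod_eq_zero (hm ▸ h0)
    apply hi
    apply Fin.ext
    obtain ⟨k, hk⟩ := h1
    have hk1 : k = 1 := by
      have h2 : 0 < (c' i : ℕ) + (p - (c i : ℕ)) := by omega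
      have h3 : (c' i : ℕ) + (p - (c i : ℕ)) < 2 * p := by omega
      rw [hk] at h2 h3
      have h4 : 0 < k := by
        rcases Nat.eq_zero_or_pos k with h | h
        · rw [h, mul_zero] at h2
          exact absurd h2 (lt_irrefl 0)
        · exact h
      have h5 : k < 2 := by
        by_contra h
        have : 2 ≤ k := by omega
        have : p * 2 ≤ p * k := Nat.mul_le_mul_left p this
        omega
      omega
    rw [hk1, mul_one] at hk
    omega
  have hz : ∑ l ∈ Finset.range p, (ζ ^ m) ^ l = 0 := by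
    have := hζ m hm0 hmp
    rw [← this]
    apply Finset.sum_congr rfl
    intro l _
    rw [← pow_mul, ← pow_mul, mul_comm]
  have hs : (ζ ^ (c i : ℕ) * t i) ^ p = 1 := by
    rw [mul_pow, ← pow_mul, mul_comm (c i : ℕ) p, pow_mul, hζ1, one_pow, ht i, one_mul]
  have hzs : ζ ^ (c' i : ℕ) * t i = ζ ^ m * (ζ ^ (c i : ℕ) * t i) := by
    rw [← mul_assoc, ← pow_add]
    congr 1
    apply h20xs_pow_congr p ζ hζ1
    rw [hm]
    have h1 : (c' i : ℕ) + (p - (c i : ℕ)) + (c i : ℕ) = (c' i : ℕ) + p := by omega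
    calc (c' i : ℕ) ≡ (c' i : ℕ) + p [MOD p] := by
          simp [Nat.ModEq]
      _ = (c' i : ℕ) + (p - (c i : ℕ)) + (c i : ℕ) := h1.symm
      _ ≡ ((c' i : ℕ) + (p - (c i : ℕ))) % p + (c i : ℕ) [MOD p] :=
          Nat.ModEq.add_right _ (Nat.mod_modEq _ _).symm
  rw [hzs]
  exact h20xs_idemOf_orth p pinv _ _ hs hz

variable {H : Type*} [Fintype H] [DecidableEq H]

/-- **SPLIT-IDEM**: the translates of `e = E_0` are orthogonal with sum `1` -/
theorem h20xs_idem_translates (hpinv : (p : R) * pinv = 1) (hζ1 : ζ ^ p = 1)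
    (ht : ∀ i, t i ^ p = 1)
    (hζ : ∀ j : ℕ, 0 < j → j < p → ∑ k ∈ Finset.range p, (ζ ^ k) ^ j = 0)
    (act : H → R →+* R) (c : H → ι → Fin p) (hc : Function.Bijective c)
    (hact : ∀ h i, act h (t i) = ζ ^ (c h i : ℕ) * t i) :
    (∀ h h' : H, h ≠ h' →
      act h (idemAt p pinv ζ t (fun _ => ⟨0, hp.out.pos⟩)) *
        act h' (idemAt p pinv ζ t (fun _ => ⟨0, hp.out.pos⟩)) = 0) ∧
    ∑ h : H, act h (idemAt p pinv ζ t (fun _ => ⟨0, hp.out.pos⟩)) = 1 := by
  have hpi : ∀ h, act h pinv = pinv := by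
    intro h
    have h1 : (p : R) * act h pinv = 1 := by
      have := congrArg (act h) hpinv
      rwa [map_mul, map_natCast, map_one] at this
    calc act h pinv = act h pinv * ((p : R) * pinv) := by rw [hpinv, mul_one]
      _ = ((p : R) * act h pinv) * pinv := by ring
      _ = pinv := by rw [h1, one_mul]
  have hE : ∀ h, act h (idemAt p pinv ζ t (fun _ => ⟨0, hp.out.pos⟩)) =
      idemAt p pinv ζ t (c h) := by
    intro h
    unfold idemAt idemOf
    rw [map_prod]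
    apply Finset.prod_congr rfl
    intro i _
    rw [map_mul, hpi, map_sum]
    congr 1
    apply Finset.sum_congr rfl
    intro j _
    rw [map_pow, map_mul, map_pow, hact]
    simp
  constructor
  · intro h h' hh
    rw [hE, hE]
    exact h20xs_idemAt_orth p pinv ζ t hζ1 ht hζ _ _ (fun h0 => hh (hc.1 h0))
  · simp only [hE]
    rw [← h20xs_idemAt_sum p pinv ζ t hpinv hζ]
    exact Fintype.sum_bijective c hc _ _ (fun _ => rfl)

end multi

end H20XS
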