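/-
W2-C (S55) block C3B (existence theorem mod p), sub-slice EX-SPLIT (helper20), part 3: SPLIT-IND.
A finite group `G` acting on a commutative ring `R` (`p` invertible, `ζ ∈ R^G` a "primitive" `p`-th
root of unity) such that every `g ≠ 1` moves some Kummer element `ε` (`ε^p = 1`,
`h ε = ζ^{k(h)} ε` with `k` additive mod `p`): then EVERY `G`-invariant unit of `R` is a norm.
(Induction on `|G|`: `N = ker k` has index `p`, `e = (1/p) ∑_j ε^j` is `N`-invariant with orthogonal
`G/N`-translates of sum `1`; `y₁ = 1 + e (u - 1)` is an `N`-invariant unit with `N_{G/N} y₁ = u`.)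
-/
import Fermat.Agent.CFT2.C3.ExSplitIdem_helper20
import Fermat.Agent.CFT2.C.NLAbs_helper20

set_option autoImplicit false
set_option linter.unusedSectionVars false
set_option linter.unusedVariables false
set_option linter.style.haveILetI false

namespace H20XS

variable {R : Type} [CommRing R] (p : ℕ) [hp : Fact p.Prime] (pinv ζ : R)

/-- the Kummer hypothesis for a group `G` acting on `R` -/
def KummerHyp (G : Type) [Group G] (act : G →* (R →+* R)) : Prop :=
  ∀ g : G, g ≠ 1 → ∃ (ε : R) (k : G → ℕ), ε ^ p = 1 ∧ (∀ h, act h ε = ζ ^ (k h) * ε) ∧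
    (∀ h h', k (h * h') ≡ k h + k h' [MOD p]) ∧ ¬ p ∣ k g

/-- the kernel of `k` -/
def kerOf {G : Type} [Group G] (k : G → ℕ)
    (hk : ∀ h h', k (h * h') ≡ k h + k h' [MOD p]) : Subgroup G where
  carrier := {h | p ∣ k h}
  one_mem' := by
    have h1 := hk 1 1
    rw [mul_one] at h1
    have h2 : k 1 + 0 ≡ k 1 + k 1 [MOD p] := by simpa using h1
    have h3 := (Nat.ModEq.add_left_cancel' (k 1) h2).symm
    exact (Nat.modEq_zero_iff_dvd).1 h3
  mul_mem' := by
    intro a b ha hb
    have h1 := hk a b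
    have h2 : k a + k b ≡ 0 [MOD p] :=
      (Nat.modEq_zero_iff_dvd).2 (Nat.dvd_add ha hb)
    exact (Nat.modEq_zero_iff_dvd).1 (h1.trans h2)
  inv_mem' := by
    intro a ha
    have h0 : p ∣ k (1 : G) := by
      have h1 := hk 1 1
      rw [mul_one] at h1
      have h2 : k 1 + 0 ≡ k 1 + k 1 [MOD p] := by simpa using h1
      exact (Nat.modEq_zero_iff_dvd).1 (Nat.ModEq.add_left_cancel' (k 1) h2).symm
    have h1 := hk a⁻¹ a
    rw [inv_mul_cancel] at h1
    have h2 : k a⁻¹ + k a ≡ 0 [MOD p] := h1.symm.trans ((Nat.modEq_zero_iff_dvd).2 h0)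
    have h3 : p ∣ k a⁻¹ + k a := (Nat.modEq_zero_iff_dvd).1 h2
    exact (Nat.dvd_add_left ha).1 h3

theorem mem_kerOf {G : Type} [Group G] (k : G → ℕ)
    (hk : ∀ h h', k (h * h') ≡ k h + k h' [MOD p]) (h : G) :
    h ∈ kerOf p k hk ↔ p ∣ k h := Iff.rfl

theorem h20xs_idemOf_idem (hpinv : (p : R) * pinv = 1) (ε : R) (hε : ε ^ p = 1) :
    idemOf p pinv ε * idemOf p pinv ε = idemOf p pinv ε := by
  calc idemOf p pinv ε * idemOf p pinv ε
      = (pinv * ∑ j ∈ Finset.range p, ε ^ j) * idemOf p pinv ε := rfl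
    _ = pinv * ∑ j ∈ Finset.range p, ε ^ j * idemOf p pinv ε := by
        rw [mul_assoc, Finset.sum_mul]
    _ = pinv * ∑ j ∈ Finset.range p, idemOf p pinv ε := by
        simp only [h20xs_pow_mul_idemOf p pinv ε hε]
    _ = idemOf p pinv ε := by
        rw [Finset.sum_const, Finset.card_range, nsmul_eq_mul, ← mul_assoc, mul_comm pinv, hpinv,
          one_mul]

theorem h20xs_act_pinv (hpinv : (p : R) * pinv = 1) (a : R →+* R) : a pinv = pinv := by
  have h1 : (p : R) * a pinv = 1 := by
    have := congrArg a hpinv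
    rwa [map_mul, map_natCast, map_one] at this
  calc a pinv = a pinv * ((p : R) * pinv) := by rw [hpinv, mul_one]
    _ = ((p : R) * a pinv) * pinv := by ring
    _ = pinv := by rw [h1, one_mul]

theorem h20xs_act_idemOf (hpinv : (p : R) * pinv = 1) (a : R →+* R) (ε : R) :
    a (idemOf p pinv ε) = idemOf p pinv (a ε) := by
  unfold idemOf
  rw [map_mul, h20xs_act_pinv p pinv hpinv a, map_sum]
  simp only [map_pow]

/-- solving `j a ≡ m mod p` -/
theorem h20xs_exists_mul (a m : ℕ) (ha : ¬ p ∣ a) : ∃ j : ℕ, j * a ≡ m [MOD p] := by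
  have ha' : (a : ZMod p) ≠ 0 := by
    rwa [Ne, ZMod.natCast_eq_zero_iff]
  refine ⟨((m : ZMod p) * (a : ZMod p)⁻¹).val, ?_⟩
  rw [← ZMod.natCast_eq_natCast_iff, Nat.cast_mul, ZMod.natCast_val, ZMod.cast_id', id,
    mul_assoc, inv_mul_cancel₀ ha', mul_one]

theorem h20xs_k_pow {G : Type} [Group G] (k : G → ℕ)
    (hk : ∀ h h', k (h * h') ≡ k h + k h' [MOD p]) (g : G) (j : ℕ) :
    k (g ^ j) ≡ j * k g [MOD p] := by
  induction j with
  | zero =>
    rw [pow_zero, zero_mul]
    exact (Nat.modEq_zero_iff_dvd).2 ((kerOf p k hk).one_mem)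
  | succ j ih =>
    rw [pow_succ]
    refine (hk _ _).trans ?_
    have : (j + 1) * k g = j * k g + k g := by ring
    rw [this]
    exact Nat.ModEq.add_right _ ih

theorem h20xs_k_congr {G : Type} [Group G] (k : G → ℕ)
    (hk : ∀ h h', k (h * h') ≡ k h + k h' [MOD p]) (a b : G)
    (hab : a⁻¹ * b ∈ kerOf p k hk) : k a ≡ k b [MOD p] := by
  have h1 := hk a (a⁻¹ * b)
  rw [mul_inv_cancel_left] at h1
  have h2 : k a + k (a⁻¹ * b) ≡ k a + 0 [MOD p] :=
    Nat.ModEq.add_left _ ((Nat.modEq_zero_iff_dvd).2 hab)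
  exact (h1.trans h2).symm

theorem h20xs_mem_ker_of_congr {G : Type} [Group G] (k : G → ℕ)
    (hk : ∀ h h', k (h * h') ≡ k h + k h' [MOD p]) (a b : G)
    (hab : k a ≡ k b [MOD p]) : a⁻¹ * b ∈ kerOf p k hk := by
  rw [mem_kerOf]
  have h1 := hk a (a⁻¹ * b)
  rw [mul_inv_cancel_left] at h1
  -- k b ≡ k a + k (a⁻¹ b), k a ≡ k b
  have h2 : k a + 0 ≡ k a + k (a⁻¹ * b) [MOD p] := by
    rw [add_zero]
    exact hab.trans h1
  exact (Nat.modEq_zero_iff_dvd).1 (Nat.ModEq.add_left_cancel' (k a) h2).symm

/-- **SPLIT-IND** -/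
theorem h20xs_split_ind (hpinv : (p : R) * pinv = 1) (hζ1 : ζ ^ p = 1)
    (hζ : ∀ j : ℕ, 0 < j → j < p → ∑ k ∈ Finset.range p, (ζ ^ k) ^ j = 0) :
    ∀ (n : ℕ) (G : Type) [Group G] [Finite G], Nat.card G ≤ n →
    ∀ (act : G →* (R →+* R)), KummerHyp p ζ G act →
    ∀ u v : R, u * v = 1 → (∀ h : G, act h u = u) →
      ∃ y y' : R, y * y' = 1 ∧ ∏ᶠ h : G, act h y = u := by
  classical
  intro n
  induction n with
  | zero =>
    intro G _ _ hcard
    exact absurd hcard (by have := Nat.card_pos (α := G); omega)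
  | succ n ih =>
    intro G _ _ hcard act hK u v huv hu
    letI : Fintype G := Fintype.ofFinite G
    by_cases hG : ∀ g : G, g = 1
    · -- the trivial group
      refine ⟨u, v, huv, ?_⟩
      rw [finprod_eq_prod_of_fintype]
      rw [Finset.prod_eq_single (1 : G) (fun b _ hb => absurd (hG b) hb)
        (fun h => absurd (Finset.mem_univ _) h)]
      exact hu 1
    · push Not at hG
      obtain ⟨g, hg⟩ := hG
      obtain ⟨ε, k, hε, hact, hk, hkg⟩ := hK g hg
      set N : Subgroup G := kerOf p k hk with hN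
      have hgN : g ∉ N := hkg
      -- the idempotent
      set e : R := idemOf p pinv ε with he
      have hee : e * e = e := h20xs_idemOf_idem p pinv hpinv ε hε
      have hζk : ∀ h ∈ N, ζ ^ (k h) = 1 := by
        intro h hh
        obtain ⟨m, hm⟩ := (hh : p ∣ k h)
        rw [hm, pow_mul, hζ1, one_pow]
      have heN : ∀ h ∈ N, act h e = e := by
        intro h hh
        rw [he, h20xs_act_idemOf p pinv hpinv, hact, hζk h hh, one_mul]
      -- the quotient
      letI : Fintype (G ⧸ N) := Fintype.ofFinite _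
      letI : Fintype N := Fintype.ofFinite _
      set actQ : G ⧸ N → R →+* R := fun q => act (Quotient.out q) with hactQ
      set c : G ⧸ N → Unit → Fin p := fun q _ => ⟨k (Quotient.out q) % p,
        Nat.mod_lt _ hp.out.pos⟩ with hc
      have hcbij : Function.Bijective c := by
        constructor
        · intro q q' hqq'
          have h1 : k (Quotient.out q) % p = k (Quotient.out q') % p := by
            have := congrFun hqq' ()
            exact congrArg Fin.val this
          have h2 := h20xs_mem_ker_of_congr p k hk _ _ h1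
          rw [← QuotientGroup.out_eq' q, ← QuotientGroup.out_eq' q']
          exact QuotientGroup.eq.2 h2
        · intro f
          obtain ⟨j, hj⟩ := h20xs_exists_mul p (k g) (f () : ℕ) hkg
          refine ⟨QuotientGroup.mk (g ^ j), ?_⟩
          funext x
          apply Fin.ext
          change k (Quotient.out (QuotientGroup.mk (g ^ j) : G ⧸ N)) % p = (f x : ℕ)
          have h1 : (Quotient.out (QuotientGroup.mk (g ^ j) : G ⧸ N))⁻¹ * g ^ j ∈ N :=
            QuotientGroup.eq.1 (QuotientGroup.out_eq' _)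
          have h2 := h20xs_k_congr p k hk _ _ h1
          have h3 := (h2.trans (h20xs_k_pow p k hk g j)).trans hj
          rw [h3]
          exact Nat.mod_eq_of_lt (f ()).2
      have hactQ' : ∀ (q : G ⧸ N) (i : Unit),
          actQ q ((fun _ : Unit => ε) i) = ζ ^ (c q i : ℕ) * (fun _ : Unit => ε) i := by
        intro q i
        change act (Quotient.out q) ε = ζ ^ (k (Quotient.out q) % p) * ε
        rw [hact, h20xs_pow_mod p ζ hζ1]
      obtain ⟨horth, hsum⟩ := h20xs_idem_translates p pinv ζ (fun _ : Unit => ε) hpinv hζ1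
        (fun _ => hε) hζ actQ c hcbij hactQ'
      have he' : idemAt p pinv ζ (fun _ : Unit => ε) (fun _ => ⟨0, hp.out.pos⟩) = e := by
        unfold idemAt
        simp [he]
      rw [he'] at horth hsum
      -- the `N`-invariant unit `y₁`
      set y₁ : R := 1 + e * (u - 1) with hy₁
      set y₁' : R := 1 + e * (v - 1) with hy₁'
      have hy11 : y₁ * y₁' = 1 := h20xs_unit e hee u v huv
      have hy1N : ∀ h : N, (act.comp N.subtype) h y₁ = y₁ := by
        intro h
        change act (h : G) y₁ = y₁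
        rw [hy₁, map_add, map_one, map_mul, map_sub, map_one, hu, heN _ h.2]
      have hnorm1 : ∏ q : G ⧸ N, actQ q y₁ = u := h20xs_norm actQ e horth hsum u (fun q => hu _)
      -- induction hypothesis for `N`
      have hcardN : Nat.card N ≤ n := by
        have h1 : Nat.card N < Nat.card G := by
          have hne : N ≠ ⊤ := fun h => hgN (h ▸ Subgroup.mem_top g)
          have hle : Nat.card N ≤ Nat.card G := Subgroup.card_le_card_group N
          rcases Nat.lt_or_ge (Nat.card N) (Nat.card G) with h | h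
          · exact h
          · exact absurd (Subgroup.eq_top_of_card_eq N (le_antisymm hle h)) hne
        omega
      have hKN : KummerHyp p ζ N (act.comp N.subtype) := by
        intro g' hg'
        have hg'' : (g' : G) ≠ 1 := fun h => hg' (Subtype.ext h)
        obtain ⟨ε', k', hε', hact', hk', hkg'⟩ := hK (g' : G) hg''
        exact ⟨ε', fun h => k' (h : G), hε', fun h => hact' _, fun h h' => hk' _ _, hkg'⟩
      obtain ⟨y, y', hyy', hy⟩ := ih N hcardN (act.comp N.subtype) hKN y₁ y₁' hy11 hy1N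
      refine ⟨y, y', hyy', ?_⟩
      rw [finprod_eq_prod_of_fintype] at hy ⊢
      rw [← hnorm1, ← hy]
      simp only [map_prod]
      rw [← Finset.prod_product', Finset.univ_product_univ]
      refine (Fintype.prod_equiv (H20NL.outMulEquiv N) _ _ fun qn => ?_).symm
      change act (Quotient.out qn.1) (act (qn.2 : G) y) = act (Quotient.out qn.1 * (qn.2 : G)) y
      rw [map_mul]
      rfl

end H20XS
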