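/-
W2-C (S55) block C3B (existence theorem mod p), sub-slice **EX-SPLIT** (helper20):
`H20XS.h20xs_split : H17X.SplitStatement`.
If `L` is generated over `K ∋ ζ_p` by `p`-th roots of elements of `V₀` (`p`-th powers in `K_S`), then
every idele of `K` is a norm from `L`.  (Kummer idempotents + induction on `|Gal(L/K)|`:
`ExSplitAbs/Idem/Ind_helper20.lean`.)
-/
import Fermat.Agent.CFT2.C3.ExSplitInd_helper20
import Fermat.Agent.CFT2.C3.Defs_helper17

set_option autoImplicit false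
set_option linter.unusedSectionVars false
set_option linter.unusedVariables false
set_option linter.style.haveILetI false

noncomputable section

namespace H20XS

open NumberField H17C H17X

variable (S : Finset Nat.Primes) (p : ℕ)
  (K L : Type) [Field K] [NumberField K] [Field L] [NumberField L] [Algebra K L]

/-- the image of `K_S` in `L_S` is fixed by `Gal(L/K)` -/
theorem h20xs_ksAut_ksBase (h : AutQ L) (hh : h ∈ fixSub K L) (w : KS S K) :
    ksAut S ℚ L h (ksBase S K L w) = ksBase S K L w := by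
  induction w using ks_induction with
  | zero => simp only [map_zero]
  | tmul x y =>
    rw [ksBase_tmul, ksAut_tmul]
    congr 1
    exact hh x
  | add a b ha hb => simp only [map_add, ha, hb]

/-- the action of `Gal(L/K)` on `L_S` -/
def actS : ↥(fixSub K L) →* (KS S L →+* KS S L) where
  toFun h := ((ksAut S ℚ L (h : AutQ L) : KS S L →ₐ[ℚ] KS S L) : KS S L →+* KS S L)
  map_one' := by
    ext z
    exact ksAut_one S ℚ L z
  map_mul' := by
    intro a b
    ext z
    exact ksAut_mul S ℚ L (a : AutQ L) (b : AutQ L) z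

theorem h20xs_actS_apply (h : ↥(fixSub K L)) (z : KS S L) :
    actS S K L h z = ksAut S ℚ L (h : AutQ L) z := rfl

theorem h20xs_actS_diag (h : ↥(fixSub K L)) (x : L) :
    actS S K L h (diagRing S L x) = diagRing S L ((h : AutQ L) x) := rfl

/-- `1/p` in `L_S` -/
def pinvS : KS S L := algebraMap ℚ (KS S L) ((p : ℚ)⁻¹)

theorem h20xs_pinvS (hp : p.Prime) : (p : KS S L) * pinvS S p L = 1 := by
  unfold pinvS
  have h1 : (p : KS S L) = algebraMap ℚ (KS S L) (p : ℚ) := (map_natCast _ p).symm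
  rw [h1, ← map_mul, mul_inv_cancel₀ (Nat.cast_ne_zero.2 hp.ne_zero), map_one]

/-- `ζ ⊗ 1` -/
def zetaS (ζ : K) : KS S L := diagRing S L (algebraMap K L ζ)

theorem h20xs_zetaS_pow (ζ : K) (hζ : IsPrimitiveRoot ζ p) : zetaS S K L ζ ^ p = 1 := by
  unfold zetaS
  rw [← map_pow, ← map_pow, hζ.pow_eq_one, map_one, map_one]

theorem h20xs_zetaS_sum (hp : p.Prime) (ζ : K) (hζ : IsPrimitiveRoot ζ p) (j : ℕ) (hj0 : 0 < j)
    (hjp : j < p) : ∑ k ∈ Finset.range p, (zetaS S K L ζ ^ k) ^ j = 0 := by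
  have h1 : IsPrimitiveRoot (ζ ^ j) p :=
    hζ.pow_of_coprime j (((Nat.Prime.coprime_iff_not_dvd hp).2
      (fun h => absurd (Nat.le_of_dvd hj0 h) (not_le.2 hjp))).symm)
  have h2 : ∑ k ∈ Finset.range p, (ζ ^ j) ^ k = 0 := h1.geom_sum_eq_zero hp.one_lt
  have h3 : ∑ k ∈ Finset.range p, (zetaS S K L ζ ^ k) ^ j =
      diagRing S L (algebraMap K L (∑ k ∈ Finset.range p, (ζ ^ j) ^ k)) := by
    rw [map_sum, map_sum]
    apply Finset.sum_congr rfl
    intro k _
    unfold zetaS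
    rw [← map_pow, ← map_pow, ← map_pow, ← map_pow, ← pow_mul, ← pow_mul, mul_comm]
  rw [h3, h2, map_zero, map_zero]

section kummer

variable {S p K L}

/-- an element of `Gal(L/K)` which fixes the generators is trivial -/
theorem h20xs_exists_moved (s : Set L) (hgen : Algebra.adjoin K s = ⊤) (g : ↥(fixSub K L))
    (hg : g ≠ 1) : ∃ α ∈ s, (g : AutQ L) α ≠ α := by
  by_contra hcon
  push Not at hcon
  apply hg
  let φ₁ : L →ₐ[K] L :=
    { ((g : AutQ L) : L →+* L) with
      commutes' := fun x => g.2 x }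
  have h1 : φ₁ = AlgHom.id K L :=
    AlgHom.ext_of_adjoin_eq_top hgen (fun α hα => hcon α hα)
  apply Subtype.ext
  apply AlgEquiv.ext
  intro x
  exact congrArg (fun φ : L →ₐ[K] L => φ x) h1

/-- the root of unity `h α / α` -/
theorem h20xs_exists_exp [NeZero p] (ζ : K) (hζ : IsPrimitiveRoot ζ p) (a : Kˣ) (α : L)
    (hα : α ^ p = algebraMap K L (a : K)) (h : AutQ L) (hh : h ∈ fixSub K L) :
    ∃ i, i < p ∧ h α = (algebraMap K L ζ) ^ i * α := by
  have hα0 : α ≠ 0 := by
    intro h0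
    rw [h0, zero_pow (NeZero.ne p)] at hα
    exact a.ne_zero ((map_eq_zero (algebraMap K L)).1 hα.symm)
  have hζL : IsPrimitiveRoot (algebraMap K L ζ) p :=
    hζ.map_of_injective (algebraMap K L).injective
  have h1 : (h α / α) ^ p = 1 := by
    rw [div_pow, ← map_pow, hα, hh (a : K)]
    exact div_self (fun h0 => a.ne_zero ((map_eq_zero (algebraMap K L)).1 h0))
  obtain ⟨i, hi, hi'⟩ := hζL.eq_pow_of_pow_eq_one h1
  refine ⟨i, hi, ?_⟩
  rw [hi', div_mul_cancel₀ _ hα0]

end kummer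

section main

variable {S p K L}

theorem h20xs_ideleBase_diagS (a : Kˣ) :
    ((ideleBase S K L (diagS S K a) : (KS S L)ˣ) : KS S L) =
      diagRing S L (algebraMap K L (a : K)) := rfl

/-- the Kummer hypothesis for `Gal(L/K)` acting on `L_S` -/
theorem h20xs_kummerHyp (hp : p.Prime) (ζ : K) (hζ : IsPrimitiveRoot ζ p)
    (hgen : Algebra.adjoin K {α : L | ∃ a : Kˣ, Additive.ofMul a ∈ v0Add S p K ∧
      α ^ p = algebraMap K L (a : K)} = ⊤) :
    KummerHyp p (zetaS S K L ζ) (↥(fixSub K L)) (actS S K L) := by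
  haveI : Fact p.Prime := ⟨hp⟩
  haveI : NeZero p := ⟨hp.ne_zero⟩
  intro g hg
  obtain ⟨α, ⟨a, ha, hα⟩, hgα⟩ := h20xs_exists_moved _ hgen g hg
  obtain ⟨y, hy⟩ := ha.2
  set b : (KS S K)ˣ := Additive.toMul y with hbdef
  have hb : b ^ p = diagS S K a := by
    have := congrArg Additive.toMul hy
    simpa [diagAdd] using this
  set bL : (KS S L)ˣ := ideleBase S K L b with hbL
  have hbLp : ((bL ^ p : (KS S L)ˣ) : KS S L) = diagRing S L (algebraMap K L (a : K)) := by
    rw [hbL, ← map_pow, hb]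
    rfl
  have hbLfix : ∀ h : ↥(fixSub K L), actS S K L h ((bL⁻¹ : (KS S L)ˣ) : KS S L) =
      ((bL⁻¹ : (KS S L)ˣ) : KS S L) := by
    intro h
    have h1 : actS S K L h (bL : KS S L) = (bL : KS S L) :=
      h20xs_ksAut_ksBase S K L (h : AutQ L) h.2 (b : KS S K)
    have h2 : (bL : KS S L) * ((bL⁻¹ : (KS S L)ˣ) : KS S L) = 1 := by
      rw [← Units.val_mul, mul_inv_cancel, Units.val_one]
    have h3 : (bL : KS S L) * actS S K L h ((bL⁻¹ : (KS S L)ˣ) : KS S L) = 1 := by
      have := congrArg (actS S K L h) h2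
      rwa [map_mul, map_one, h1] at this
    calc actS S K L h ((bL⁻¹ : (KS S L)ˣ) : KS S L)
        = (((bL⁻¹ : (KS S L)ˣ) : KS S L) * (bL : KS S L)) *
            actS S K L h ((bL⁻¹ : (KS S L)ˣ) : KS S L) := by
          rw [← Units.val_mul, inv_mul_cancel, Units.val_one, one_mul]
      _ = ((bL⁻¹ : (KS S L)ˣ) : KS S L) *
            ((bL : KS S L) * actS S K L h ((bL⁻¹ : (KS S L)ˣ) : KS S L)) := by ring
      _ = ((bL⁻¹ : (KS S L)ˣ) : KS S L) := by rw [h3, mul_one]
  choose k hk1 hk2 using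
    (fun h : ↥(fixSub K L) => h20xs_exists_exp ζ hζ a α hα (h : AutQ L) h.2)
  have hα0 : α ≠ 0 := by
    intro h0
    rw [h0, zero_pow (NeZero.ne p)] at hα
    exact a.ne_zero ((map_eq_zero (algebraMap K L)).1 hα.symm)
  have hζL : IsPrimitiveRoot (algebraMap K L ζ) p :=
    hζ.map_of_injective (algebraMap K L).injective
  refine ⟨diagRing S L α * ((bL⁻¹ : (KS S L)ˣ) : KS S L), k, ?_, ?_, ?_, ?_⟩
  · -- `ε ^ p = 1`
    rw [mul_pow, ← map_pow, hα, ← Units.val_pow_eq_pow_val, inv_pow, ← hbLp, ← Units.val_mul,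
      mul_inv_cancel, Units.val_one]
  · -- the action
    intro h
    rw [map_mul, hbLfix h, h20xs_actS_diag, hk2 h, map_mul, map_pow, mul_assoc]
    rfl
  · -- additivity
    intro h h'
    have h1 : ((h * h' : ↥(fixSub K L)) : AutQ L) α =
        (algebraMap K L ζ) ^ (k h + k h') * α := by
      change (h : AutQ L) ((h' : AutQ L) α) = _
      rw [hk2 h', map_mul, map_pow, h.2 ζ, hk2 h, pow_add]
      ring
    have h2 := hk2 (h * h')
    rw [h1] at h2
    have h3 : (algebraMap K L ζ) ^ (k h + k h') = (algebraMap K L ζ) ^ (k (h * h')) :=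
      mul_right_cancel₀ hα0 h2
    have h4 : (algebraMap K L ζ) ^ ((k h + k h') % p) = (algebraMap K L ζ) ^ (k (h * h') % p) := by
      rw [← h20xs_pow_mod p _ hζL.pow_eq_one, ← h20xs_pow_mod p _ hζL.pow_eq_one, h3]
    exact (hζL.pow_inj (Nat.mod_lt _ hp.pos) (Nat.mod_lt _ hp.pos) h4).symm
  · -- nontriviality
    intro hdvd
    apply hgα
    obtain ⟨m, hm⟩ := hdvd
    rw [hk2 g, hm, pow_mul, hζL.pow_eq_one, one_pow, one_mul]

/-- **(EX-SPLIT)** -/
theorem h20xs_split : SplitStatement := by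
  intro S p K L _ _ _ _ _ hp hζ hgen x
  classical
  haveI : Fact p.Prime := ⟨hp⟩
  obtain ⟨ζ, hζ⟩ := hζ
  haveI : Finite (AutQ L) := inferInstance
  haveI : Finite ↥(fixSub K L) := inferInstance
  have hK := h20xs_kummerHyp hp ζ hζ hgen
  set u : KS S L := ((ideleBase S K L x : (KS S L)ˣ) : KS S L) with hu
  set v : KS S L := (((ideleBase S K L x)⁻¹ : (KS S L)ˣ) : KS S L) with hv
  have huv : u * v = 1 := by
    rw [hu, hv, ← Units.val_mul, mul_inv_cancel, Units.val_one]
  have hinv : ∀ h : ↥(fixSub K L), actS S K L h u = u := fun h =>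
    h20xs_ksAut_ksBase S K L (h : AutQ L) h.2 (x : KS S K)
  obtain ⟨y, y', hyy', hy⟩ := h20xs_split_ind p (pinvS S p L) (zetaS S K L ζ)
    (h20xs_pinvS S p L hp) (h20xs_zetaS_pow S p K L ζ hζ)
    (fun j hj0 hjp => h20xs_zetaS_sum S p K L hp ζ hζ j hj0 hjp)
    (Nat.card ↥(fixSub K L)) ↥(fixSub K L) le_rfl (actS S K L) hK u v huv hinv
  set Y : (KS S L)ˣ := ⟨y, y', hyy', by rw [mul_comm]; exact hyy'⟩ with hY
  refine ⟨Y, ?_⟩
  letI : Fintype ↥(fixSub K L) := Fintype.ofFinite _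
  rw [finprod_eq_prod_of_fintype] at hy
  change (∑ h : ↥(fixSub K L), ideleRep S ℚ L (h : AutQ L)) (Additive.ofMul Y) = _
  rw [LinearMap.sum_apply]
  have h1 : ∀ h : ↥(fixSub K L), ideleRep S ℚ L (h : AutQ L) (Additive.ofMul Y) =
      Additive.ofMul ((h : AutQ L) • Y) := fun h => rfl
  simp only [h1]
  rw [← ofMul_prod]
  apply congrArg Additive.ofMul
  apply Units.ext
  rw [Units.coe_prod]
  exact hy

end main

end H20XS
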