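/-
W2-C (S55) block C, deliverable C3B, slice EX-LOC (helper13): the exact `Prop`s of the sub-slices of
`H17X.LocStatement` (`[I : I^p] ≤ p^{[K:ℚ] + 2 #S_K}`).  Nothing here is proved by a placeholder.
Namespace `H13XL`.

Proof:  `[I : pI] ≤ [I : pI + U] · [U : pU]`,  `[U : pU] = |U[p]| · [V : pV]` for `V = 1 + p m Λ`
(Herbrand, `V[p] = 0`, `[U : V] < ∞`),  `[V : pV] ≤ |Λ / pΛ| ≤ p^{[K:ℚ]}`  (XL-CONG),
`[I : pI + U] ≤ p^{#S_K}` (weak approximation, valuations at the primes above `S`)  (XL-QUOT),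
`|U[p]| ≤ p^{#S_K}`:  `p`-torsion units are `ζ`-combinations of orthogonal idempotents (XL-TORS),
and a family of nonzero orthogonal idempotents `c_i` of `K_S` has at most `#S_K` members, as the
ideles `1 - c_i + m c_i` are independent modulo `U`  (XL-ORTH).
-/
import Fermat.Agent.CFT2.C3.Defs_helper17

set_option autoImplicit false
set_option linter.unusedSectionVars false
set_option linter.unusedVariables false

noncomputable section

namespace H13XL

open NumberField H17C H17X

/-- **(XL-ABS)** abstract index bound: `[I : pI] ≤ [I : pI + U] · [V : pV] · |U[p]|` for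
`V ≤ U ≤ I`, `[U : V]` finite, `V[p] = 0`. -/
def AbsStatement : Prop :=
  ∀ (I : Type) [AddCommGroup I] (p : ℕ) (U V : AddSubgroup I) (a b c : ℕ), p.Prime → V ≤ U →
    ((pMul p I ⊔ U).index ≠ 0 ∧ (pMul p I ⊔ U).index ≤ a) →
    V.relIndex U ≠ 0 →
    (∀ x ∈ V, p • x = 0 → x = 0) →
    ((V.map (nsmulAddMonoidHom (α := I) p)).relIndex V ≠ 0 ∧
      (V.map (nsmulAddMonoidHom (α := I) p)).relIndex V ≤ b) →
    (∀ F : Finset I, (∀ x ∈ F, x ∈ U ∧ p • x = 0) → F.card ≤ c) →
    (pMul p I).index ≠ 0 ∧ (pMul p I).index ≤ a * b * c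

/-- **(XL-TORS)** in a commutative algebra `R` over a field `K ∋ ζ_p` in which every family of
nonzero pairwise orthogonal idempotents has at most `s` members, there are at most `p^s`
solutions of `h^p = 1`.  (`e_i(h) = (1/p) Σ_j ζ^{-ij} h^j`, `E_a = ∏_h e_{a h}(h)`.) -/
def TorsAbsStatement : Prop :=
  ∀ (K R : Type) [Field K] [CommRing R] [Algebra K R] (p s : ℕ) (ζ : K), p.Prime →
    IsPrimitiveRoot ζ p →
    (∀ (ι : Type) [Fintype ι] (c : ι → R), (∀ i, c i ≠ 0) → (∀ i, c i * c i = c i) →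
      (∀ i j, i ≠ j → c i * c j = 0) → Fintype.card ι ≤ s) →
    ∀ F : Finset R, (∀ h ∈ F, h ^ p = 1) → F.card ≤ p ^ s

/-- **(XL-ORTH)** a family of nonzero pairwise orthogonal idempotents of `K_S` has at most `#S_K`
members (and there are finitely many primes above `S`). -/
def OrthStatement : Prop :=
  ∀ (S : Finset Nat.Primes) (K : Type) [Field K] [NumberField K],
    Finite (PrimesIn S K) ∧
    ∀ (ι : Type) [Fintype ι] (c : ι → KS S K), (∀ i, c i ≠ 0) → (∀ i, c i * c i = c i) →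
      (∀ i j, i ≠ j → c i * c j = 0) → Fintype.card ι ≤ nS S K

/-- **(XL-QUOT)** `[I : pI + U] ≤ p^{#S_K}`. -/
def QuotStatement : Prop :=
  ∀ (S : Finset Nat.Primes) (p : ℕ) (K : Type) [Field K] [NumberField K], p.Prime →
    (pMul p (Additive (KS S K)ˣ) ⊔ unitIdeleAdd S K).index ≠ 0 ∧
    (pMul p (Additive (KS S K)ˣ) ⊔ unitIdeleAdd S K).index ≤ p ^ nS S K

/-- **(XL-CONG)** the congruence subgroup `V = 1 + p m_S Λ`: `V ≤ U` of finite index, `V[p] = 0`,
`[V : pV] ≤ p^{[K:ℚ]}`. -/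
def CongStatement : Prop :=
  ∀ (S : Finset Nat.Primes) (p : ℕ) (K : Type) [Field K] [NumberField K], p.Prime →
    congIdeleAdd S K (p * mS S) ≤ unitIdeleAdd S K ∧
    (congIdeleAdd S K (p * mS S)).relIndex (unitIdeleAdd S K) ≠ 0 ∧
    (∀ x ∈ congIdeleAdd S K (p * mS S), p • x = 0 → x = 0) ∧
    ((congIdeleAdd S K (p * mS S)).map
      (nsmulAddMonoidHom (α := Additive (KS S K)ˣ) p)).relIndex (congIdeleAdd S K (p * mS S)) ≠ 0 ∧
    ((congIdeleAdd S K (p * mS S)).map
      (nsmulAddMonoidHom (α := Additive (KS S K)ˣ) p)).relIndex (congIdeleAdd S K (p * mS S)) ≤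
        p ^ Module.finrank ℚ K

/-- the assembly: `H17X.LocStatement` from the five pieces -/
theorem h13xl_loc_of (hA : AbsStatement) (hT : TorsAbsStatement) (hO : OrthStatement)
    (hQ : QuotStatement) (hC : CongStatement) : LocStatement := by
  intro S p K _ _ hp _ _ hζ
  obtain ⟨ζ, hζ⟩ := hζ
  obtain ⟨hfin, hO'⟩ := hO S K
  obtain ⟨hVU, hUV, htf, hV0, hVb⟩ := hC S p K hp
  have hQ' := hQ S p K hp
  -- the torsion bound
  have hF : ∀ F : Finset (Additive (KS S K)ˣ),
      (∀ x ∈ F, x ∈ unitIdeleAdd S K ∧ p • x = 0) → F.card ≤ p ^ nS S K := by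
    intro F hF
    classical
    let g : Additive (KS S K)ˣ → KS S K := fun x => ((Additive.toMul x : (KS S K)ˣ) : KS S K)
    have hg : Function.Injective g := fun x y h => by
      have : (Additive.toMul x : (KS S K)ˣ) = Additive.toMul y := Units.ext h
      exact Additive.toMul.injective this
    have h1 := hT K (KS S K) p (nS S K) ζ hp hζ (fun ι _ c h1 h2 h3 => hO' ι c h1 h2 h3)
      (F.image g) (by
        intro h hh
        obtain ⟨x, hx, rfl⟩ := Finset.mem_image.mp hh
        have h2 := (hF x hx).2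
        have h3 : (Additive.toMul x : (KS S K)ˣ) ^ p = 1 := by
          have := congrArg Additive.toMul h2
          simpa using this
        have h4 := congrArg (fun u : (KS S K)ˣ => (u : KS S K)) h3
        simpa using h4)
    rwa [Finset.card_image_of_injective _ hg] at h1
  have h := hA (Additive (KS S K)ˣ) p (unitIdeleAdd S K) (congIdeleAdd S K (p * mS S))
    (p ^ nS S K) (p ^ Module.finrank ℚ K) (p ^ nS S K) hp hVU hQ' hUV htf ⟨hV0, hVb⟩ hF
  refine ⟨h.1, h.2.trans (le_of_eq ?_)⟩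
  rw [← pow_add, ← pow_add]
  congr 1
  ring

end H13XL

end
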