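/-
W2-C (S55) block C, deliverable C3B, slice EX-LOC, sub-slice **XL-TORS** (helper6):
`H13XL.TorsAbsStatement`.

`R` a commutative algebra over a field `K ∋ ζ_p`.  If every family of pairwise orthogonal nonzero
idempotents of `R` has at most `s` members, then `R` has at most `p ^ s` solutions of `x ^ p = 1`.
(Take a maximal family `e_1, …, e_t`; it sums to `1` and every `e_c` is primitive; for `x ^ p = 1`
the idempotents `E_i(x) = (1/p) ∑_j ζ^{-ij} x^j` sum to `1` and `x E_i = ζ^i E_i`, so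
`x e_c = ζ^{i_c} e_c`; `x ↦ (i_c)_c` is injective.)
-/
import Fermat.Agent.CFT2.C3.ExLocDefs_helper13

set_option autoImplicit false
set_option linter.style.haveILetI false

namespace H6TORS

open Finset

variable (K : Type*) {R : Type*} [Field K] [CommRing R] [Algebra K R]

/-- the averaging element `(1/p) ∑_{j<p} y^j` -/
noncomputable def h6t_avg (p : ℕ) (y : R) : R :=
  algebraMap K R ((p : K)⁻¹) * ∑ j ∈ range p, y ^ j

variable {K}

theorem h6t_mul_geom {p : ℕ} {y : R} (hy : y ^ p = 1) :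
    y * ∑ j ∈ range p, y ^ j = ∑ j ∈ range p, y ^ j := by
  have h1 := geom_sum_succ (x := y) (n := p)
  have h2 := geom_sum_succ' (x := y) (n := p)
  rw [h2, hy] at h1
  linear_combination -h1

theorem h6t_mul_avg {p : ℕ} {y : R} (hy : y ^ p = 1) :
    y * h6t_avg K p y = h6t_avg K p y := by
  unfold h6t_avg
  rw [mul_left_comm, h6t_mul_geom hy]

theorem h6t_pow_mul_avg {p : ℕ} {y : R} (hy : y ^ p = 1) (j : ℕ) :
    y ^ j * h6t_avg K p y = h6t_avg K p y := by
  induction j with
  | zero => simp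
  | succ j ih => rw [pow_succ, mul_assoc, h6t_mul_avg hy, ih]

theorem h6t_avg_idem {p : ℕ} (hp0 : (p : K) ≠ 0) {y : R} (hy : y ^ p = 1) :
    h6t_avg K p y * h6t_avg K p y = h6t_avg K p y := by
  have h1 : (∑ j ∈ range p, y ^ j) * h6t_avg (K := K) p y = (p : R) * h6t_avg K p y := by
    rw [Finset.sum_mul]
    rw [Finset.sum_congr rfl (fun j _ => h6t_pow_mul_avg (K := K) hy j)]
    simp
  have h2 : algebraMap K R ((p : K)⁻¹) * (p : R) = 1 := by
    have : (p : R) = algebraMap K R (p : K) := by simp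
    rw [this, ← map_mul, inv_mul_cancel₀ hp0, map_one]
  have e : h6t_avg K p y = algebraMap K R ((p : K)⁻¹) * ∑ j ∈ range p, y ^ j := rfl
  calc h6t_avg K p y * h6t_avg K p y
      = (algebraMap K R ((p : K)⁻¹) * ∑ j ∈ range p, y ^ j) * h6t_avg K p y := by rw [← e]
    _ = algebraMap K R ((p : K)⁻¹) * ((∑ j ∈ range p, y ^ j) * h6t_avg K p y) := by
        rw [mul_assoc]
    _ = algebraMap K R ((p : K)⁻¹) * ((p : R) * h6t_avg K p y) := by rw [h1]
    _ = h6t_avg K p y := by rw [← mul_assoc, h2, one_mul]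

theorem h6t_natCast_ne_zero {p : ℕ} (hp : p.Prime) {η : K} (hη : IsPrimitiveRoot η p) :
    (p : K) ≠ 0 := by
  haveI : NeZero p := ⟨hp.ne_zero⟩
  haveI := hη.neZero'
  exact NeZero.ne _

/-- `∑_i E_i(x) = 1` -/
theorem h6t_sum_avg {p : ℕ} (hp : p.Prime) {η : K} (hη : IsPrimitiveRoot η p) (x : R) :
    ∑ i ∈ range p, h6t_avg K p (algebraMap K R (η ^ i) * x) = 1 := by
  have hp0 : (p : K) ≠ 0 := h6t_natCast_ne_zero hp hη
  unfold h6t_avg
  rw [← Finset.mul_sum, Finset.sum_comm]
  have h1 : ∀ j ∈ range p, ∑ i ∈ range p, (algebraMap K R (η ^ i) * x) ^ j =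
      algebraMap K R (∑ i ∈ range p, (η ^ j) ^ i) * x ^ j := by
    intro j _
    rw [map_sum, Finset.sum_mul]
    refine Finset.sum_congr rfl (fun i _ => ?_)
    rw [mul_pow, ← map_pow, ← pow_mul, ← pow_mul, mul_comm i j]
  rw [Finset.sum_congr rfl h1]
  rw [Finset.sum_eq_single 0]
  · simp only [pow_zero, one_pow, Finset.sum_const, Finset.card_range, nsmul_eq_mul, mul_one]
    rw [← map_mul]
    have : (p : K)⁻¹ * ((p : ℕ) : K) = 1 := inv_mul_cancel₀ hp0
    rw [this, map_one]
  · intro j hj hj0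
    have hjp : j < p := Finset.mem_range.1 hj
    have hcop : Nat.Coprime j p :=
      Nat.Coprime.symm ((Nat.Prime.coprime_iff_not_dvd hp).2
        (Nat.not_dvd_of_pos_of_lt (Nat.pos_of_ne_zero hj0) hjp))
    have h0 := (hη.pow_of_coprime j hcop).geom_sum_eq_zero hp.one_lt
    rw [h0, map_zero, zero_mul]
  · intro h
    exact absurd (Finset.mem_range.2 hp.pos) h

/-- `x E_i(x) = ζ^i E_i(x)` where `E_i(x) = avg (η^i x)`, `η = ζ⁻¹` -/
theorem h6t_mul_E {p : ℕ} {ζ η : K} (hζη : ζ * η = 1) (hη : η ^ p = 1) {x : R} (hx : x ^ p = 1)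
    (i : ℕ) :
    x * h6t_avg K p (algebraMap K R (η ^ i) * x) =
      algebraMap K R (ζ ^ i) * h6t_avg K p (algebraMap K R (η ^ i) * x) := by
  have hy : (algebraMap K R (η ^ i) * x) ^ p = 1 := by
    rw [mul_pow, hx, mul_one, ← map_pow, ← pow_mul, mul_comm, pow_mul, hη, one_pow, map_one]
  have h1 := h6t_mul_avg (K := K) hy
  have h2 : algebraMap K R (ζ ^ i) * algebraMap K R (η ^ i) = 1 := by
    rw [← map_mul, ← mul_pow, hζη, one_pow, map_one]
  calc x * h6t_avg K p (algebraMap K R (η ^ i) * x)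
      = (algebraMap K R (ζ ^ i) * algebraMap K R (η ^ i)) * x *
          h6t_avg K p (algebraMap K R (η ^ i) * x) := by rw [h2, one_mul]
    _ = algebraMap K R (ζ ^ i) * ((algebraMap K R (η ^ i) * x) *
          h6t_avg K p (algebraMap K R (η ^ i) * x)) := by ring
    _ = algebraMap K R (ζ ^ i) * h6t_avg K p (algebraMap K R (η ^ i) * x) := by rw [h1]

/-- orthogonal families of nonzero idempotents indexed by a type with `t` elements -/
def h6t_Fam (R : Type*) [CommRing R] (t : ℕ) : Prop :=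
  ∃ (ι : Type) (_ : Fintype ι) (e : ι → R), Fintype.card ι = t ∧ (∀ c, e c ≠ 0) ∧
    (∀ c, e c * e c = e c) ∧ (∀ c c', c ≠ c' → e c * e c' = 0)

/-- adding an idempotent orthogonal to all members -/
theorem h6t_fam_add {ι : Type} [Fintype ι] (e : ι → R) (he0 : ∀ c, e c ≠ 0)
    (hee : ∀ c, e c * e c = e c) (heo : ∀ c c', c ≠ c' → e c * e c' = 0)
    (g : R) (hg0 : g ≠ 0) (hgg : g * g = g) (hge : ∀ c, g * e c = 0) :
    h6t_Fam R (Fintype.card ι + 1) := by
  refine ⟨Option ι, inferInstance, fun o => o.elim g e, Fintype.card_option, ?_, ?_, ?_⟩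
  · rintro (_ | c)
    · exact hg0
    · exact he0 c
  · rintro (_ | c)
    · exact hgg
    · exact hee c
  · rintro (_ | c) (_ | c') h
    · exact absurd rfl h
    · exact hge c'
    · show e c * g = 0
      rw [mul_comm]; exact hge c
    · exact heo c c' (fun h' => h (by rw [h']))

/-- splitting a member -/
theorem h6t_fam_split {ι : Type} [Fintype ι] [DecidableEq ι] (e : ι → R) (he0 : ∀ c, e c ≠ 0)
    (hee : ∀ c, e c * e c = e c) (heo : ∀ c c', c ≠ c' → e c * e c' = 0)
    (g : R) (hgg : g * g = g) (c₀ : ι) (h1 : g * e c₀ ≠ 0) (h2 : g * e c₀ ≠ e c₀) :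
    h6t_Fam R (Fintype.card ι + 1) := by
  have hupd0 : ∀ c, Function.update e c₀ (g * e c₀) c ≠ 0 := by
    intro c
    by_cases hc : c = c₀
    · subst hc; rw [Function.update_self]; exact h1
    · rw [Function.update_of_ne hc]; exact he0 c
  have hupdi : ∀ c, Function.update e c₀ (g * e c₀) c * Function.update e c₀ (g * e c₀) c =
      Function.update e c₀ (g * e c₀) c := by
    intro c
    by_cases hc : c = c₀
    · subst hc
      rw [Function.update_self]
      calc g * e c * (g * e c) = (g * g) * (e c * e c) := by ring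
        _ = g * e c := by rw [hgg, hee]
    · rw [Function.update_of_ne hc]; exact hee c
  have hupdo : ∀ c c', c ≠ c' → Function.update e c₀ (g * e c₀) c *
      Function.update e c₀ (g * e c₀) c' = 0 := by
    intro c c' hcc
    by_cases hc : c = c₀
    · subst hc
      have hc' : c' ≠ c := fun h => hcc h.symm
      rw [Function.update_self, Function.update_of_ne hc', mul_assoc, heo c c' hcc, mul_zero]
    · by_cases hc' : c' = c₀
      · subst hc'
        rw [Function.update_self, Function.update_of_ne hc]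
        calc e c * (g * e c') = g * (e c * e c') := by ring
          _ = 0 := by rw [heo c c' hcc, mul_zero]
      · rw [Function.update_of_ne hc, Function.update_of_ne hc']
        exact heo c c' hcc
  refine h6t_fam_add (Function.update e c₀ (g * e c₀)) hupd0 hupdi hupdo ((1 - g) * e c₀) ?_ ?_ ?_
  · intro h
    apply h2
    have : e c₀ - g * e c₀ = 0 := by
      rw [← h]; ring
    exact (sub_eq_zero.1 this).symm
  · calc (1 - g) * e c₀ * ((1 - g) * e c₀) = (1 - 2 * g + g * g) * (e c₀ * e c₀) := by ring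
      _ = (1 - g) * e c₀ := by rw [hgg, hee]; ring
  · intro c
    by_cases hc : c = c₀
    · subst hc
      rw [Function.update_self]
      calc (1 - g) * e c * (g * e c) = (g - g * g) * (e c * e c) := by ring
        _ = 0 := by rw [hgg, sub_self, zero_mul]
    · rw [Function.update_of_ne hc]
      have : e c₀ * e c = 0 := heo c₀ c (fun h => hc h.symm)
      rw [mul_assoc, this, mul_zero]

/-- **(XL-TORS)** -/
theorem h6t_torsAbs : H13XL.TorsAbsStatement := by
  intro K R _ _ _ p s ζ hp hζ hbound F hF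
  classical
  have hPb : ∀ t, h6t_Fam R t → t ≤ s := by
    rintro t ⟨ι, _, e, rfl, h1, h2, h3⟩
    exact hbound ι e h1 h2 h3
  have hP0 : h6t_Fam R 0 :=
    ⟨PEmpty, inferInstance, fun c => c.elim, by simp, fun c => c.elim, fun c => c.elim,
      fun c => c.elim⟩
  obtain ⟨t, ⟨ι, _, e, hcard, he0, hee, heo⟩, hmax⟩ :
      ∃ t, h6t_Fam R t ∧ ∀ t', h6t_Fam R t' → t' ≤ t :=
    ⟨Nat.findGreatest (h6t_Fam R) s, Nat.findGreatest_spec (Nat.zero_le s) hP0,
      fun t' ht' => Nat.le_findGreatest (hPb t' ht') ht'⟩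
  have hts : t ≤ s := hPb t ⟨ι, _, e, hcard, he0, hee, heo⟩
  have hnot : ¬ h6t_Fam R (Fintype.card ι + 1) := by
    intro h
    have := hmax _ h
    omega
  -- the family sums to `1`
  have hse : ∀ c, (∑ c', e c') * e c = e c := by
    intro c
    rw [Finset.sum_mul, Finset.sum_eq_single c]
    · exact hee c
    · intro c' _ hc'; exact heo c' c hc'
    · intro h; exact absurd (Finset.mem_univ c) h
  have hsum : ∑ c, e c = 1 := by
    by_contra hne
    apply hnot
    have hge : ∀ c, (1 - ∑ c', e c') * e c = 0 := by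
      intro c; rw [sub_mul, one_mul, hse c, sub_self]
    refine h6t_fam_add e he0 hee heo (1 - ∑ c', e c') (sub_ne_zero.2 (Ne.symm hne)) ?_ hge
    rw [mul_sub, mul_one, Finset.mul_sum]
    rw [Finset.sum_congr rfl (fun c _ => hge c)]
    simp
  -- every member is primitive
  have hprim : ∀ g : R, g * g = g → ∀ c, g * e c = 0 ∨ g * e c = e c := by
    intro g hgg c
    by_contra h
    push Not at h
    exact hnot (h6t_fam_split e he0 hee heo g hgg c h.1 h.2)
  -- the inverse root of unity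
  have hζ0 : ζ ≠ 0 := hζ.ne_zero hp.ne_zero
  have hζη : ζ * ζ⁻¹ = 1 := mul_inv_cancel₀ hζ0
  have hη : IsPrimitiveRoot ζ⁻¹ p := hζ.inv
  have hp0 : (p : K) ≠ 0 := h6t_natCast_ne_zero hp hζ
  -- the key: `x e_c = ζ^i e_c`
  have key : ∀ x : R, x ^ p = 1 → ∀ c, ∃ i : Fin p, x * e c = algebraMap K R (ζ ^ (i : ℕ)) * e c := by
    intro x hx c
    have h1 : ∑ i ∈ range p, h6t_avg K p (algebraMap K R (ζ⁻¹ ^ i) * x) * e c = e c := by
      rw [← Finset.sum_mul, h6t_sum_avg hp hη x, one_mul]
    obtain ⟨i, hi, hne⟩ : ∃ i ∈ range p, h6t_avg K p (algebraMap K R (ζ⁻¹ ^ i) * x) * e c ≠ 0 := by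
      by_contra h
      push Not at h
      rw [Finset.sum_congr rfl h] at h1
      simp at h1
      exact he0 c h1.symm
    have hy : (algebraMap K R (ζ⁻¹ ^ i) * x) ^ p = 1 := by
      rw [mul_pow, hx, mul_one, ← map_pow, ← pow_mul, mul_comm, pow_mul, hη.pow_eq_one, one_pow,
        map_one]
    have hE := hprim _ (h6t_avg_idem (K := K) hp0 hy) c
    rcases hE with hE | hE
    · exact absurd hE hne
    · refine ⟨⟨i, Finset.mem_range.1 hi⟩, ?_⟩
      have h3 := h6t_mul_E (K := K) (R := R) hζη hη.pow_eq_one hx i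
      calc x * e c = x * (h6t_avg K p (algebraMap K R (ζ⁻¹ ^ i) * x) * e c) := by rw [hE]
        _ = (x * h6t_avg K p (algebraMap K R (ζ⁻¹ ^ i) * x)) * e c := by ring
        _ = algebraMap K R (ζ ^ i) * (h6t_avg K p (algebraMap K R (ζ⁻¹ ^ i) * x) * e c) := by
            rw [h3]; ring
        _ = algebraMap K R (ζ ^ i) * e c := by rw [hE]
  -- the injection
  let Φ : ↥F → (ι → Fin p) := fun x c => Classical.choose (key x.1 (hF x.1 x.2) c)
  have hΦ : ∀ (x : ↥F) c, x.1 * e c = algebraMap K R (ζ ^ ((Φ x c : Fin p) : ℕ)) * e c :=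
    fun x c => Classical.choose_spec (key x.1 (hF x.1 x.2) c)
  have hinj : Function.Injective Φ := by
    intro x x' h
    apply Subtype.ext
    have hx : ∀ y : ↥F, y.1 = ∑ c, algebraMap K R (ζ ^ ((Φ y c : Fin p) : ℕ)) * e c := by
      intro y
      calc y.1 = y.1 * ∑ c, e c := by rw [hsum, mul_one]
        _ = ∑ c, y.1 * e c := Finset.mul_sum _ _ _
        _ = ∑ c, algebraMap K R (ζ ^ ((Φ y c : Fin p) : ℕ)) * e c :=
            Finset.sum_congr rfl (fun c _ => hΦ y c)
    rw [hx x, hx x', h]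
  have h1 := Fintype.card_le_of_injective Φ hinj
  rw [Fintype.card_coe, Fintype.card_fun, Fintype.card_fin, hcard] at h1
  exact h1.trans (Nat.pow_le_pow_right hp.pos hts)

end H6TORS
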