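/-
W2-C (S55) block C, deliverable C3B, slice EX-LOC, sub-slice **EX-UQ** (helper26).
`h26_uq : H17X.UQStatement`:  `[U : U ∩ pI] ≤ |I[p]| · p^{[K:ℚ]}`, finite.
Route: `V = 1 + p m Λ ≤ U` of finite index, `1 + p² m Λ ⊆ pV` (`H21C.MComplete.root`),
`[V : 1 + p² m Λ] ≤ |Λ/pΛ| ≤ p^{[K:ℚ]}`, and the abstract bound `[U : pU] ≤ |U[p]| · [V : V₂]`.
-/
import Fermat.Agent.CFT2.C3.LocSlices_helper17
import Fermat.Agent.CFT2.C.PowOpenS_helper21
import Fermat.Agent.CFT2.C.WeakApproxBase_helper3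

set_option autoImplicit false
set_option linter.style.haveILetI false
set_option linter.unusedSectionVars false
set_option linter.unusedVariables false
noncomputable section
namespace H26UQ

open NumberField H17C H17X

section abs

/-- abstract index bound: `[U : pU] ≤ |U[p]| · [V : V₂]` if `V₂ ≤ pV`, `[U : V] < ∞`. -/
theorem abs_bound {U : Type*} [AddCommGroup U] (p : ℕ) (V V₂ : AddSubgroup U) (M t : ℕ)
    (hV : V.index ≠ 0) (h2 : V₂ ≤ V.map (nsmulAddMonoidHom (α := U) p))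
    (h2V : V₂.relIndex V ≠ 0) (h2M : V₂.relIndex V ≤ M)
    [Finite (nsmulAddMonoidHom (α := U) p).ker]
    (hker : Nat.card (nsmulAddMonoidHom (α := U) p).ker ≤ t) :
    (nsmulAddMonoidHom (α := U) p).range.index ≠ 0 ∧
      (nsmulAddMonoidHom (α := U) p).range.index ≤ t * M := by
  set f := nsmulAddMonoidHom (α := U) p with hf
  set W := V.map f with hW
  have hWV : W ≤ V := by
    rintro _ ⟨v, hv, rfl⟩
    exact V.nsmul_mem hv p
  have h1 : W.relIndex V ∣ V₂.relIndex V := AddSubgroup.relIndex_dvd_of_le_left V h2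
  have h1' : W.relIndex V ≠ 0 := fun h => h2V (by
    rw [h] at h1
    exact Nat.eq_zero_of_zero_dvd h1)
  have h1'' : W.relIndex V ≤ M := (Nat.le_of_dvd (Nat.pos_of_ne_zero h2V) h1).trans h2M
  have e1 : W.index = (V ⊔ f.ker).index * f.range.index := AddSubgroup.index_map V f
  have e2 : W.relIndex V * V.index = W.index := AddSubgroup.relIndex_mul_index hWV
  have e3 : V.relIndex (V ⊔ f.ker) * (V ⊔ f.ker).index = V.index :=
    AddSubgroup.relIndex_mul_index le_sup_left
  have e4 : V.relIndex (V ⊔ f.ker) = V.relIndex f.ker := AddSubgroup.relIndex_sup_left _ _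
  have e5 : V.relIndex f.ker ∣ Nat.card f.ker := AddSubgroup.relIndex_dvd_card _ _
  have hsup : (V ⊔ f.ker).index ≠ 0 := fun h => hV (by rw [← e3, h, mul_zero])
  have e6 : f.range.index = W.relIndex V * V.relIndex f.ker := by
    have : (V ⊔ f.ker).index * f.range.index =
        (V ⊔ f.ker).index * (W.relIndex V * V.relIndex f.ker) := by
      rw [← e1, ← e2, ← e3, e4]
      ring
    exact Nat.eq_of_mul_eq_mul_left (Nat.pos_of_ne_zero hsup) this
  have hk0 : 0 < Nat.card f.ker := Nat.card_pos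
  have e7 : V.relIndex f.ker ≤ t := (Nat.le_of_dvd hk0 e5).trans hker
  have e8 : V.relIndex f.ker ≠ 0 := fun h => by
    rw [h] at e5
    exact hk0.ne' (Nat.eq_zero_of_zero_dvd e5)
  refine ⟨?_, ?_⟩
  · rw [e6]
    exact Nat.mul_ne_zero h1' e8
  · rw [e6, mul_comm]
    exact Nat.mul_le_mul e7 h1''

theorem index_le_of_map {G : Type*} [AddGroup G] (H : AddSubgroup G) {X : Type*} [Finite X]
    (φ : G → X) (h : ∀ a b, φ a = φ b → -a + b ∈ H) :
    H.index ≠ 0 ∧ H.index ≤ Nat.card X := by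
  have hinj : Function.Injective (fun q : G ⧸ H => φ q.out) := by
    intro q q' hq
    have h1 := h _ _ hq
    have h2 : ((q.out : G) : G ⧸ H) = ((q'.out : G) : G ⧸ H) := QuotientAddGroup.eq.mpr h1
    rwa [QuotientAddGroup.out_eq', QuotientAddGroup.out_eq'] at h2
  haveI : Finite (G ⧸ H) := Finite.of_injective _ hinj
  exact ⟨AddSubgroup.index_ne_zero_of_finite, Nat.card_le_card_of_injective _ hinj⟩

theorem relIndex_le_of_map {G : Type*} [AddGroup G] (H K : AddSubgroup G) {X : Type*} [Finite X]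
    (φ : G → X) (h : ∀ a ∈ K, ∀ b ∈ K, φ a = φ b → -a + b ∈ H) :
    H.relIndex K ≠ 0 ∧ H.relIndex K ≤ Nat.card X :=
  index_le_of_map (H.addSubgroupOf K) (fun a : K => φ a) (fun a b hab => by
    rw [AddSubgroup.mem_addSubgroupOf]
    exact h a a.2 b b.2 hab)

end abs


section conc

variable (S : Finset Nat.Primes) (K : Type) [Field K] [NumberField K]

/-- `Λ / MΛ` is covered by the combinations of the integral basis with coefficients `< M` -/
theorem lat_quot (M : ℕ) (hM : M ≠ 0) (x : KS S K) (hx : x ∈ latS S K) :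
    ∃ c : H21C.JB K → Fin M, ∃ y ∈ latS S K,
      x - H21C.comb S K (fun i => (((c i : ℕ)) : ZS S)) = (M : KS S K) * y := by
  classical
  obtain ⟨z, rfl⟩ := (H21C.latS_iff S K x).mp hx
  choose c t hct using fun i => H3C.h3c_crt S (z i) M hM
  refine ⟨fun i => ⟨c i % M, Nat.mod_lt _ (Nat.pos_of_ne_zero hM)⟩,
    H21C.comb S K (fun i => t i + ((c i / M : ℕ) : ZS S)), H21C.comb_mem S K _, ?_⟩
  rw [← H21C.comb_sub, ← H21C.zsHom_natCast, ← H21C.comb_smul]
  congr 1
  funext i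
  simp only [Pi.sub_apply]
  rw [hct i]
  have h1 : ((c i : ℕ) : ZS S) = (M : ZS S) * ((c i / M : ℕ) : ZS S) + ((c i % M : ℕ) : ZS S) := by
    have := congrArg (fun n : ℕ => (n : ZS S)) (Nat.div_add_mod (c i) M)
    simp only [Nat.cast_add, Nat.cast_mul] at this
    exact this.symm
  rw [h1]
  ring

/-- two unit ideles that are congruent modulo `NΛ` differ by an element of `1 + NΛ` -/
theorem cong_of_sub (N : ℕ) (a b : (KS S K)ˣ) (ha : a ∈ unitIdele S K) (hb : b ∈ unitIdele S K)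
    (z : KS S K) (hz : z ∈ latS S K) (h : (b : KS S K) - a = (N : KS S K) * z) :
    a⁻¹ * b ∈ congIdele S K N := by
  refine ⟨(unitIdele S K).mul_mem ((unitIdele S K).inv_mem ha) hb,
    ((a⁻¹ : (KS S K)ˣ) : KS S K) * z, (latS S K).mul_mem ha.2 hz, ?_⟩
  rw [Units.val_mul]
  have h1 : ((a⁻¹ : (KS S K)ˣ) : KS S K) * (a : KS S K) = 1 := by simp
  linear_combination ((a⁻¹ : (KS S K)ˣ) : KS S K) * h + h1

/-- `1 + p² m Λ ⊆ (1 + p m Λ)^p` -/
theorem cong_root (p : ℕ) (u : (KS S K)ˣ) (hu : u ∈ congIdele S K (p ^ 2 * mS S)) :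
    ∃ v ∈ congIdele S K (p * mS S), v ^ p = u := by
  obtain ⟨-, y, hy, huy⟩ := hu
  obtain ⟨w, hw⟩ := (H21C.mcomplete_lat S K).root p ⟨y, hy⟩
  obtain ⟨v₁, hv₁⟩ := (H21C.mcomplete_lat S K).cu ((p : ↥(latS S K)) * w)
  have hw' : (1 + (p : KS S K) * (mS S : KS S K) * (w : KS S K)) ^ p = (u : KS S K) := by
    have h1 := congrArg Subtype.val hw
    have h2 : ((1 + (p : ↥(latS S K)) * ((mS S : ℕ) : ↥(latS S K)) * w) ^ p : ↥(latS S K)).val
        = (1 + (p : KS S K) * (mS S : KS S K) * (w : KS S K)) ^ p := by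
      simp
    have h3 : ((1 + (p : ↥(latS S K)) ^ 2 * ((mS S : ℕ) : ↥(latS S K)) * (⟨y, hy⟩ : ↥(latS S K)) :
        ↥(latS S K))).val
        = 1 + (p : KS S K) ^ 2 * (mS S : KS S K) * y := by
      simp
    rw [h2, h3] at h1
    rw [h1, huy]
    push_cast
    ring
  have hv₁' : (1 + (p : KS S K) * (mS S : KS S K) * (w : KS S K)) * (v₁ : KS S K) = 1 := by
    have h1 : (1 + (mS S : KS S K) * ((p : KS S K) * (w : KS S K))) * (v₁ : KS S K) = 1 := by
      have := congrArg Subtype.val hv₁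
      simpa using this
    linear_combination h1
  have hmem : (1 + (p : KS S K) * (mS S : KS S K) * (w : KS S K)) ∈ latS S K :=
    Subring.add_mem _ (Subring.one_mem _)
      (Subring.mul_mem _ (Subring.mul_mem _ (natCast_mem (latS S K) p)
        (natCast_mem (latS S K) (mS S))) w.2)
  refine ⟨⟨1 + (p : KS S K) * (mS S : KS S K) * (w : KS S K), (v₁ : KS S K), hv₁',
    by rw [mul_comm]; exact hv₁'⟩, ⟨⟨hmem, v₁.2⟩, (w : KS S K), w.2, ?_⟩, ?_⟩
  · push_cast
    ring
  · apply Units.ext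
    rw [Units.val_pow_eq_pow_val]
    exact hw'

end conc


section main

variable (S : Finset Nat.Primes) (K : Type) [Field K] [NumberField K]

open Classical in
/-- a residue of a unit idele modulo `MΛ` -/
def resU (M : ℕ) (hM : M ≠ 0) (a : Additive (KS S K)ˣ) : H21C.JB K → Fin M :=
  if h : ((Additive.toMul a : (KS S K)ˣ) : KS S K) ∈ latS S K then
    Classical.choose (lat_quot S K M hM _ h)
  else fun _ => ⟨0, Nat.pos_of_ne_zero hM⟩

theorem resU_spec (M : ℕ) (hM : M ≠ 0) (a : Additive (KS S K)ˣ)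
    (h : ((Additive.toMul a : (KS S K)ˣ) : KS S K) ∈ latS S K) :
    ∃ y ∈ latS S K, ((Additive.toMul a : (KS S K)ˣ) : KS S K) -
      H21C.comb S K (fun i => (((resU S K M hM a i : ℕ)) : ZS S)) = (M : KS S K) * y := by
  unfold resU
  rw [dif_pos h]
  exact Classical.choose_spec (lat_quot S K M hM _ h)

/-- `[U : 1 + MΛ]` is finite -/
theorem relIndex_cong_unit (M : ℕ) (hM : M ≠ 0) :
    (congIdeleAdd S K M).relIndex (unitIdeleAdd S K) ≠ 0 := by
  refine (relIndex_le_of_map _ _ (resU S K M hM) ?_).1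
  intro a ha b hb hab
  have ha' : Additive.toMul a ∈ unitIdele S K := ha
  have hb' : Additive.toMul b ∈ unitIdele S K := hb
  obtain ⟨ya, hya, ea⟩ := resU_spec S K M hM a ha'.1
  obtain ⟨yb, hyb, eb⟩ := resU_spec S K M hM b hb'.1
  rw [hab] at ea
  exact cong_of_sub S K M (Additive.toMul a) (Additive.toMul b) ha' hb' (yb - ya)
    ((latS S K).sub_mem hyb hya) (by linear_combination eb - ea)

open Classical in
/-- a residue modulo `pΛ` of `x`, for `a = 1 + p m x` -/
def resV (p : ℕ) (hp : p ≠ 0) (a : Additive (KS S K)ˣ) : H21C.JB K → Fin p :=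
  if h : Additive.toMul a ∈ congIdele S K (p * mS S) then
    Classical.choose (lat_quot S K p hp (Classical.choose h.2) (Classical.choose_spec h.2).1)
  else fun _ => ⟨0, Nat.pos_of_ne_zero hp⟩

theorem resV_spec (p : ℕ) (hp : p ≠ 0) (a : Additive (KS S K)ˣ)
    (h : Additive.toMul a ∈ congIdele S K (p * mS S)) :
    ∃ x ∈ latS S K, ∃ y ∈ latS S K,
      ((Additive.toMul a : (KS S K)ˣ) : KS S K) = 1 + ((p * mS S : ℕ) : KS S K) * x ∧
      x - H21C.comb S K (fun i => (((resV S K p hp a i : ℕ)) : ZS S)) = (p : KS S K) * y := by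
  unfold resV
  rw [dif_pos h]
  obtain ⟨y, hy, e⟩ := Classical.choose_spec
    (lat_quot S K p hp (Classical.choose h.2) (Classical.choose_spec h.2).1)
  exact ⟨Classical.choose h.2, (Classical.choose_spec h.2).1, y, hy,
    (Classical.choose_spec h.2).2, e⟩

/-- `[1 + p m Λ : 1 + p² m Λ] ≤ p^{[K:ℚ]}` -/
theorem relIndex_cong_cong (p : ℕ) (hp : p ≠ 0) :
    (congIdeleAdd S K (p ^ 2 * mS S)).relIndex (congIdeleAdd S K (p * mS S)) ≠ 0 ∧
    (congIdeleAdd S K (p ^ 2 * mS S)).relIndex (congIdeleAdd S K (p * mS S)) ≤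
      p ^ Module.finrank ℚ K := by
  have hcard : Nat.card (H21C.JB K → Fin p) = p ^ Module.finrank ℚ K := by
    rw [Nat.card_eq_fintype_card, Fintype.card_fun, Fintype.card_fin,
      ← Module.finrank_eq_card_chooseBasisIndex, RingOfIntegers.rank]
  have h := relIndex_le_of_map (congIdeleAdd S K (p ^ 2 * mS S)) (congIdeleAdd S K (p * mS S))
    (resV S K p hp) (by
      intro a ha b hb hab
      have ha' : Additive.toMul a ∈ congIdele S K (p * mS S) := ha
      have hb' : Additive.toMul b ∈ congIdele S K (p * mS S) := hb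
      obtain ⟨xa, hxa, ya, hya, ea, ea'⟩ := resV_spec S K p hp a ha'
      obtain ⟨xb, hxb, yb, hyb, eb, eb'⟩ := resV_spec S K p hp b hb'
      rw [hab] at ea'
      refine cong_of_sub S K (p ^ 2 * mS S) (Additive.toMul a) (Additive.toMul b) ha'.1 hb'.1
        (yb - ya) ((latS S K).sub_mem hyb hya) ?_
      rw [eb, ea]
      push_cast
      linear_combination ((p : KS S K) * (mS S : KS S K)) * (eb' - ea'))
  rw [hcard] at h
  exact h

theorem mS_ne_zero' : mS S ≠ 0 := by
  unfold mS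
  exact Finset.prod_ne_zero_iff.mpr (fun q _ => q.2.ne_zero)

/-- **(EX-UQ)** `[U : U ∩ pI] ≤ |I[p]| · p^{[K:ℚ]}`, finite. -/
theorem h26_uq : H17X.UQStatement := by
  intro S p K _ _ hp hp2 hpS hfin
  classical
  have hp0 : p ≠ 0 := hp.ne_zero
  have hm0 : mS S ≠ 0 := mS_ne_zero' S
  have hVU : congIdeleAdd S K (p * mS S) ≤ unitIdeleAdd S K := fun x hx => hx.1
  have hV : ((congIdeleAdd S K (p * mS S)).addSubgroupOf (unitIdeleAdd S K)).index ≠ 0 :=
    relIndex_cong_unit S K (p * mS S) (Nat.mul_ne_zero hp0 hm0)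
  have h2 : (congIdeleAdd S K (p ^ 2 * mS S)).addSubgroupOf (unitIdeleAdd S K) ≤
      ((congIdeleAdd S K (p * mS S)).addSubgroupOf (unitIdeleAdd S K)).map
        (nsmulAddMonoidHom (α := ↥(unitIdeleAdd S K)) p) := by
    intro x hx
    have hx' : Additive.toMul (x : Additive (KS S K)ˣ) ∈ congIdele S K (p ^ 2 * mS S) := hx
    obtain ⟨v, hv, hvp⟩ := cong_root S K p _ hx'
    refine ⟨⟨Additive.ofMul v, hv.1⟩, hv, ?_⟩
    apply Subtype.ext
    show p • Additive.ofMul v = (x : Additive (KS S K)ˣ)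
    rw [← ofMul_pow, hvp]
    rfl
  have h2r : ((congIdeleAdd S K (p ^ 2 * mS S)).addSubgroupOf (unitIdeleAdd S K)).relIndex
      ((congIdeleAdd S K (p * mS S)).addSubgroupOf (unitIdeleAdd S K)) =
      (congIdeleAdd S K (p ^ 2 * mS S)).relIndex (congIdeleAdd S K (p * mS S)) :=
    AddSubgroup.relIndex_addSubgroupOf hVU
  obtain ⟨h2V, h2M⟩ := relIndex_cong_cong S K p hp0
  rw [← h2r] at h2V h2M
  -- torsion
  let g : (nsmulAddMonoidHom (α := ↥(unitIdeleAdd S K)) p).ker → TorsP S p K := fun u =>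
    ⟨Additive.toMul (((u : ↥(unitIdeleAdd S K)) : Additive (KS S K)ˣ)), by
      have h1 : p • (u : ↥(unitIdeleAdd S K)) = 0 := u.2
      have h2 : p • ((u : ↥(unitIdeleAdd S K)) : Additive (KS S K)ˣ) = 0 :=
        congrArg Subtype.val h1
      have h3 := congrArg Additive.toMul h2
      simpa using h3⟩
  have hinj : Function.Injective g := by
    intro u u' h
    have h1 : Additive.toMul (((u : ↥(unitIdeleAdd S K)) : Additive (KS S K)ˣ)) =
        Additive.toMul (((u' : ↥(unitIdeleAdd S K)) : Additive (KS S K)ˣ)) :=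
      congrArg (fun t : TorsP S p K => (t : (KS S K)ˣ)) h
    exact Subtype.ext (Subtype.ext (Additive.toMul.injective h1))
  haveI : Finite (nsmulAddMonoidHom (α := ↥(unitIdeleAdd S K)) p).ker :=
    Finite.of_injective g hinj
  have hker : Nat.card (nsmulAddMonoidHom (α := ↥(unitIdeleAdd S K)) p).ker ≤
      Nat.card (TorsP S p K) := Nat.card_le_card_of_injective g hinj
  obtain ⟨h0, hle⟩ := abs_bound p _ _ _ _ hV h2 h2V h2M hker
  have hsub : (nsmulAddMonoidHom (α := ↥(unitIdeleAdd S K)) p).range ≤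
      (pMul p (Additive (KS S K)ˣ)).addSubgroupOf (unitIdeleAdd S K) := by
    rintro _ ⟨u, rfl⟩
    rw [AddSubgroup.mem_addSubgroupOf]
    exact ⟨(u : Additive (KS S K)ˣ), rfl⟩
  have hdvd : ((pMul p (Additive (KS S K)ˣ)).addSubgroupOf (unitIdeleAdd S K)).index ∣
      (nsmulAddMonoidHom (α := ↥(unitIdeleAdd S K)) p).range.index :=
    AddSubgroup.index_dvd_of_le hsub
  refine ⟨?_, ?_⟩
  · intro h
    have h' : ((pMul p (Additive (KS S K)ˣ)).addSubgroupOf (unitIdeleAdd S K)).index = 0 := h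
    rw [h'] at hdvd
    exact h0 (Nat.eq_zero_of_zero_dvd hdvd)
  · exact (Nat.le_of_dvd (Nat.pos_of_ne_zero h0) hdvd).trans hle

end main

end H26UQ
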