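/-
W2-C (S55) block C, deliverable C3B, slice **EX** (helper15): the existence theorem mod `p` in the
tensor model, `H17X.ExTensorStatement S p`, from **EX-MU** (`H17X.ExMuStatement`) by the reduction to
`ζ_p ∈ F`:  `F₁ = F(μ_p) = kumW p F ⊥`,  `F' = F₁(V₁^{1/p}) = kumW p F₁ (vAdd S p F₁)`;
`N_{Gal(F'/F)} c = Σ_{q ∈ Gal(F'/F)/Gal(F'/F₁)} q (N_{Gal(F'/F₁)} c) = p · Σ_q q c₁`.

Main results (namespace `H15X`):
* `norm_tower`  : abstract tower law for the norm of a representation;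
* `ex_of`       : `ExTensorStatement S p` from `ExMuStatement`, `KumFieldStatement`, `SUnitStatement`,
                  `VStatement` (all as hypotheses);
* `ex`          : `ExMuStatement → ExTensorStatement S p` (the other three are landed:
                  `H9XU.kumField`, `H12XV.exSUnit`, `H12XV.exV`).
-/
import Fermat.Agent.CFT2.C3.ExMu_helper17
import Fermat.Agent.CFT2.C3.ExKF_helper9
import Fermat.Agent.CFT2.C3.ExSV_helper12

set_option autoImplicit false
set_option linter.unusedSectionVars false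
set_option linter.unusedVariables false
set_option linter.style.haveILetI false

noncomputable section

namespace H15X

open NumberField H17C H14PT H15D H17X

local notation "Qb" => AlgebraicClosure ℚ

/-- `(q, k) ↦ q.out * k` is a bijection `(G ⧸ K) × K → G` -/
theorem outMul_bijective {G : Type} [Group G] (K : Subgroup G) :
    Function.Bijective (fun z : (G ⧸ K) × K => (z.1.out : G) * (z.2 : G)) := by
  constructor
  · rintro ⟨q, k⟩ ⟨q', k'⟩ h
    have h' : (q.out : G) * (k : G) = (q'.out : G) * (k' : G) := h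
    have hq : q = q' := by
      have e1 : ((q.out * (k : G) : G) : G ⧸ K) = q := by
        rw [QuotientGroup.mk_mul_of_mem _ k.2]
        exact QuotientGroup.out_eq' q
      have e2 : ((q'.out * (k' : G) : G) : G ⧸ K) = q' := by
        rw [QuotientGroup.mk_mul_of_mem _ k'.2]
        exact QuotientGroup.out_eq' q'
      rw [← e1, ← e2, h']
    subst hq
    have hk : (k : G) = (k' : G) := mul_left_cancel h'
    exact Prod.ext rfl (Subtype.ext hk)
  · intro g
    obtain ⟨k, hk⟩ := QuotientGroup.mk_out_eq_mul K g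
    refine ⟨((g : G ⧸ K), k⁻¹), ?_⟩
    show (Quotient.out (g : G ⧸ K) : G) * ((k⁻¹ : K) : G) = g
    rw [hk, Subgroup.coe_inv, mul_inv_cancel_right]

/-- tower law for norms: if `N_{H₁} x = p c₁` with `c₁` `H₁`-invariant and `H₁ ≤ H`, then
`N_H x = p c'` with `c'` `H`-invariant. -/
theorem norm_tower {G C : Type} [Group G] [AddCommGroup C] (ρ : Representation ℤ G C)
    (H₁ H : Subgroup G) [Fintype H₁] [Fintype H] (h₁ : H₁ ≤ H) (p : ℕ) (x c₁ : C)
    (hinv : ∀ σ ∈ H₁, ρ σ c₁ = c₁)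
    (hsum : ∑ h : H₁, ρ (h : G) x = p • c₁) :
    ∃ c' : C, (∀ σ ∈ H, ρ σ c' = c') ∧ ∑ h : H, ρ (h : G) x = p • c' := by
  classical
  set K : Subgroup H := H₁.subgroupOf H with hK
  haveI : Finite H := Finite.of_fintype H
  letI : Fintype (H ⧸ K) := Fintype.ofFinite _
  letI : Fintype K := Fintype.ofFinite _
  have hKmem : ∀ k : K, ((k : H) : G) ∈ H₁ := fun k => Subgroup.mem_subgroupOf.1 k.2
  -- `ρ h c₁` depends only on the coset
  have hout : ∀ h : H, ρ ((Quotient.out (h : H ⧸ K) : H) : G) c₁ = ρ (h : G) c₁ := by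
    intro h
    obtain ⟨k, hk⟩ := QuotientGroup.mk_out_eq_mul K h
    rw [hk, Subgroup.coe_mul, map_mul]
    show ρ (h : G) (ρ ((k : H) : G) c₁) = ρ (h : G) c₁
    rw [hinv _ (hKmem k)]
  refine ⟨∑ q : H ⧸ K, ρ ((q.out : H) : G) c₁, ?_, ?_⟩
  · intro σ hσ
    rw [map_sum]
    refine Fintype.sum_equiv (MulAction.toPerm (⟨σ, hσ⟩ : H)) _ _ ?_
    intro q
    show ρ σ (ρ ((q.out : H) : G) c₁) =
      ρ ((Quotient.out ((⟨σ, hσ⟩ : H) • q) : H) : G) c₁
    have e : ((⟨σ, hσ⟩ : H) • q) = (((⟨σ, hσ⟩ : H) * q.out : H) : H ⧸ K) := by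
      conv_lhs => rw [← QuotientGroup.out_eq' q]
      rfl
    rw [e, hout, Subgroup.coe_mul, map_mul]
    rfl
  · have hsumK : ∑ k : K, ρ ((k : H) : G) x = p • c₁ := by
      rw [← hsum]
      refine Fintype.sum_equiv (Subgroup.subgroupOfEquivOfLe h₁).toEquiv _ _ ?_
      intro k
      rfl
    rw [← (Fintype.sum_bijective _ (outMul_bijective K)
      (fun z => ρ (((z.1.out : H) * (z.2 : H) : H) : G) x)
      (fun h => ρ (h : G) x) (fun z => rfl)), Fintype.sum_prod_type, Finset.smul_sum]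
    refine Finset.sum_congr rfl ?_
    intro q _
    rw [← map_nsmul, ← hsumK, map_sum]
    refine Finset.sum_congr rfl ?_
    intro k _
    rw [Subgroup.coe_mul, map_mul]
    rfl

/-- `Gal(F'/F₁) ≤ Gal(F'/F)` for `F ≤ F₁` -/
theorem galSub_anti {F F₁ : IntermediateField ℚ Qb} (h : F ≤ F₁) (F' : IntermediateField ℚ Qb) :
    galSub F₁ F' ≤ galSub F F' := by
  intro σ hσ x hx
  exact hσ x (h hx)

/-- the tower law for the norm of classes -/
theorem clsN_tower (S : Finset Nat.Primes) (L : Type) [Field L] [NumberField L]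
    (H₁ H : Subgroup (AutQ L)) (h₁ : H₁ ≤ H) (p : ℕ) (c c₁ : ClS S L)
    (hinv : c₁ ∈ clsInv S L H₁) (hsum : clsN S L H₁ c = p • c₁) :
    ∃ c' : ClS S L, c' ∈ clsInv S L H ∧ clsN S L H c = p • c' := by
  letI : Fintype H₁ := Fintype.ofFinite H₁
  letI : Fintype H := Fintype.ofFinite H
  have hs : ∑ h : H₁, clsRep S ℚ L (h : AutQ L) c = p • c₁ := by
    rw [← hsum]
    show _ = (∑ h : H₁, clsRep S ℚ L (h : AutQ L)) c
    rw [LinearMap.sum_apply]
  obtain ⟨c', hc', hN⟩ := norm_tower (clsRep S ℚ L) H₁ H h₁ p c c₁ hinv hs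
  refine ⟨c', hc', ?_⟩
  rw [← hN]
  show (∑ h : H, clsRep S ℚ L (h : AutQ L)) c = _
  rw [LinearMap.sum_apply]

/-- `V` has finite index over the `p`-th powers -/
theorem vIdx_ne_zero (hSU : SUnitStatement) (hV : VStatement) (S : Finset Nat.Primes) (p : ℕ)
    (hp : p.Prime) (K : Type) [Field K] [NumberField K] : vIdx S p K ≠ 0 := by
  obtain ⟨-, heI, -⟩ := hSU S p K hp
  obtain ⟨hcl, hvI⟩ := hV S p K hp heI
  rw [hvI]
  exact Nat.mul_ne_zero heI hcl

/-- `F(μ_p) = kumW p F ⊥` contains a primitive `p`-th root of unity -/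
theorem exists_zeta (p : ℕ) (hp : p.Prime) (F : IntermediateField ℚ Qb) :
    ∃ ζ : kumW p F (⊥ : AddSubgroup (Additive (↥F)ˣ)), IsPrimitiveRoot ζ p := by
  haveI : NeZero p := ⟨hp.ne_zero⟩
  haveI : NeZero ((p : ℕ) : Qb) := ⟨by exact_mod_cast hp.ne_zero⟩
  obtain ⟨ζ, hζ⟩ := HasEnoughRootsOfUnity.exists_primitiveRoot Qb p
  have hmem : ζ ∈ kumW p F (⊥ : AddSubgroup (Additive (↥F)ˣ)) := by
    refine (le_sup_right : _ ≤ kumW p F (⊥ : AddSubgroup (Additive (↥F)ˣ)))
      (IntermediateField.subset_adjoin ℚ _ ?_)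
    refine ⟨1, (AddSubgroup.zero_mem _), ?_⟩
    rw [hζ.pow_eq_one]
    rfl
  refine ⟨⟨ζ, hmem⟩, ?_⟩
  have hinj : Function.Injective
      ((kumW p F (⊥ : AddSubgroup (Additive (↥F)ˣ))).val : _ →ₐ[ℚ] Qb) := Subtype.val_injective
  exact IsPrimitiveRoot.of_map_of_injective (f := (kumW p F (⊥ : AddSubgroup (Additive (↥F)ˣ))).val)
    (by exact hζ) hinj

/-- **(EX)** from the slices -/
theorem ex_of (hMu : ExMuStatement) (hKF : KumFieldStatement) (hSU : SUnitStatement)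
    (hV : VStatement) (S : Finset Nat.Primes) (p : ℕ) (hp : p.Prime) (hp2 : p ≠ 2)
    (hpS : ∃ q ∈ S, (q : ℕ) = p) : ExTensorStatement S p := by
  intro F _ _ hF
  -- step 1: `F₁ = F(μ_p)`
  obtain ⟨hunr₁, hgal₁⟩ := hKF S p hp hpS F hF (vIdx_ne_zero hSU hV S p hp F)
    (⊥ : AddSubgroup (Additive (↥F)ˣ)) bot_le (by
      intro σ a ha
      have ha1 : a = 1 := by
        have := (AddSubgroup.mem_bot).1 ha
        exact this
      rw [ha1, map_one]
      exact AddSubgroup.zero_mem _)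
  haveI hfd₁ : FiniteDimensional ℚ (kumW p F (⊥ : AddSubgroup (Additive (↥F)ˣ))) := hunr₁.1
  haveI := hgal₁
  have hζ := exists_zeta p hp F
  -- step 2: `F' = F₁(V^{1/p})`
  obtain ⟨hfd, hnorm⟩ := hMu S p hp hp2 hpS (kumW p F (⊥ : AddSubgroup (Additive (↥F)ˣ))) hunr₁ hζ
  obtain ⟨hunr, hgal⟩ := hKF S p hp hpS (kumW p F (⊥ : AddSubgroup (Additive (↥F)ˣ))) hunr₁
    (vIdx_ne_zero hSU hV S p hp _) (vAdd S p (kumW p F (⊥ : AddSubgroup (Additive (↥F)ˣ)))) le_rfl
    (fun σ a ha => h17x_vAdd_stable S p _ σ a ha)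
  have hle₁ : F ≤ kumW p F (⊥ : AddSubgroup (Additive (↥F)ˣ)) := le_kumW p F _
  refine ⟨kumW p (kumW p F (⊥ : AddSubgroup (Additive (↥F)ˣ)))
    (vAdd S p (kumW p F (⊥ : AddSubgroup (Additive (↥F)ˣ)))), hfd, hgal,
    hle₁.trans (le_kumW p _ _), hunr, ?_⟩
  intro c
  obtain ⟨c₁, hc₁, hN₁⟩ := hnorm c
  exact clsN_tower S _ _ _ (galSub_anti hle₁ _) p c c₁ hc₁ hN₁

/-- **(EX)** from **(EX-MU)** -/
theorem ex (hMu : ExMuStatement) (S : Finset Nat.Primes) (p : ℕ) (hp : p.Prime) (hp2 : p ≠ 2)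
    (hpS : ∃ q ∈ S, (q : ℕ) = p) : ExTensorStatement S p :=
  ex_of hMu H9XU.kumField H12XV.exSUnit H12XV.exV S p hp hp2 hpS

end H15X

end
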