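/-
W2-C (S55) block C, deliverable **C3B** (helper17): UNCONDITIONAL.
`H17X.h17x_c3b S p hp hp2 hpS : H14PT.C3B S p`  (existence theorem mod `p`).
Slices: EX-SUNIT, EX-V, EX-COUNT, EX-IU (helper12), EX-TORS (helper6, helper13), EX-UQ (helper26),
EX-KUM (helper10), EX-KF, EX-V0 (helper9), EX-REC, EX-RECAPP (helper25), EX-SPLIT (helper20),
EX-NORM, B-CLS strong (helper22), EX (helper15), EX-TR (helper14), EX-MU + assembly (helper17).
-/
import Fermat.Agent.CFT2.C3.C3BFinal_helper17
import Fermat.Agent.CFT2.C3.ExLocOrth_helper13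
import Fermat.Agent.CFT2.C3.ExTors_helper6
import Fermat.Agent.CFT2.C3.ExIU_helper12
import Fermat.Agent.CFT2.C3.ExUQ_helper26
import Fermat.Agent.CFT2.C3.ExKum_helper10
import Fermat.Agent.CFT2.C3.ExSplit_helper20
import Fermat.Agent.CFT2.C3.Ex_helper15

set_option autoImplicit false

noncomputable section

namespace H17X

open NumberField H17C H14PT H15D

/-- **(EX-LOC)** -/
theorem h17x_loc : LocStatement :=
  h17x_loc_of (H13XL.h13xl_tors_of H6TORS.h6t_torsAbs) H12IU.exIU H26UQ.h26_uq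

/-- **(EX-MU)** the existence theorem mod `p` in the tensor model for `ζ_p ∈ F` -/
theorem h17x_exMu_final : ExMuStatement :=
  h17x_exMu_of h17x_loc H10XK.h10xk_kummer H20XS.h20xs_split

/-- **C3B**: the existence theorem mod `p`, for the module `B = I/E` of block E -/
theorem h17x_c3b (S : Finset Nat.Primes) (p : ℕ) (hp : p.Prime) (hp2 : p ≠ 2)
    (hpS : ∃ q ∈ S, (q : ℕ) = p) : C3B S p :=
  h17x_c3b_of h17x_loc H10XK.h10xk_kummer H20XS.h20xs_split
    (fun hMu S p hp hp2 hpS => H15X.ex hMu S p hp hp2 hpS) S p hp hp2 hpS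

end H17X

end
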