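import Mathlib
import Fermat.Agent.CFT2.C3.ExIU_helper12

/-!
# W2-C (S55) block C3, slice EX-LOC: the valuation vector of an idele (helper12, for EX-TORS)

`phi : Additive (KS S K)ˣ →+ (PrimesIn S K → ℤ)` with kernel the unit ideles `U = unitIdeleAdd`:
`phi u = (ord_P a)_P` for any `a ∈ Kˣ` with `u - a ∈ U` (weak approximation).
-/

set_option autoImplicit false
set_option linter.style.haveILetI false
set_option linter.unusedSectionVars false
set_option linter.unusedVariables false

noncomputable section

namespace H12IU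

open H17C H17X NumberField IsDedekindDomain H12FIN H12KF H12XS H12XV Module

variable (S : Finset Nat.Primes) (K : Type) [Field K] [NumberField K]

/-- an element of `Kˣ` which lies in `Λ` has valuation `≤ 1` at the primes above `S` -/
theorem val_le_one_of_mem_lat (x : K) (h : diagRing S K x ∈ latS S K)
    (v : HeightOneSpectrum (𝓞 K)) (hv : aboveS S K v) : v.valuation K x ≤ 1 := by
  obtain ⟨m, hm0, hm, y, hy⟩ := exists_denominator_of_mem_lat x h
  have h1 := val_natCast_primeTo v hv m hm
  have h2 : v.valuation K ((m : K) * x) ≤ 1 := by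
    rw [← hy]; exact HeightOneSpectrum.valuation_le_one v y
  rw [map_mul, h1, one_mul] at h2
  exact h2

/-- the converse of `diagAdd_mem_of_ordAll` -/
theorem ordAll_eq_zero_of_mem (x : Additive Kˣ) (h : diagAdd S K x ∈ unitIdeleAdd S K) :
    ordAll S K x = 0 := by
  have h' : diagS S K (Additive.toMul x) ∈ unitIdele S K := h
  obtain ⟨h1, h2⟩ := h'
  funext v
  have e1 : v.1.valuation K ((Additive.toMul x : Kˣ) : K) ≤ 1 :=
    val_le_one_of_mem_lat S K _ h1 v.1 v.2
  have e2 : v.1.valuation K (((Additive.toMul x)⁻¹ : Kˣ) : K) ≤ 1 := by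
    apply val_le_one_of_mem_lat S K _ _ v.1 v.2
    have : ((diagS S K (Additive.toMul x))⁻¹ : (KS S K)ˣ) = diagS S K (Additive.toMul x)⁻¹ :=
      (map_inv _ _).symm
    rw [this] at h2
    exact h2
  have e3 : v.1.valuation K ((Additive.toMul x : Kˣ) : K) = 1 := by
    refine le_antisymm e1 ?_
    rw [Units.val_inv_eq_inv_val, map_inv₀] at e2
    have h0 : v.1.valuation K ((Additive.toMul x : Kˣ) : K) ≠ 0 :=
      (Valuation.ne_zero_iff _).mpr (Additive.toMul x).ne_zero
    by_contra hlt
    rw [not_le] at hlt
    have := (one_lt_inv₀ (zero_lt_iff.mpr h0)).mpr hlt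
    exact absurd e2 (not_le.mpr this)
  show ordv v.1 ((Additive.toMul x : Kˣ) : K) = 0
  unfold ordv
  rw [e3]; simp

theorem diagAdd_mem_iff (x : Additive Kˣ) :
    diagAdd S K x ∈ unitIdeleAdd S K ↔ ordAll S K x = 0 :=
  ⟨ordAll_eq_zero_of_mem S K x, diagAdd_mem_of_ordAll S K x⟩

/-- well-definedness -/
theorem ordAll_eq_of (u : Additive (KS S K)ˣ) (a b : Additive Kˣ)
    (ha : u - diagAdd S K a ∈ unitIdeleAdd S K) (hb : u - diagAdd S K b ∈ unitIdeleAdd S K) :
    ordAll S K a = ordAll S K b := by
  have h : diagAdd S K (a - b) ∈ unitIdeleAdd S K := by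
    have := (unitIdeleAdd S K).sub_mem hb ha
    rw [map_sub]
    have e : u - diagAdd S K b - (u - diagAdd S K a) = diagAdd S K a - diagAdd S K b := by abel
    rw [e] at this
    exact this
  have h0 := ordAll_eq_zero_of_mem S K _ h
  rw [map_sub, sub_eq_zero] at h0
  exact h0

/-- the valuation vector of an idele at the primes above `S` (indexed by `Sig`) -/
def phiSig : Additive (KS S K)ˣ →+ (Sig S K → ℤ) where
  toFun u := ordAll S K (Classical.choose (exists_sub_mem S K u))
  map_zero' := by
    have h := Classical.choose_spec (exists_sub_mem S K (0 : Additive (KS S K)ˣ))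
    have h0 : (0 : Additive (KS S K)ˣ) - diagAdd S K 0 ∈ unitIdeleAdd S K := by
      rw [map_zero, sub_zero]; exact (unitIdeleAdd S K).zero_mem
    rw [ordAll_eq_of S K 0 _ 0 h h0, map_zero]
  map_add' u v := by
    have hu := Classical.choose_spec (exists_sub_mem S K u)
    have hv := Classical.choose_spec (exists_sub_mem S K v)
    have huv := Classical.choose_spec (exists_sub_mem S K (u + v))
    have h : (u + v) - diagAdd S K (Classical.choose (exists_sub_mem S K u) +
        Classical.choose (exists_sub_mem S K v)) ∈ unitIdeleAdd S K := by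
      have := (unitIdeleAdd S K).add_mem hu hv
      rw [map_add]
      have e : u - diagAdd S K (Classical.choose (exists_sub_mem S K u)) +
          (v - diagAdd S K (Classical.choose (exists_sub_mem S K v))) =
          u + v - (diagAdd S K (Classical.choose (exists_sub_mem S K u)) +
            diagAdd S K (Classical.choose (exists_sub_mem S K v))) := by abel
      rw [e] at this
      exact this
    rw [ordAll_eq_of S K (u + v) _ _ huv h, map_add]

theorem phiSig_eq (u : Additive (KS S K)ˣ) (a : Additive Kˣ)
    (ha : u - diagAdd S K a ∈ unitIdeleAdd S K) : phiSig S K u = ordAll S K a :=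
  ordAll_eq_of S K u _ a (Classical.choose_spec (exists_sub_mem S K u)) ha

theorem phiSig_diag (a : Additive Kˣ) : phiSig S K (diagAdd S K a) = ordAll S K a :=
  phiSig_eq S K _ a (by rw [sub_self]; exact (unitIdeleAdd S K).zero_mem)

theorem phiSig_eq_zero_iff (u : Additive (KS S K)ˣ) :
    phiSig S K u = 0 ↔ u ∈ unitIdeleAdd S K := by
  obtain ⟨a, ha⟩ := exists_sub_mem S K u
  rw [phiSig_eq S K u a ha, ← diagAdd_mem_iff]
  constructor
  · intro h
    have := (unitIdeleAdd S K).add_mem ha h
    rwa [sub_add_cancel] at this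
  · intro h
    have := (unitIdeleAdd S K).sub_mem h ha
    rwa [sub_sub_cancel] at this

theorem ker_phiSig : (phiSig S K).ker = unitIdeleAdd S K := by
  ext u
  exact phiSig_eq_zero_iff S K u

/-- the valuation vector of an idele at the primes above `S` (indexed by `PrimesIn`) -/
def phi : Additive (KS S K)ˣ →+ (PrimesIn S K → ℤ) :=
  (AddMonoidHom.mk' (fun f : Sig S K → ℤ => fun P : PrimesIn S K => f (primesInEquiv S K P))
    (fun _ _ => rfl)).comp (phiSig S K)

theorem phi_apply (u : Additive (KS S K)ˣ) (P : PrimesIn S K) :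
    phi S K u P = phiSig S K u (primesInEquiv S K P) := rfl

theorem phi_eq_zero_iff (u : Additive (KS S K)ˣ) : phi S K u = 0 ↔ u ∈ unitIdeleAdd S K := by
  rw [← phiSig_eq_zero_iff]
  constructor
  · intro h
    funext v
    have := congrFun h ((primesInEquiv S K).symm v)
    rw [phi_apply, Equiv.apply_symm_apply] at this
    exact this
  · intro h
    funext P
    rw [phi_apply, h]
    rfl

/-- **the kernel of the valuation vector is `U`** -/
theorem ker_phi : (phi S K).ker = unitIdeleAdd S K := by
  ext u
  exact phi_eq_zero_iff S K u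

/-- multiplicative form -/
theorem phi_ofMul_eq_zero_iff (u : (KS S K)ˣ) :
    phi S K (Additive.ofMul u) = 0 ↔ u ∈ unitIdele S K :=
  phi_eq_zero_iff S K (Additive.ofMul u)

end H12IU
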