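/-
W2-C (S55) block C, deliverable C3B, slice EX-LOC, sub-slice XL-ORTH (helper13):
`H13XL.h13xl_orth : H13XL.OrthStatement` — a family of nonzero pairwise orthogonal idempotents `c_i`
of `K_S` has at most `#S_K` members.

Proof: the ideles `u_i = 1 - c_i + m c_i` (`m = m_S`) are `ℤ`-independent modulo `U`: if
`u = ∏ u_i^{g_i} ∈ U` then `u c_k = m^{g_k} c_k`, so `c_k ∈ ⋂_j m^j Λ · m^{-b} = 0` unless `g_k = 0`.
By weak approximation `u_i ∈ a_i U`, `a_i ∈ Kˣ`, and the vectors `(ord_v a_i)_{v ∈ S_K}` are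
independent in `ℤ^{S_K}`, since elements of `Kˣ` which are units at `S_K` lie in `U`.
The bridge `H13XL.h13xl_tors_of : TorsAbsStatement → H17X.TorsStatement` is at the end.
-/
import Fermat.Agent.CFT2.C3.ExLocDefs_helper13
import Fermat.Agent.CFT2.C3.ExIU_helper12
import Fermat.Agent.CFT2.C.PowOpenS_helper21
import Fermat.Agent.CFT2.C.SemilocalUnits_helper26

set_option autoImplicit false
set_option linter.unusedSectionVars false
set_option linter.unusedVariables false
set_option linter.style.haveILetI false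

noncomputable section

namespace H13XL

open NumberField H17C H17X H12XS H12XV

variable (S : Finset Nat.Primes) (K : Type) [Field K] [NumberField K]

/-- an element fixed by `m^n w`, `w ∈ Λ`, `n > 0`, is zero -/
theorem eq_zero_of_contract (w c : KS S K) (hw : w ∈ latS S K) (n : ℕ) (hn : 0 < n)
    (h : (mS S : KS S K) ^ n * w * c = c) : c = 0 := by
  have hpow : ∀ N : ℕ, ((mS S : KS S K) ^ n) ^ N * w ^ N * c = c := by
    intro N
    induction N with
    | zero => simp
    | succ N ih =>
      calc ((mS S : KS S K) ^ n) ^ (N + 1) * w ^ (N + 1) * c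
          = ((mS S : KS S K) ^ n) ^ N * w ^ N * ((mS S : KS S K) ^ n * w * c) := by ring
        _ = c := by rw [h, ih]
  obtain ⟨b, hb⟩ := H3C.h3c_bounded S K c
  have hy : ((mS S ^ b : ℕ) : KS S K) * c = 0 := by
    apply H21C.lat_haus S K
    intro j
    refine ⟨(mS S : KS S K) ^ ((n - 1) * j) * w ^ j * (((mS S ^ b : ℕ) : KS S K) * c), ?_, ?_⟩
    · exact (latS S K).mul_mem ((latS S K).mul_mem
        ((latS S K).pow_mem (natCast_mem _ _) _) ((latS S K).pow_mem hw _)) hb
    · have h1 := hpow j
      have e : n * j = j + (n - 1) * j := by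
        obtain ⟨n', rfl⟩ : ∃ n', n = n' + 1 := ⟨n - 1, by omega⟩
        simp only [Nat.add_sub_cancel]
        ring
      calc ((mS S ^ b : ℕ) : KS S K) * c
          = ((mS S ^ b : ℕ) : KS S K) * (((mS S : KS S K) ^ n) ^ j * w ^ j * c) := by rw [h1]
        _ = (mS S : KS S K) ^ j * ((mS S : KS S K) ^ ((n - 1) * j) * w ^ j *
              (((mS S ^ b : ℕ) : KS S K) * c)) := by
            rw [← pow_mul, e, pow_add]
            ring
  have hu : IsUnit ((mS S ^ b : ℕ) : KS S K) := by
    rw [Nat.cast_pow]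
    exact (H26SU.mS_isUnit S K).pow b
  exact (hu.mul_right_eq_zero).mp hy

/-- the unit `m_S` of `K_S` -/
def mUnit : (KS S K)ˣ := (H26SU.mS_isUnit S K).unit

theorem mUnit_val : ((mUnit S K : (KS S K)ˣ) : KS S K) = (mS S : KS S K) := rfl

theorem mUnit_mul_inv :
    (mS S : KS S K) * (((mUnit S K)⁻¹ : (KS S K)ˣ) : KS S K) = 1 := by
  rw [← mUnit_val]
  exact Units.mul_inv _

/-- the idele `1 - c + m c` of an idempotent `c` -/
def idemUnit (c : KS S K) (hc : c * c = c) : (KS S K)ˣ where
  val := 1 - c + (mS S : KS S K) * c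
  inv := 1 - c + (((mUnit S K)⁻¹ : (KS S K)ˣ) : KS S K) * c
  val_inv := by
    have hm := mUnit_mul_inv S K
    linear_combination (1 - (mS S : KS S K) - (((mUnit S K)⁻¹ : (KS S K)ˣ) : KS S K) +
      (mS S : KS S K) * (((mUnit S K)⁻¹ : (KS S K)ˣ) : KS S K)) * hc + c * hm
  inv_val := by
    have hm := mUnit_mul_inv S K
    linear_combination (1 - (mS S : KS S K) - (((mUnit S K)⁻¹ : (KS S K)ˣ) : KS S K) +
      (mS S : KS S K) * (((mUnit S K)⁻¹ : (KS S K)ˣ) : KS S K)) * hc + c * hm

theorem idemUnit_val (c : KS S K) (hc : c * c = c) :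
    ((idemUnit S K c hc : (KS S K)ˣ) : KS S K) = 1 - c + (mS S : KS S K) * c := rfl

/-- the ideles fixing `c` -/
def stabAdd (c : KS S K) : AddSubgroup (Additive (KS S K)ˣ) where
  carrier := {x | ((Additive.toMul x : (KS S K)ˣ) : KS S K) * c = c}
  zero_mem' := by
    show ((1 : (KS S K)ˣ) : KS S K) * c = c
    rw [Units.val_one, one_mul]
  add_mem' := by
    intro x y hx hy
    show (((Additive.toMul x * Additive.toMul y : (KS S K)ˣ)) : KS S K) * c = c
    rw [Units.val_mul, mul_assoc]
    have hy' : ((Additive.toMul y : (KS S K)ˣ) : KS S K) * c = c := hy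
    rw [hy']
    exact hx
  neg_mem' := by
    intro x hx
    show ((((Additive.toMul x : (KS S K)ˣ))⁻¹ : (KS S K)ˣ) : KS S K) * c = c
    have hx' : ((Additive.toMul x : (KS S K)ˣ) : KS S K) * c = c := hx
    calc ((((Additive.toMul x : (KS S K)ˣ))⁻¹ : (KS S K)ˣ) : KS S K) * c
        = ((((Additive.toMul x : (KS S K)ˣ))⁻¹ : (KS S K)ˣ) : KS S K) *
            (((Additive.toMul x : (KS S K)ˣ) : KS S K) * c) := by rw [hx']
      _ = c := by rw [← mul_assoc, Units.inv_mul, one_mul]

theorem mem_stabAdd (c : KS S K) (x : Additive (KS S K)ˣ) :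
    x ∈ stabAdd S K c ↔ ((Additive.toMul x : (KS S K)ˣ) : KS S K) * c = c := Iff.rfl

/-- **(XL-ORTH)**, the bound -/
theorem orth_card_le {ι : Type} [Fintype ι] (c : ι → KS S K) (h0 : ∀ i, c i ≠ 0)
    (h1 : ∀ i, c i * c i = c i) (h2 : ∀ i j, i ≠ j → c i * c j = 0) :
    Fintype.card ι ≤ nS S K := by
  classical
  haveI : Fintype (Sig S K) := Fintype.ofFinite _
  let u : ι → (KS S K)ˣ := fun i => idemUnit S K (c i) (h1 i)
  choose a ha using fun i => H12IU.exists_sub_mem S K (Additive.ofMul (u i))
  let v : ι → (Sig S K → ℤ) := fun i => H12IU.ordAll S K (a i)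
  have hli : LinearIndependent ℤ v := by
    rw [Fintype.linearIndependent_iff]
    intro g hg k
    have hA : H12IU.ordAll S K (∑ i, g i • a i) = 0 := by
      rw [map_sum]
      simp only [map_zsmul]
      exact hg
    have hU1 := H12IU.diagAdd_mem_of_ordAll S K _ hA
    have hU : (∑ i, g i • Additive.ofMul (u i)) ∈ unitIdeleAdd S K := by
      have e : (∑ i, g i • Additive.ofMul (u i)) =
          (∑ i, g i • (Additive.ofMul (u i) - diagAdd S K (a i))) +
            diagAdd S K (∑ i, g i • a i) := by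
        rw [map_sum, ← Finset.sum_add_distrib]
        refine Finset.sum_congr rfl (fun i _ => ?_)
        rw [map_zsmul, ← zsmul_add, sub_add_cancel]
      rw [e]
      exact (unitIdeleAdd S K).add_mem ((unitIdeleAdd S K).sum_mem fun i _ =>
        (unitIdeleAdd S K).zsmul_mem (ha i) _) hU1
    -- the stabilizer of `c k`
    have hst : ∀ i, Additive.ofMul (u i) - (if i = k then Additive.ofMul (mUnit S K) else 0) ∈
        stabAdd S K (c k) := by
      intro i
      by_cases hik : i = k
      · subst hik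
        rw [if_pos rfl, mem_stabAdd]
        show (((u i) * (mUnit S K)⁻¹ : (KS S K)ˣ) : KS S K) * c i = c i
        rw [Units.val_mul]
        show (1 - c i + (mS S : KS S K) * c i) * _ * c i = c i
        have hm := mUnit_mul_inv S K
        have hc := h1 i
        linear_combination ((((mUnit S K)⁻¹ : (KS S K)ˣ) : KS S K) *
          ((mS S : KS S K) - 1)) * hc + c i * hm
      · rw [if_neg hik, sub_zero, mem_stabAdd]
        show (1 - c i + (mS S : KS S K) * c i) * c k = c k
        have hc := h2 i k hik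
        linear_combination ((mS S : KS S K) - 1) * hc
    have hX : (∑ i, g i • Additive.ofMul (u i)) - g k • Additive.ofMul (mUnit S K) ∈
        stabAdd S K (c k) := by
      have e : (∑ i, g i • Additive.ofMul (u i)) - g k • Additive.ofMul (mUnit S K) =
          ∑ i, g i • (Additive.ofMul (u i) -
            (if i = k then Additive.ofMul (mUnit S K) else 0)) := by
        have e1 : ∑ i, g i • (if i = k then Additive.ofMul (mUnit S K) else 0) =
            g k • Additive.ofMul (mUnit S K) := by
          rw [Finset.sum_eq_single k]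
          · rw [if_pos rfl]
          · intro i _ hik
            rw [if_neg hik, zsmul_zero]
          · intro hk
            exact absurd (Finset.mem_univ k) hk
        rw [← e1, ← Finset.sum_sub_distrib]
        refine Finset.sum_congr rfl (fun i _ => ?_)
        rw [zsmul_sub]
      rw [e]
      exact (stabAdd S K (c k)).sum_mem fun i _ => (stabAdd S K (c k)).zsmul_mem (hst i) _
    set X : (KS S K)ˣ := Additive.toMul (∑ i, g i • Additive.ofMul (u i)) with hXdef
    have hXU : X ∈ unitIdele S K := hU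
    have hXc : ((X * ((mUnit S K) ^ (g k))⁻¹ : (KS S K)ˣ) : KS S K) * c k = c k := hX
    by_contra hgk
    rcases lt_or_gt_of_ne hgk with hneg | hpos
    · -- `g k = -n`
      obtain ⟨n, hn⟩ : ∃ n : ℕ, g k = -(n : ℤ) := ⟨(-(g k)).toNat, by omega⟩
      have hn0 : 0 < n := by omega
      rw [hn, zpow_neg, inv_inv, zpow_natCast, Units.val_mul, Units.val_pow_eq_pow_val,
        mUnit_val] at hXc
      apply h0 k
      apply eq_zero_of_contract S K (X : KS S K) (c k) hXU.1 n hn0
      rw [mul_comm ((mS S : KS S K) ^ n) (X : KS S K)]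
      exact hXc
    · obtain ⟨n, hn⟩ : ∃ n : ℕ, g k = (n : ℤ) := ⟨(g k).toNat, by omega⟩
      have hn0 : 0 < n := by omega
      rw [hn, zpow_natCast] at hXc
      apply h0 k
      apply eq_zero_of_contract S K ((X⁻¹ : (KS S K)ˣ) : KS S K) (c k) hXU.2 n hn0
      have h3 : ((mUnit S K ^ n : (KS S K)ˣ) : KS S K) = (mS S : KS S K) ^ n := by
        rw [Units.val_pow_eq_pow_val, mUnit_val]
      have h4 : ((X * (mUnit S K ^ n)⁻¹ : (KS S K)ˣ) : KS S K) * c k = c k := hXc
      calc (mS S : KS S K) ^ n * ((X⁻¹ : (KS S K)ˣ) : KS S K) * c k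
          = (mS S : KS S K) ^ n * ((X⁻¹ : (KS S K)ˣ) : KS S K) *
              (((X * (mUnit S K ^ n)⁻¹ : (KS S K)ˣ) : KS S K) * c k) := by rw [h4]
        _ = (((mUnit S K ^ n) * X⁻¹ * (X * (mUnit S K ^ n)⁻¹) : (KS S K)ˣ) : KS S K) * c k := by
            rw [← h3]
            push_cast
            ring
        _ = c k := by
            have : (mUnit S K ^ n) * X⁻¹ * (X * (mUnit S K ^ n)⁻¹) = 1 := by group
            rw [this, Units.val_one, one_mul]
  have h3 := hli.fintype_card_le_finrank
  rw [Module.finrank_fintype_fun_eq_card] at h3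
  rw [nS_eq, Nat.card_eq_fintype_card]
  exact h3

/-- **(XL-ORTH)** -/
theorem h13xl_orth : OrthStatement := by
  intro S K _ _
  exact ⟨inferInstance, fun ι _ c h0 h1 h2 => orth_card_le S K c h0 h1 h2⟩

/-- the bridge to helper17's form of EX-TORS -/
theorem h13xl_tors_of (hT : TorsAbsStatement) : H17X.TorsStatement := by
  intro S p K _ _ hp hp2 hζ
  obtain ⟨ζ, hζ⟩ := hζ
  classical
  have hF : ∀ F : Finset (KS S K), (∀ h ∈ F, h ^ p = 1) → F.card ≤ p ^ nS S K :=
    hT K (KS S K) p (nS S K) ζ hp hζ (fun ι _ c h0 h1 h2 => orth_card_le S K c h0 h1 h2)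
  let T : Set (KS S K) := {h | h ^ p = 1}
  have hTfin : T.Finite := by
    by_contra hinf
    obtain ⟨t, ht, hcard⟩ := Set.Infinite.exists_subset_card_eq hinf (p ^ nS S K + 1)
    have := hF t (fun h hh => ht hh)
    omega
  let f : TorsP S p K → T := fun x => ⟨((x.1 : (KS S K)ˣ) : KS S K), by
    show ((x.1 : (KS S K)ˣ) : KS S K) ^ p = 1
    rw [← Units.val_pow_eq_pow_val, x.2, Units.val_one]⟩
  have hf : Function.Injective f := by
    intro x y h
    apply Subtype.ext
    apply Units.ext
    exact congrArg Subtype.val h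
  haveI : Finite T := hTfin
  refine ⟨Finite.of_injective f hf, ?_⟩
  calc Nat.card (TorsP S p K) ≤ Nat.card T := Nat.card_le_card_of_injective f hf
    _ = hTfin.toFinset.card := by
        rw [Nat.card_coe_set_eq, Set.ncard_eq_toFinset_card T hTfin]
    _ ≤ p ^ nS S K := hF _ (fun h hh => (Set.Finite.mem_toFinset hTfin).mp hh)

end H13XL

end
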