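/-
W2-C (S55) block C, deliverable C3B, slice EX-LOC (helper13): the final assembly
`H13XL.h13xl_loc : H17X.LocStatement`  (`[I_K : I_K^p] ≤ p^{[K:ℚ] + 2 #S_K}`, finite), from
EX-TORS (helper6 `H6TORS.h6t_torsAbs` + `H13XL.h13xl_tors_of`, orthogonal idempotents),
EX-IU (helper12 `H12IU.exIU`) and EX-UQ (helper26 `H26UQ.h26_uq`) by helper17's `h17x_loc_of`.
-/
import Fermat.Agent.CFT2.C3.ExLocOrth_helper13
import Fermat.Agent.CFT2.C3.ExTors_helper6
import Fermat.Agent.CFT2.C3.ExUQ_helper26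

set_option autoImplicit false

namespace H13XL

/-- **(EX-TORS)** -/
theorem h13xl_tors : H17X.TorsStatement := h13xl_tors_of H6TORS.h6t_torsAbs

/-- **(EX-LOC)** -/
theorem h13xl_loc : H17X.LocStatement :=
  H17X.h17x_loc_of h13xl_tors H12IU.exIU H26UQ.h26_uq

end H13XL
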