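/-
W2-C (S55) block C, deliverable C3B, slice **EX-NORM** (helper22): `H17X.NormGroupStatement`:
the norm group `𝒩 ⊆ A_K` of `L/K`: `Kˣ ⊆ 𝒩`, `[A_K : 𝒩] = |H^ab|`, `n A_K ⊆ 𝒩` (`H = Gal(L/K)` of
exponent `n`), by descent of classes (`TW-DESC`, `TW-EQV`) from reciprocity in `C_L` (`EX-RECAPP`).
-/
import Fermat.Agent.CFT2.C3.Defs_helper17

set_option autoImplicit false
set_option linter.unusedSectionVars false
set_option linter.unusedVariables false
set_option linter.style.haveILetI false

noncomputable section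

namespace H22XN

open NumberField H17C H17X

variable (S : Finset Nat.Primes)

section general

variable (L : Type) [Field L] [NumberField L] (H : Subgroup (AutQ L))

theorem clsN_mk (z : AmbS S L) :
    clsN S L H (clsMk S L z) = clsMk S L (ambN S L H z) := by
  letI : Fintype H := Fintype.ofFinite _
  show (∑ h : H, clsRep S ℚ L (h : AutQ L)) (clsMk S L z) =
    clsMk S L ((∑ h : H, ambRep S ℚ L (h : AutQ L)) z)
  rw [LinearMap.sum_apply, LinearMap.sum_apply, map_sum]
  rfl

end general

section tower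

variable (K L : Type) [Field K] [NumberField K] [Field L] [NumberField L] [Algebra K L]
  [IsGalois ℚ L] (hS : S.Nonempty) (hunr : UnramOutside S L ⊤)
  (hdesc : H22BC.TowerDescStatement S) (heqv : H22BC.TowerEqvStatement S)

include heqv in
/-- the class of a base change is invariant -/
theorem cls_base_mem (z : AmbS S K) :
    clsMk S L (ambBase S K L z) ∈ clsInv S L (fixSub K L) := by
  intro σ hσ
  rw [clsRep_mk]
  have h := heqv K L σ 1 (fun x => by
    rw [AlgEquiv.one_apply]
    exact ((mem_fixSub K L σ).1 hσ x).symm) z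
  have h1 : ambRep S ℚ K 1 z = z := by
    rw [map_one]
    rfl
  rw [h1] at h
  rw [← h]

/-- `φ : A_K → C_L^H`, `z ↦ [base z]` -/
def phi : AmbS S K →+ ↥(clsInv S L (fixSub K L)) where
  toFun z := ⟨clsMk S L (ambBase S K L z), cls_base_mem S K L heqv z⟩
  map_zero' := by
    apply Subtype.ext
    show clsMk S L (ambBase S K L 0) = 0
    rw [map_zero, map_zero]
  map_add' z z' := by
    apply Subtype.ext
    show clsMk S L (ambBase S K L (z + z')) =
      clsMk S L (ambBase S K L z) + clsMk S L (ambBase S K L z')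
    rw [map_add, map_add]

theorem phi_coe (z : AmbS S K) :
    ((phi S K L heqv z : ↥(clsInv S L (fixSub K L))) : ClS S L) =
      clsMk S L (ambBase S K L z) := rfl

include hS hunr hdesc in
theorem phi_surjective : Function.Surjective (phi S K L heqv) := by
  rintro ⟨c, hc⟩
  obtain ⟨z, rfl⟩ := clsMk_surjective S L c
  obtain ⟨w, hw⟩ := (hdesc K L hS hunr).2.2 z (fun σ hσ => hc σ ((mem_fixSub K L σ).2 hσ))
  exact ⟨w, Subtype.ext hw⟩

/-- the norm group is the preimage of the norms -/
theorem normAmb_eq_comap :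
    normAmb S K L = ((clsN S L (fixSub K L)).range.addSubgroupOf
      (clsInv S L (fixSub K L))).comap (phi S K L heqv) := by
  ext z
  rw [mem_normAmb, AddSubgroup.mem_comap, AddSubgroup.mem_addSubgroupOf, phi_coe]
  constructor
  · rintro ⟨y, hy⟩
    refine ⟨clsMk S L y, ?_⟩
    rw [clsN_mk, eq_comm]
    exact (Submodule.Quotient.eq _).2 hy
  · rintro ⟨c, hc⟩
    obtain ⟨y, rfl⟩ := clsMk_surjective S L c
    refine ⟨y, ?_⟩
    rw [clsN_mk] at hc
    exact (Submodule.Quotient.eq _).1 hc.symm

end tower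

/-- **(EX-NORM)** -/
theorem h22xn_normGroup : NormGroupStatement := by
  intro hra hfc hre S hdesc heqv p K L _ _ _ _ _ _ hp hp2 hpS hunr hpg
  have hS : S.Nonempty := by
    obtain ⟨q, hq, -⟩ := hpS
    exact ⟨q, hq⟩
  obtain ⟨hR1, hR2⟩ := hra hfc hre S p L hp hp2 hpS hunr (fixSub K L) hpg
  refine ⟨?_, ?_, ?_⟩
  · intro z hz
    obtain ⟨a, rfl⟩ := (mem_princS_iff S K z).1 hz
    rw [mem_normAmb]
    refine ⟨0, ?_⟩
    rw [map_zero, sub_zero]
    have h1 := (hdesc K L hS hunr).1 (Additive.toMul a)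
    exact (mem_princS_iff S L _).2 ⟨_, h1.symm⟩
  · rw [normAmb_eq_comap S K L heqv,
      AddSubgroup.index_comap_of_surjective _ (phi_surjective S K L hS hunr hdesc heqv)]
    exact hR1
  · intro n hn z hz
    obtain ⟨z', rfl⟩ := (mem_pMul z).1 hz
    rw [normAmb_eq_comap S K L heqv, AddSubgroup.mem_comap, AddSubgroup.mem_addSubgroupOf,
      map_nsmul]
    exact hR2 n hn _ (phi S K L heqv z').2

end H22XN

end
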