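/-
W2-C (S55) block C, C3B (helper25): EX-RECAPP, unconditional form
(`FundamentalClass` = `H25C.h25c_fundamentalClass`, EX-REC = `H25X.h25x_recExp`).
-/
import Fermat.Agent.CFT2.C3.ExRecApp_helper25
import Fermat.Agent.CFT2.C.FCFinal_helper25

set_option autoImplicit false
set_option linter.unusedSectionVars false
set_option linter.unusedVariables false

noncomputable section

namespace H25X

open NumberField H17C

/-- reciprocity for `p`-subgroups `H ≤ Gal(L/ℚ)` on `C_L`, unconditional:
`[C_L^H : N_H C_L] = |H^ab|` and `n C_L^H ⊆ N_H C_L` for every exponent `n` of `H`. -/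
theorem h25x_recApp_final (S : Finset Nat.Primes) (p : ℕ) (L : Type) [Field L] [NumberField L]
    [IsGalois ℚ L] (hp : p.Prime) (hp2 : p ≠ 2) (hpS : ∃ q ∈ S, (q : ℕ) = p)
    (hunr : UnramOutside S L ⊤) (H : Subgroup (AutQ L)) (hH : IsPGroup p H) :
    (clsN S L H).range.relIndex (H17X.clsInv S L H) = Nat.card (Abelianization H) ∧
      ∀ n : ℕ, (∀ σ ∈ H, σ ^ n = 1) → ∀ c ∈ H17X.clsInv S L H, n • c ∈ (clsN S L H).range :=
  h25x_recApp H25C.h25c_fundamentalClass (fun G _ _ => h25x_recExp G) S p L hp hp2 hpS hunr H hH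

end H25X

end
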