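/-
W2-C (S55) block C, C3B sub-slice **EX-V0** (helper9): `H17X.V0Statement` from EX-KUM alone
(all other inputs are landed: EX-KF helper9, EX-NORM helper22, EX-REC/RECAPP + FundamentalClass
helper25, TOWER helper22, EX-SPLIT helper20, EX-SUNIT + EX-V helper12).
-/
import Fermat.Agent.CFT2.C3.ExV0_helper9
import Fermat.Agent.CFT2.C3.ExKF_helper9
import Fermat.Agent.CFT2.C3.ExNorm_helper22
import Fermat.Agent.CFT2.C3.ExRecApp_helper25
import Fermat.Agent.CFT2.C3.ExSplit_helper20
import Fermat.Agent.CFT2.C3.ExSV_helper12
import Fermat.Agent.CFT2.C.FCFinal_helper25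
import Fermat.Agent.CFT2.C.BCls.Tower1_helper22
import Fermat.Agent.CFT2.C.BCls.Tower2_helper22

set_option autoImplicit false
set_option linter.style.haveILetI false
set_option linter.unusedSectionVars false
set_option linter.unusedVariables false

noncomputable section

namespace H9V0

open NumberField H17C H17X H14PT H15D

/-- the conclusion of EX-NORM, unconditional -/
theorem normConcl : NormConcl :=
  normConcl_of H22XN.h22xn_normGroup H25X.h25x_recApp H25C.h25c_fundamentalClass
    (fun G _ _ => H25X.h25x_recExp G) (fun S => H22BC.h22bc_towerDesc S)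
    (fun S => H22BC.h22bc_towerEqv S)

/-- **(EX-V0)** from EX-KUM. -/
theorem v0_final (hKum : KummerStatement) : V0Statement :=
  v0_of H9XU.kumField hKum normConcl H20XS.h20xs_split H12XV.exSUnit H12XV.exV

end H9V0

end
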